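import Fermat.Agent.S23.Basic

/-!
# S23, piece P14 — the ring of holomorphic, `1`-periodic functions bounded at `i∞`

`HPB` is the subalgebra of `ℍ → ℂ` of holomorphic, `1`-periodic functions bounded at `i∞`;
`qExpHom : HPB →ₐ[ℂ] PowerSeries ℂ` (the `q`-expansion) is an injective algebra homomorphism.
-/

set_option autoImplicit false

noncomputable section

namespace Fermat.Agent.S23

open UpperHalfPlane ModularForm Filter Function
open scoped MatrixGroups ModularForm Manifold Topology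

/-- holomorphic on `ℍ`, `1`-periodic and bounded at `i∞` -/
def IsHPB (f : ℍ → ℂ) : Prop :=
  MDiff f ∧ Function.Periodic (f ∘ ofComplex) 1 ∧ IsBoundedAtImInfty f

theorem IsHPB.analyticAt {f : ℍ → ℂ} (hf : IsHPB f) : AnalyticAt ℂ (cuspFunction 1 f) 0 :=
  analyticAt_cuspFunction_zero one_pos hf.2.1 hf.1 hf.2.2

theorem qring_isHPB_const (c : ℂ) : IsHPB (fun _ : ℍ => c) := by
  refine ⟨mdifferentiable_const, fun _ => rfl, ?_⟩
  exact Filter.const_boundedAtFilter _ c

theorem IsHPB.add {f g : ℍ → ℂ} (hf : IsHPB f) (hg : IsHPB g) : IsHPB (f + g) := by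
  refine ⟨hf.1.add hg.1, ?_, hf.2.2.add hg.2.2⟩
  intro x
  have h1 := hf.2.1 x
  have h2 := hg.2.1 x
  simp only [Function.comp_apply, Pi.add_apply] at h1 h2 ⊢
  rw [h1, h2]

theorem IsHPB.mul {f g : ℍ → ℂ} (hf : IsHPB f) (hg : IsHPB g) : IsHPB (f * g) := by
  refine ⟨hf.1.mul hg.1, ?_, hf.2.2.mul hg.2.2⟩
  intro x
  have h1 := hf.2.1 x
  have h2 := hg.2.1 x
  simp only [Function.comp_apply, Pi.mul_apply] at h1 h2 ⊢
  rw [h1, h2]

/-- The subalgebra of holomorphic, `1`-periodic functions on `ℍ` that are bounded at `i∞`. -/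
def HPB : Subalgebra ℂ (ℍ → ℂ) where
  carrier := {f | IsHPB f}
  mul_mem' := fun hf hg => IsHPB.mul hf hg
  add_mem' := fun hf hg => IsHPB.add hf hg
  algebraMap_mem' := fun c => qring_isHPB_const c

theorem mem_HPB {f : ℍ → ℂ} : f ∈ HPB ↔ IsHPB f := Iff.rfl

/-- The `q`-expansion as an algebra homomorphism on `HPB`. -/
def qExpHom : HPB →ₐ[ℂ] PowerSeries ℂ where
  toFun f := qExpansion 1 (f : ℍ → ℂ)
  map_one' := qExpansion_one 1
  map_mul' f g := qExpansion_mul (IsHPB.analyticAt f.2) (IsHPB.analyticAt g.2)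
  map_zero' := qExpansion_zero 1
  map_add' f g := qExpansion_add (IsHPB.analyticAt f.2) (IsHPB.analyticAt g.2)
  commutes' c := by
    have h1 : ((algebraMap ℂ HPB c : HPB) : ℍ → ℂ) = c • (1 : ℍ → ℂ) := by
      ext z
      simp [Algebra.algebraMap_eq_smul_one]
    have h2 : AnalyticAt ℂ (cuspFunction 1 (1 : ℍ → ℂ)) 0 :=
      IsHPB.analyticAt (qring_isHPB_const 1)
    show qExpansion 1 ((algebraMap ℂ HPB c : HPB) : ℍ → ℂ) = _
    rw [h1, qExpansion_smul h2, qExpansion_one, Algebra.algebraMap_eq_smul_one]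

@[simp] theorem qExpHom_apply (f : HPB) : qExpHom f = qExpansion 1 (f : ℍ → ℂ) := rfl

theorem qExpHom_injective : Function.Injective qExpHom := by
  rw [injective_iff_map_eq_zero]
  intro f hf
  have := (qExpansion_eq_zero_iff one_pos f.2.2.1 f.2.1 f.2.2.2).mp hf
  exact Subtype.ext this

theorem IsHPB.tendsto_coeff_zero {f : ℍ → ℂ} (hf : IsHPB f) :
    Filter.Tendsto f atImInfty (nhds ((qExpansion 1 f).coeff 0)) := by
  have han := hf.analyticAt
  have h0 : (qExpansion 1 f).coeff 0 = cuspFunction 1 f 0 := by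
    simp [qExpansion_coeff]
  rw [h0]
  have : (cuspFunction 1 f ∘ fun τ : ℍ ↦ Periodic.qParam 1 τ : ℍ → ℂ) = f := by
    funext τ
    simpa using eq_cuspFunction τ one_ne_zero hf.2.1
  simpa [this] using han.continuousAt.tendsto.comp (qParam_tendsto_atImInfty one_pos)

theorem IsHPB.coeff_zero_of_tendsto {f : ℍ → ℂ} (hf : IsHPB f) {c : ℂ}
    (h : Filter.Tendsto f atImInfty (nhds c)) : (qExpansion 1 f).coeff 0 = c :=
  tendsto_nhds_unique hf.tendsto_coeff_zero h

theorem IsMF.isHPB {N : ℕ} [NeZero N] {κ : ℤ} {f : ℍ → ℂ} (hf : IsMF (G0 N) κ f) : IsHPB f := by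
  obtain ⟨F, rfl⟩ := hf
  have h1 : (1 : ℝ) ∈ (G0 N).strictPeriods := CongruenceSubgroup.one_mem_strictPeriods_Gamma0 N
  have : Fact (IsCusp OnePoint.infty (G0 N)) :=
    ⟨(G0 N).isCusp_of_mem_strictPeriods one_pos h1⟩
  exact ⟨ModularFormClass.holo F, SlashInvariantFormClass.periodic_comp_ofComplex F h1,
    ModularFormClass.bdd_at_infty F⟩

end Fermat.Agent.S23
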