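import Fermat.Agent.S23.Basic

/-!
# S23, piece P13: finite-dimensionality of `S_k(Γ₀(N))` and the `q`-expansion as an injective
linear map.
-/

set_option autoImplicit false

noncomputable section

namespace Fermat.Agent.S23

open UpperHalfPlane ModularForm
open scoped MatrixGroups ModularForm Manifold

theorem findim_one_mem_strictPeriods (N : ℕ) : (1 : ℝ) ∈ (G0 N).strictPeriods :=
  CongruenceSubgroup.one_mem_strictPeriods_Gamma0 N

/-- The `q`-expansion (period `1`) as a linear map on cusp forms of level `Γ₀(N)`. -/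
def qExpLin (N : ℕ) [NeZero N] (k : ℤ) : CuspForm (G0 N) k →ₗ[ℂ] PowerSeries ℂ where
  toFun f := qExpansion 1 f
  map_add' f g := by
    rw [FunLike.coe_add]
    exact ModularForm.qExpansion_add one_pos (findim_one_mem_strictPeriods N) f g
  map_smul' c f := by
    have h1 : (⇑(c • f) : ℍ → ℂ) = c • ⇑f := by
      ext z
      simp
    rw [h1]
    exact ModularForm.qExpansion_smul one_pos (findim_one_mem_strictPeriods N) c f

@[simp] theorem qExpLin_apply (N : ℕ) [NeZero N] (k : ℤ) (f : CuspForm (G0 N) k) :
    qExpLin N k f = qExpansion 1 f := rfl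

theorem qExpLin_injective (N : ℕ) [NeZero N] (k : ℤ) : Function.Injective (qExpLin N k) := by
  rw [← LinearMap.ker_eq_bot, LinearMap.ker_eq_bot']
  intro f hf
  have hmf : (ModularFormClass.modularForm f : ModularForm (G0 N) k) = 0 := by
    rw [← ModularForm.qExpansion_eq_zero_iff one_pos (findim_one_mem_strictPeriods N)]
    exact hf
  have hcoe : (⇑f : ℍ → ℂ) = 0 := by
    have := congrArg (fun F : ModularForm (G0 N) k ↦ (⇑F : ℍ → ℂ)) hmf
    simpa using this
  exact DFunLike.coe_injective (hcoe.trans (FunLike.coe_zero (F := CuspForm (G0 N) k)).symm)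

theorem exists_qExpLin (N : ℕ) [NeZero N] (k : ℤ) :
    ∃ L : CuspForm (G0 N) k →ₗ[ℂ] PowerSeries ℂ, Function.Injective L ∧
      ∀ f, L f = qExpansion 1 f :=
  ⟨qExpLin N k, qExpLin_injective N k, fun _ => rfl⟩

/-- The Sturm bound index. -/
def findimB (N : ℕ) (k : ℤ) : ℕ := (k * (CongruenceSubgroup.Gamma0 N).index).toNat / 12

/-- truncation of the `q`-expansion at the Sturm bound. -/
def findimTrunc (N : ℕ) [NeZero N] (k : ℤ) :
    CuspForm (G0 N) k →ₗ[ℂ] (Fin (findimB N k + 1) → ℂ) where
  toFun f i := (qExpansion 1 f).coeff i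
  map_add' f g := by
    funext i
    have h := (qExpLin N k).map_add f g
    simp only [qExpLin_apply] at h
    simp only [Pi.add_apply]
    rw [h, map_add]
  map_smul' c f := by
    funext i
    have h := (qExpLin N k).map_smul c f
    simp only [qExpLin_apply] at h
    simp only [Pi.smul_apply, RingHom.id_apply]
    rw [h, PowerSeries.coeff_smul]

theorem findimTrunc_injective (N : ℕ) [NeZero N] (k : ℤ) :
    Function.Injective (findimTrunc N k) := by
  rw [← LinearMap.ker_eq_bot, LinearMap.ker_eq_bot']
  intro f hf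
  have hmf : (ModularFormClass.modularForm f : ModularForm (G0 N) k) = 0 := by
    refine ModularForm.sturm_bound_Gamma0 N _ fun n hn ↦ ?_
    have := congrFun hf ⟨n, Nat.lt_succ_of_le hn⟩
    simpa [findimTrunc] using this
  have hcoe : (⇑f : ℍ → ℂ) = 0 := by
    have := congrArg (fun F : ModularForm (G0 N) k ↦ (⇑F : ℍ → ℂ)) hmf
    simpa using this
  exact DFunLike.coe_injective (hcoe.trans (FunLike.coe_zero (F := CuspForm (G0 N) k)).symm)

theorem cuspForm_finiteDimensional (N : ℕ) [NeZero N] (k : ℤ) :
    FiniteDimensional ℂ (CuspForm (G0 N) k) :=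
  FiniteDimensional.of_injective (findimTrunc N k) (findimTrunc_injective N k)

end Fermat.Agent.S23
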