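import Fermat.Agent.S23.Basic

/-!
# S23 piece (N'): bounded denominators, pure algebra

`ℤ⟦X⟧` is completely integrally closed, in the following concrete sense: a power series `x` with
rational coefficients such that `d * x ^ j` has integer coefficients for all `j` (for one fixed
nonzero integral `d`) has integer coefficients (`isIntPS_of_forall_mul_pow`).  Consequently a
rational power series which is a fraction of integral power series and satisfies a monic equation
with integral coefficients is integral (`isIntPS_of_monic_of_fraction`).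
-/

set_option autoImplicit false

namespace Fermat.Agent.S23

open PowerSeries

/-- A rational number `x` such that `d * x ^ j` is an integer for all `j` (with `d ≠ 0` a fixed
integer) is an integer. -/
theorem almostInt_rat_isInt {d : ℤ} (hd : d ≠ 0) {x : ℚ}
    (h : ∀ j : ℕ, ∃ a : ℤ, (d : ℚ) * x ^ j = a) : ∃ y : ℤ, x = y := by
  -- `den ^ j ∣ d` for all `j`
  have hdvd : ∀ j : ℕ, ((x.den : ℤ)) ^ j ∣ d := by
    intro j
    obtain ⟨a, ha⟩ := h j
    have key : x ^ j * (x.den : ℚ) ^ j = (x.num : ℚ) ^ j := by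
      rw [← mul_pow, Rat.mul_den_eq_num]
    have h1 : (d : ℚ) * (x.num : ℚ) ^ j = (a : ℚ) * (x.den : ℚ) ^ j := by
      rw [← ha, ← key]
      ring
    have h2 : d * x.num ^ j = a * (x.den : ℤ) ^ j := by exact_mod_cast h1
    have hcop : IsCoprime ((x.den : ℤ) ^ j) (x.num ^ j) := by
      apply IsCoprime.pow
      rw [Int.isCoprime_iff_gcd_eq_one]
      have := x.reduced
      rw [Int.gcd_comm]
      simpa [Int.gcd, Nat.Coprime] using this
    have h3 : (x.den : ℤ) ^ j ∣ d * x.num ^ j := ⟨a, by rw [h2]; ring⟩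
    exact hcop.dvd_of_dvd_mul_right h3
  have hden1 : x.den = 1 := by
    by_contra hne
    have h2 : 2 ≤ x.den := by
      have := x.den_pos
      omega
    have hle : ∀ j : ℕ, (2 : ℤ) ^ j ≤ |d| := by
      intro j
      have h3 : ((x.den : ℤ)) ^ j ≤ |d| :=
        Int.le_of_dvd (abs_pos.mpr hd) ((dvd_abs _ _).mpr (hdvd j))
      have h4 : (2 : ℤ) ^ j ≤ (x.den : ℤ) ^ j := by
        apply pow_le_pow_left₀ (by norm_num)
        exact_mod_cast h2
      exact h4.trans h3
    have hlt : ∀ j : ℕ, (j : ℤ) < 2 ^ j := by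
      intro j
      exact_mod_cast Nat.lt_two_pow_self
    have := hle (|d|).toNat
    have h5 := hlt (|d|).toNat
    have h6 : ((|d|).toNat : ℤ) = |d| := Int.toNat_of_nonneg (abs_nonneg d)
    omega
  refine ⟨x.num, ?_⟩
  have := Rat.num_div_den x
  rw [hden1] at this
  simpa using this.symm

/-- Complex version of `almostInt_rat_isInt`. -/
theorem almostInt_complex_isInt {d : ℤ} (hd : d ≠ 0) {x : ℂ} (hx : ∃ r : ℚ, x = (r : ℂ))
    (h : ∀ j : ℕ, ∃ a : ℤ, (d : ℂ) * x ^ j = a) : ∃ y : ℤ, x = (y : ℂ) := by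
  obtain ⟨r, rfl⟩ := hx
  have h' : ∀ j : ℕ, ∃ a : ℤ, (d : ℚ) * r ^ j = a := by
    intro j
    obtain ⟨a, ha⟩ := h j
    refine ⟨a, ?_⟩
    have : (((d : ℚ) * r ^ j : ℚ) : ℂ) = ((a : ℚ) : ℂ) := by
      push_cast
      exact ha
    exact_mod_cast this
  obtain ⟨y, hy⟩ := almostInt_rat_isInt hd h'
  exact ⟨y, by rw [hy]; norm_cast⟩

/-! ### The subring of integral power series -/

/-- The subring of `ℂ⟦X⟧` of power series with integer coefficients. -/
noncomputable def almostInt_intPSSubring : Subring (PowerSeries ℂ) := (PowerSeries.map (Int.castRingHom ℂ)).range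

theorem almostInt_isIntPS_iff_mem {F : PowerSeries ℂ} : IsIntPS F ↔ F ∈ almostInt_intPSSubring := by
  constructor
  · intro h
    choose a ha using h
    refine ⟨PowerSeries.mk a, ?_⟩
    ext n
    simp [ha n]
  · rintro ⟨G, rfl⟩ n
    exact ⟨PowerSeries.coeff n G, by simp⟩

theorem almostInt_isIntPS_mul {F G : PowerSeries ℂ} (hF : IsIntPS F) (hG : IsIntPS G) : IsIntPS (F * G) :=
  almostInt_isIntPS_iff_mem.2
    (almostInt_intPSSubring.mul_mem (almostInt_isIntPS_iff_mem.1 hF) (almostInt_isIntPS_iff_mem.1 hG))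

theorem almostInt_isIntPS_add {F G : PowerSeries ℂ} (hF : IsIntPS F) (hG : IsIntPS G) : IsIntPS (F + G) :=
  almostInt_isIntPS_iff_mem.2
    (almostInt_intPSSubring.add_mem (almostInt_isIntPS_iff_mem.1 hF) (almostInt_isIntPS_iff_mem.1 hG))

theorem almostInt_isIntPS_neg {F : PowerSeries ℂ} (hF : IsIntPS F) : IsIntPS (-F) :=
  almostInt_isIntPS_iff_mem.2 (almostInt_intPSSubring.neg_mem (almostInt_isIntPS_iff_mem.1 hF))

theorem almostInt_isIntPS_pow {F : PowerSeries ℂ} (hF : IsIntPS F) (n : ℕ) : IsIntPS (F ^ n) :=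
  almostInt_isIntPS_iff_mem.2 (almostInt_intPSSubring.pow_mem (almostInt_isIntPS_iff_mem.1 hF) n)

theorem almostInt_isIntPS_sum {ι : Type*} (s : Finset ι) (F : ι → PowerSeries ℂ)
    (hF : ∀ i ∈ s, IsIntPS (F i)) : IsIntPS (∑ i ∈ s, F i) :=
  almostInt_isIntPS_iff_mem.2
    (almostInt_intPSSubring.sum_mem fun i hi => almostInt_isIntPS_iff_mem.1 (hF i hi))

theorem almostInt_isIntPS_one : IsIntPS (1 : PowerSeries ℂ) :=
  almostInt_isIntPS_iff_mem.2 almostInt_intPSSubring.one_mem

theorem almostInt_isIntPS_zero : IsIntPS (0 : PowerSeries ℂ) :=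
  almostInt_isIntPS_iff_mem.2 almostInt_intPSSubring.zero_mem

theorem almostInt_isIntPS_C_int (z : ℤ) : IsIntPS (PowerSeries.C (z : ℂ)) :=
  almostInt_isIntPS_iff_mem.2 ⟨PowerSeries.C z, by simp⟩

theorem almostInt_isIntPS_natCast (m : ℕ) : IsIntPS ((m : PowerSeries ℂ)) :=
  almostInt_isIntPS_iff_mem.2 (natCast_mem almostInt_intPSSubring m)

theorem almostInt_isIntPS_X : IsIntPS (PowerSeries.X : PowerSeries ℂ) :=
  almostInt_isIntPS_iff_mem.2 ⟨PowerSeries.X, by simp⟩

theorem almostInt_isIntPS_isRatPS {F : PowerSeries ℂ} (hF : IsIntPS F) : IsRatPS F := fun n => by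
  obtain ⟨z, hz⟩ := hF n
  exact ⟨z, by rw [hz]; norm_cast⟩

/-! ### The main lemma -/

/-- coefficient of lowest order of a product `d * y`. -/
theorem almostInt_coeff_order_mul {d : PowerSeries ℂ} (hd : d ≠ 0) (y : PowerSeries ℂ) :
    PowerSeries.coeff d.order.toNat (d * y) =
      PowerSeries.coeff d.order.toNat d * PowerSeries.coeff 0 y := by
  rw [PowerSeries.coeff_mul]
  apply Finset.sum_eq_single (d.order.toNat, 0)
  · rintro ⟨i, j⟩ hij hne
    have hij : i + j = d.order.toNat := by simpa using hij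
    have hi : i < d.order.toNat := by
      rcases Nat.eq_zero_or_pos j with hj | hj
      · exfalso
        apply hne
        subst hj
        simp at hij
        simp [hij]
      · omega
    have : PowerSeries.coeff i d = 0 := by
      apply PowerSeries.coeff_of_lt_order
      have := PowerSeries.coe_toNat_order hd
      rw [← this]
      exact_mod_cast hi
    simp [this]
  · intro h
    exact absurd (by simp) h

/-- **Lemma (N)**, one coefficient at a time. -/
theorem almostInt_coeff {d : PowerSeries ℂ} (hd : d ≠ 0) (hdint : IsIntPS d) :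
    ∀ (n : ℕ) (x : PowerSeries ℂ), IsRatPS x → (∀ j : ℕ, IsIntPS (d * x ^ j)) →
      ∃ z : ℤ, PowerSeries.coeff n x = (z : ℂ) := by
  -- the constant coefficient
  have h0 : ∀ (x : PowerSeries ℂ), IsRatPS x → (∀ j : ℕ, IsIntPS (d * x ^ j)) →
      ∃ z : ℤ, PowerSeries.coeff 0 x = (z : ℂ) := by
    intro x hx h
    obtain ⟨ds, hds⟩ := hdint d.order.toNat
    have hds0 : ds ≠ 0 := by
      intro h0
      have : PowerSeries.coeff d.order.toNat d = 0 := by rw [hds, h0]; simp
      exact PowerSeries.coeff_order hd this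
    apply almostInt_complex_isInt hds0 (hx 0)
    intro j
    obtain ⟨a, ha⟩ := h j d.order.toNat
    refine ⟨a, ?_⟩
    rw [← ha, almostInt_coeff_order_mul hd, hds]
    congr 1
    simp [PowerSeries.coeff_zero_eq_constantCoeff]
  intro n
  induction n with
  | zero => exact h0
  | succ n ih =>
    intro x hx h
    obtain ⟨z0, hz0⟩ := h0 x hx h
    -- the shifted series
    set x' : PowerSeries ℂ := PowerSeries.mk fun p => PowerSeries.coeff (p + 1) x with hx'
    have hxdec : x = PowerSeries.X * x' + PowerSeries.C (z0 : ℂ) := by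
      have := PowerSeries.eq_X_mul_shift_add_const x
      rw [← PowerSeries.coeff_zero_eq_constantCoeff_apply, hz0] at this
      exact this
    have hx'rat : IsRatPS x' := fun p => by
      simpa [hx'] using hx (p + 1)
    have hx'int : ∀ j : ℕ, IsIntPS (d * x' ^ j) := by
      intro j
      -- `X ^ j * (d * x' ^ j) = d * (x - C z0) ^ j`
      have h1 : PowerSeries.X ^ j * (d * x' ^ j) = d * (x + -PowerSeries.C (z0 : ℂ)) ^ j := by
        have : x + -PowerSeries.C (z0 : ℂ) = PowerSeries.X * x' := by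
          rw [hxdec]; ring
        rw [this, mul_pow]; ring
      have h2 : IsIntPS (d * (x + -PowerSeries.C (z0 : ℂ)) ^ j) := by
        rw [add_pow, Finset.mul_sum]
        apply almostInt_isIntPS_sum
        intro m _
        have : d * (x ^ m * (-PowerSeries.C (z0 : ℂ)) ^ (j - m) * (j.choose m : PowerSeries ℂ)) =
            (d * x ^ m) * ((-PowerSeries.C (z0 : ℂ)) ^ (j - m) * (j.choose m : PowerSeries ℂ)) := by
          ring
        rw [this]
        exact almostInt_isIntPS_mul (h m) (almostInt_isIntPS_mul (almostInt_isIntPS_pow (almostInt_isIntPS_neg (almostInt_isIntPS_C_int z0)) _) (almostInt_isIntPS_natCast _))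
      rw [← h1] at h2
      intro p
      obtain ⟨a, ha⟩ := h2 (p + j)
      refine ⟨a, ?_⟩
      rw [← ha, PowerSeries.coeff_X_pow_mul]
    obtain ⟨z, hz⟩ := ih x' hx'rat hx'int
    refine ⟨z, ?_⟩
    rw [← hz, hx']
    simp

/-- **Lemma (N)**: `ℤ⟦X⟧` is completely integrally closed in `ℚ⟦X⟧`. -/
theorem isIntPS_of_forall_mul_pow {d x : PowerSeries ℂ} (hd : d ≠ 0) (hdint : IsIntPS d)
    (hx : IsRatPS x) (h : ∀ j : ℕ, IsIntPS (d * x ^ j)) : IsIntPS x :=
  fun n => almostInt_coeff hd hdint n x hx h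

/-- **Lemma (N')**: a rational power series which is a fraction of integral power series and
satisfies a monic equation with integral coefficients is integral. -/
theorem isIntPS_of_monic_of_fraction {x P Q : PowerSeries ℂ} {n : ℕ} (c : ℕ → PowerSeries ℂ)
    (hx : IsRatPS x) (hP : IsIntPS P) (hQ : IsIntPS Q) (hQ0 : Q ≠ 0) (hQx : Q * x = P)
    (hc : ∀ m, 1 ≤ m → m ≤ n → IsIntPS (c m)) (hn : 1 ≤ n)
    (hrel : x ^ n + ∑ m ∈ Finset.Icc 1 n, c m * x ^ (n - m) = 0) : IsIntPS x := by
  apply isIntPS_of_forall_mul_pow (d := Q ^ (n - 1)) (pow_ne_zero _ hQ0) (almostInt_isIntPS_pow hQ _) hx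
  intro j
  induction j using Nat.strong_induction_on with
  | _ j ih =>
    rcases Nat.lt_or_ge j n with hj | hj
    · -- `Q ^ (n-1) * x ^ j = Q ^ (n-1-j) * P ^ j`
      have : Q ^ (n - 1) * x ^ j = Q ^ (n - 1 - j) * P ^ j := by
        rw [← hQx, mul_pow, ← mul_assoc, ← pow_add]
        congr 2
        omega
      rw [this]
      exact almostInt_isIntPS_mul (almostInt_isIntPS_pow hQ _) (almostInt_isIntPS_pow hP _)
    · -- use the monic relation
      have hxn : x ^ n = -∑ m ∈ Finset.Icc 1 n, c m * x ^ (n - m) := by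
        rw [eq_neg_iff_add_eq_zero]; exact hrel
      have hxj : Q ^ (n - 1) * x ^ j =
          -∑ m ∈ Finset.Icc 1 n, c m * (Q ^ (n - 1) * x ^ (j - m)) := by
        have hj' : x ^ j = x ^ (j - n) * x ^ n := by
          rw [← pow_add]; congr 1; omega
        rw [hj', hxn, mul_neg, mul_neg, Finset.mul_sum, Finset.mul_sum]
        congr 1
        apply Finset.sum_congr rfl
        intro m hm
        rw [Finset.mem_Icc] at hm
        have : x ^ (j - m) = x ^ (j - n) * x ^ (n - m) := by
          rw [← pow_add]; congr 1; omega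
        rw [this]; ring
      rw [hxj]
      apply almostInt_isIntPS_neg
      apply almostInt_isIntPS_sum
      intro m hm
      rw [Finset.mem_Icc] at hm
      exact almostInt_isIntPS_mul (hc m hm.1 hm.2) (ih (j - m) (by omega))

end Fermat.Agent.S23
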