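import Fermat.Agent.S23.Basic

/-!
# S23 piece P12: closure properties of `IsMF` / `IsCF` and q-expansion lemmas
-/

set_option autoImplicit false

noncomputable section

namespace Fermat.Agent.S23

open UpperHalfPlane ModularForm SlashInvariantForm
open scoped MatrixGroups ModularForm Manifold

variable {Γ : Subgroup (GL (Fin 2) ℝ)} {N : ℕ} [NeZero N] {κ κ₁ κ₂ : ℤ} {f g : ℍ → ℂ}

theorem IsCF.isMF (h : IsCF Γ κ f) : IsMF Γ κ f := by
  obtain ⟨F, rfl⟩ := h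
  exact ⟨ModularFormClass.modularForm F, rfl⟩

theorem IsMF.of_weight_eq (h : IsMF Γ κ₁ f) (e : κ₁ = κ₂) : IsMF Γ κ₂ f := e ▸ h

theorem IsCF.of_weight_eq (h : IsCF Γ κ₁ f) (e : κ₁ = κ₂) : IsCF Γ κ₂ f := e ▸ h

theorem IsMF.zero : IsMF Γ κ (0 : ℍ → ℂ) := ⟨0, rfl⟩

theorem IsCF.zero : IsCF Γ κ (0 : ℍ → ℂ) := ⟨0, rfl⟩

theorem IsMF.add (hf : IsMF Γ κ f) (hg : IsMF Γ κ g) : IsMF Γ κ (f + g) := by
  obtain ⟨F, rfl⟩ := hf
  obtain ⟨G, rfl⟩ := hg
  exact ⟨F + G, rfl⟩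

theorem IsCF.add (hf : IsCF Γ κ f) (hg : IsCF Γ κ g) : IsCF Γ κ (f + g) := by
  obtain ⟨F, rfl⟩ := hf
  obtain ⟨G, rfl⟩ := hg
  exact ⟨F + G, rfl⟩

theorem IsMF.neg (hf : IsMF Γ κ f) : IsMF Γ κ (-f) := by
  obtain ⟨F, rfl⟩ := hf
  exact ⟨-F, rfl⟩

theorem IsCF.neg (hf : IsCF Γ κ f) : IsCF Γ κ (-f) := by
  obtain ⟨F, rfl⟩ := hf
  exact ⟨-F, rfl⟩

theorem IsMF.sub (hf : IsMF Γ κ f) (hg : IsMF Γ κ g) : IsMF Γ κ (f - g) := by
  obtain ⟨F, rfl⟩ := hf
  obtain ⟨G, rfl⟩ := hg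
  exact ⟨F - G, rfl⟩

theorem IsCF.sub (hf : IsCF Γ κ f) (hg : IsCF Γ κ g) : IsCF Γ κ (f - g) := by
  obtain ⟨F, rfl⟩ := hf
  obtain ⟨G, rfl⟩ := hg
  exact ⟨F - G, rfl⟩

theorem IsMF.const_smul [Γ.HasDetOne] (c : ℂ) (hf : IsMF Γ κ f) : IsMF Γ κ (c • f) := by
  obtain ⟨F, rfl⟩ := hf
  exact ⟨c • F, rfl⟩

theorem IsCF.const_smul [Γ.HasDetOne] (c : ℂ) (hf : IsCF Γ κ f) : IsCF Γ κ (c • f) := by
  obtain ⟨F, rfl⟩ := hf
  exact ⟨c • F, rfl⟩

theorem IsMF.mul [Γ.HasDetPlusMinusOne] (hf : IsMF Γ κ₁ f) (hg : IsMF Γ κ₂ g) :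
    IsMF Γ (κ₁ + κ₂) (f * g) := by
  obtain ⟨F, rfl⟩ := hf
  obtain ⟨G, rfl⟩ := hg
  exact ⟨F.mul G, rfl⟩

theorem IsCF.mul_isMF [Γ.HasDetPlusMinusOne] (hf : IsCF Γ κ₁ f) (hg : IsMF Γ κ₂ g) :
    IsCF Γ (κ₁ + κ₂) (f * g) := by
  obtain ⟨F, rfl⟩ := hf
  obtain ⟨G, rfl⟩ := hg
  exact ⟨F.mulModularForm G, rfl⟩

theorem IsMF.one [Γ.HasDetPlusMinusOne] : IsMF Γ 0 (1 : ℍ → ℂ) :=
  ⟨1, ModularForm.one_coe_eq_one⟩

theorem IsMF.pow [Γ.HasDetPlusMinusOne] (hf : IsMF Γ κ f) (n : ℕ) : IsMF Γ (n * κ) (f ^ n) := by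
  obtain ⟨F, rfl⟩ := hf
  exact ⟨F.pow n, ModularForm.coe_pow F n⟩

theorem IsMF.sum {ι : Type*} (s : Finset ι) (F : ι → ℍ → ℂ) (hF : ∀ i ∈ s, IsMF Γ κ (F i)) :
    IsMF Γ κ (∑ i ∈ s, F i) := by
  classical
  induction s using Finset.induction_on with
  | empty => simpa using (IsMF.zero : IsMF Γ κ (0 : ℍ → ℂ))
  | insert a s ha ih =>
    rw [Finset.sum_insert ha]
    exact (hF a (Finset.mem_insert_self a s)).add
      (ih fun i hi => hF i (Finset.mem_insert_of_mem hi))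

theorem IsCF.sum {ι : Type*} (s : Finset ι) (F : ι → ℍ → ℂ) (hF : ∀ i ∈ s, IsCF Γ κ (F i)) :
    IsCF Γ κ (∑ i ∈ s, F i) := by
  classical
  induction s using Finset.induction_on with
  | empty => simpa using (IsCF.zero : IsCF Γ κ (0 : ℍ → ℂ))
  | insert a s ha ih =>
    rw [Finset.sum_insert ha]
    exact (hF a (Finset.mem_insert_self a s)).add
      (ih fun i hi => hF i (Finset.mem_insert_of_mem hi))

theorem mfclosure_G0_le (N : ℕ) : G0 N ≤ 𝒮ℒ := by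
  rintro _ ⟨γ, -, rfl⟩
  exact ⟨γ, rfl⟩

/-- restriction of the level: level one ⇒ level `Γ₀(N)`. -/
theorem IsMF.of_levelOne (hf : IsMF 𝒮ℒ κ f) : IsMF (G0 N) κ f := by
  obtain ⟨F, rfl⟩ := hf
  exact ⟨{ toFun := F
           slash_action_eq' := fun A hA => F.slash_action_eq' A (mfclosure_G0_le N hA)
           holo' := F.holo'
           bdd_at_cusps' := fun hc => F.bdd_at_cusps' (hc.mono (mfclosure_G0_le N)) }, rfl⟩

theorem IsCF.of_levelOne (hf : IsCF 𝒮ℒ κ f) : IsCF (G0 N) κ f := by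
  obtain ⟨F, rfl⟩ := hf
  exact ⟨{ toFun := F
           slash_action_eq' := fun A hA => F.slash_action_eq' A (mfclosure_G0_le N hA)
           holo' := F.holo'
           zero_at_cusps' := fun hc => F.zero_at_cusps' (hc.mono (mfclosure_G0_le N)) }, rfl⟩

theorem mfclosure_one_mem_strictPeriods (N : ℕ) : (1 : ℝ) ∈ (G0 N).strictPeriods :=
  CongruenceSubgroup.one_mem_strictPeriods_Gamma0 N

theorem IsMF.analyticAt_cuspFunction (hf : IsMF (G0 N) κ f) :
    AnalyticAt ℂ (cuspFunction 1 f) 0 := by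
  obtain ⟨F, rfl⟩ := hf
  exact ModularFormClass.analyticAt_cuspFunction_zero F one_pos (mfclosure_one_mem_strictPeriods N)

theorem IsMF.qExpansion_add (hf : IsMF (G0 N) κ₁ f) (hg : IsMF (G0 N) κ₂ g) :
    qExpansion 1 (f + g) = qExpansion 1 f + qExpansion 1 g :=
  UpperHalfPlane.qExpansion_add hf.analyticAt_cuspFunction hg.analyticAt_cuspFunction

theorem IsMF.qExpansion_sub (hf : IsMF (G0 N) κ₁ f) (hg : IsMF (G0 N) κ₂ g) :
    qExpansion 1 (f - g) = qExpansion 1 f - qExpansion 1 g :=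
  UpperHalfPlane.qExpansion_sub hf.analyticAt_cuspFunction hg.analyticAt_cuspFunction

theorem IsMF.qExpansion_neg (hf : IsMF (G0 N) κ f) :
    qExpansion 1 (-f) = -qExpansion 1 f :=
  UpperHalfPlane.qExpansion_neg hf.analyticAt_cuspFunction

theorem IsMF.qExpansion_mul (hf : IsMF (G0 N) κ₁ f) (hg : IsMF (G0 N) κ₂ g) :
    qExpansion 1 (f * g) = qExpansion 1 f * qExpansion 1 g :=
  UpperHalfPlane.qExpansion_mul hf.analyticAt_cuspFunction hg.analyticAt_cuspFunction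

theorem IsMF.qExpansion_smul (c : ℂ) (hf : IsMF (G0 N) κ f) :
    qExpansion 1 (c • f) = c • qExpansion 1 f :=
  UpperHalfPlane.qExpansion_smul hf.analyticAt_cuspFunction c

theorem IsMF.qExpansion_pow (hf : IsMF (G0 N) κ f) (n : ℕ) :
    qExpansion 1 (f ^ n) = qExpansion 1 f ^ n := by
  induction n with
  | zero => simpa using UpperHalfPlane.qExpansion_one 1
  | succ n ih =>
    rw [pow_succ, pow_succ, (hf.pow n).qExpansion_mul hf, ih]

theorem IsMF.qExpansion_sum {ι : Type*} (s : Finset ι) (F : ι → ℍ → ℂ) (κs : ι → ℤ)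
    (hF : ∀ i ∈ s, IsMF (G0 N) (κs i) (F i)) :
    qExpansion 1 (∑ i ∈ s, F i) = ∑ i ∈ s, qExpansion 1 (F i) := by
  classical
  -- analyticity of the cusp function of a finite sum
  have key : ∀ t : Finset ι, (∀ i ∈ t, IsMF (G0 N) (κs i) (F i)) →
      AnalyticAt ℂ (cuspFunction 1 (∑ i ∈ t, F i)) 0 ∧
        qExpansion 1 (∑ i ∈ t, F i) = ∑ i ∈ t, qExpansion 1 (F i) := by
    intro t
    induction t using Finset.induction_on with
    | empty =>
      intro _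
      refine ⟨?_, by simpa using UpperHalfPlane.qExpansion_zero 1⟩
      simpa using (IsMF.zero : IsMF (G0 N) 0 (0 : ℍ → ℂ)).analyticAt_cuspFunction
    | insert a t ha ih =>
      intro h
      obtain ⟨h1, h2⟩ := ih fun i hi => h i (Finset.mem_insert_of_mem hi)
      have ha' := (h a (Finset.mem_insert_self a t)).analyticAt_cuspFunction
      rw [Finset.sum_insert ha, Finset.sum_insert ha]
      refine ⟨?_, ?_⟩
      · rw [UpperHalfPlane.cuspFunction_add ha'.continuousAt h1.continuousAt]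
        exact ha'.add h1
      · rw [UpperHalfPlane.qExpansion_add ha' h1, h2]
  exact (key s hF).2

theorem IsMF.eq_zero_of_qExpansion_eq_zero (hf : IsMF (G0 N) κ f) (h : qExpansion 1 f = 0) :
    f = 0 := by
  obtain ⟨F, rfl⟩ := hf
  have : Fact (IsCusp OnePoint.infty (G0 N)) :=
    ⟨(G0 N).isCusp_of_mem_strictPeriods one_pos (mfclosure_one_mem_strictPeriods N)⟩
  exact (UpperHalfPlane.qExpansion_eq_zero_iff one_pos
    (SlashInvariantFormClass.periodic_comp_ofComplex F (mfclosure_one_mem_strictPeriods N))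
    (ModularFormClass.holo F) (ModularFormClass.bdd_at_infty F)).mp h

/-- value at `i∞` = constant coefficient -/
theorem IsMF.tendsto_coeff_zero (hf : IsMF (G0 N) κ f) :
    Filter.Tendsto f atImInfty (nhds ((qExpansion 1 f).coeff 0)) := by
  have han := hf.analyticAt_cuspFunction
  obtain ⟨F, rfl⟩ := hf
  have hper := SlashInvariantFormClass.periodic_comp_ofComplex F
    (mfclosure_one_mem_strictPeriods N)
  have h0 : (qExpansion 1 F).coeff 0 = cuspFunction 1 F 0 := by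
    simp [UpperHalfPlane.qExpansion_coeff]
  rw [h0]
  have : (cuspFunction 1 F ∘ fun τ : ℍ ↦ Function.Periodic.qParam 1 τ : ℍ → ℂ) = F := by
    funext τ
    simpa using UpperHalfPlane.eq_cuspFunction τ one_ne_zero hper
  have h2 := han.continuousAt.tendsto.comp (UpperHalfPlane.qParam_tendsto_atImInfty one_pos)
  rw [this] at h2
  exact h2

/-- a level-one modular form with vanishing constant coefficient is a cusp form -/
theorem IsMF.isCF_levelOne_of_coeff_zero (hf : IsMF 𝒮ℒ κ f) (h : (qExpansion 1 f).coeff 0 = 0) :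
    IsCF 𝒮ℒ κ f := by
  obtain ⟨F, rfl⟩ := hf
  exact ⟨ModularForm.toCuspForm F h, funext fun z => ModularForm.toCuspForm_apply F h z⟩

theorem IsCF.coeff_zero (hf : IsCF (G0 N) κ f) : (qExpansion 1 f).coeff 0 = 0 := by
  obtain ⟨F, rfl⟩ := hf
  exact CuspFormClass.qExpansion_coeff_zero F one_pos (mfclosure_one_mem_strictPeriods N)

end Fermat.Agent.S23
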