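import Fermat.Agent.S23.Interface
import Fermat.Agent.S23.MFClosure

/-!
# S23, piece P20: the function `D_Θ = ∏_{q ≠ ⟦1⟧} (Θ − Θ_q)` tends to `1` at `i∞`

If `Θ` has constant coefficient `1` and all translates `Θ ∣ γ`, `γ ∉ Γ₀(N)`, vanish at `i∞`, then
`Dfun Θ → 1` at `i∞`; in particular `Dfun Θ ≠ 0`.  Helper names are prefixed `dfun_`.
-/

set_option autoImplicit false

noncomputable section

namespace Fermat.Agent.S23

open UpperHalfPlane ModularForm SlashInvariantForm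
open scoped MatrixGroups ModularForm Manifold

variable {N : ℕ} [NeZero N] {w : ℤ}

/-- a translate by a coset different from `⟦1⟧` tends to `0` at `i∞`. -/
theorem dfun_quotientFunc_tendsto_zero (Θ : ModularForm (G0 N) w)
    (hz : ∀ γ : SL(2, ℤ), γ ∉ CongruenceSubgroup.Gamma0 N → IsZeroAtImInfty ((⇑Θ : ℍ → ℂ) ∣[w] γ))
    (q : Coset N) (hq : q ≠ coset1 N) :
    Filter.Tendsto (quotientFunc Θ q) atImInfty (nhds 0) := by
  induction q using Quotient.inductionOn with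
  | h r =>
    obtain ⟨g, hg⟩ := r
    obtain ⟨γ, rfl⟩ := hg
    have hγ : γ⁻¹ ∉ CongruenceSubgroup.Gamma0 N := by
      intro hmem
      apply hq
      have hmem' : γ ∈ CongruenceSubgroup.Gamma0 N := by
        have := inv_mem hmem
        simpa using this
      symm
      show (QuotientGroup.mk 1 : Coset N) = QuotientGroup.mk _
      rw [QuotientGroup.eq, Subgroup.mem_subgroupOf]
      simp only [inv_one, one_mul]
      exact ⟨γ, hmem', rfl⟩
    have key : quotientFunc Θ (⟦⟨Matrix.SpecialLinearGroup.mapGL ℝ γ, ⟨γ, rfl⟩⟩⟧ : Coset N)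
        = (⇑Θ : ℍ → ℂ) ∣[w] γ⁻¹ := by
      rw [quotientFunc_mk]
      show (⇑Θ : ℍ → ℂ) ∣[w] (Matrix.SpecialLinearGroup.mapGL ℝ γ)⁻¹ = _
      rw [← map_inv]
      rfl
    rw [key]
    exact hz γ⁻¹ hγ

/-- **P20.** `Dfun Θ → 1` at `i∞`. -/
theorem Dfun_tendsto_one (Θ : ModularForm (G0 N) w)
    (h0 : (qExpansion 1 Θ).coeff 0 = 1)
    (hz : ∀ γ : SL(2, ℤ), γ ∉ CongruenceSubgroup.Gamma0 N → IsZeroAtImInfty ((⇑Θ : ℍ → ℂ) ∣[w] γ)) :
    Filter.Tendsto (Dfun Θ) atImInfty (nhds 1) := by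
  classical
  have hΘ : Filter.Tendsto (⇑Θ : ℍ → ℂ) atImInfty (nhds 1) := by
    have := IsMF.tendsto_coeff_zero (N := N) (κ := w) (f := ⇑Θ) ⟨Θ, rfl⟩
    rwa [h0] at this
  have hfac : ∀ q ∈ (cosetFinset N).erase (coset1 N),
      Filter.Tendsto (fun z => Θ z - quotientFunc Θ q z) atImInfty (nhds (1 : ℂ)) := by
    intro q hq
    have hq' : q ≠ coset1 N := (Finset.mem_erase.mp hq).1
    have := hΘ.sub (dfun_quotientFunc_tendsto_zero Θ hz q hq')
    simpa using this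
  have := tendsto_finset_prod ((cosetFinset N).erase (coset1 N)) hfac
  simp only [Finset.prod_const_one] at this
  exact this

/-- **P20.** `Dfun Θ ≠ 0`. -/
theorem Dfun_ne_zero (Θ : ModularForm (G0 N) w)
    (h0 : (qExpansion 1 Θ).coeff 0 = 1)
    (hz : ∀ γ : SL(2, ℤ), γ ∉ CongruenceSubgroup.Gamma0 N → IsZeroAtImInfty ((⇑Θ : ℍ → ℂ) ∣[w] γ)) :
    Dfun Θ ≠ 0 := by
  intro h
  have h1 := Dfun_tendsto_one Θ h0 hz
  rw [h] at h1
  have h2 : Filter.Tendsto (0 : ℍ → ℂ) atImInfty (nhds 0) := tendsto_const_nhds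
  exact zero_ne_one (tendsto_nhds_unique h2 h1)

end Fermat.Agent.S23
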