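import Fermat.Agent.S23.Basic

/-!
# S23, piece (Q): a rational linear system with a complex solution has a rational solution

`exists_rat_coeffs`: if finitely many power series `R i` with rational coefficients satisfy
`∑ i, c i • R i = Y` for complex scalars `c i` and `Y` has rational coefficients, then the `c i`
can be replaced by rational numbers.
-/

set_option autoImplicit false

noncomputable section

namespace Fermat.Agent.S23

/-- There is a `ℚ`-linear retraction `ℂ → ℚ` of the inclusion `ℚ → ℂ`. -/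
theorem rationalSolve_exists_retraction :
    ∃ π : ℂ →ₗ[ℚ] ℚ, ∀ r : ℚ, π (r : ℂ) = r := by
  have hinj : Function.Injective (Algebra.linearMap ℚ ℂ) := by
    intro a b hab
    have : ((a : ℚ) : ℂ) = ((b : ℚ) : ℂ) := by simpa using hab
    exact_mod_cast this
  obtain ⟨g, hg⟩ := LinearMap.exists_leftInverse_of_injective (Algebra.linearMap ℚ ℂ)
    (LinearMap.ker_eq_bot.2 hinj)
  refine ⟨g, fun r => ?_⟩
  have := LinearMap.congr_fun hg r
  simpa using this

theorem exists_rat_coeffs {ι : Type*} [Fintype ι] (R : ι → PowerSeries ℂ) (hR : ∀ i, IsRatPS (R i))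
    (Y : PowerSeries ℂ) (hY : IsRatPS Y) (c : ι → ℂ) (h : ∑ i, c i • R i = Y) :
    ∃ c' : ι → ℚ, ∑ i, (c' i : ℂ) • R i = Y := by
  classical
  obtain ⟨π, hπ⟩ := rationalSolve_exists_retraction
  refine ⟨fun i => π (c i), ?_⟩
  ext n
  have hn := congrArg (PowerSeries.coeff n) h
  simp only [map_sum, PowerSeries.coeff_smul, smul_eq_mul] at hn ⊢
  choose r hr using fun i => hR i n
  obtain ⟨y, hy⟩ := hY n
  rw [hy] at hn ⊢
  simp only [hr] at hn ⊢
  -- apply `π` to `hn`
  have h1 : π (∑ i, c i * (r i : ℂ)) = ∑ i, π (c i) * r i := by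
    rw [map_sum]
    refine Finset.sum_congr rfl fun i _ => ?_
    have : c i * (r i : ℂ) = (r i : ℚ) • c i := by
      rw [Algebra.smul_def]
      simp [mul_comm]
    rw [this, map_smul, smul_eq_mul, mul_comm]
  have h2 : π (∑ i, c i * (r i : ℂ)) = y := by rw [hn, hπ]
  have h3 : (∑ i, π (c i) * r i : ℚ) = y := by rw [← h1, h2]
  have := congrArg (fun q : ℚ => (q : ℂ)) h3
  simpa using this

/-- The coefficientwise `ℚ`-linear retraction, as an additive map on power series. -/
def rationalSolve_proj (π : ℂ →ₗ[ℚ] ℚ) : PowerSeries ℂ →+ PowerSeries ℂ where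
  toFun x := PowerSeries.mk fun n => ((π (PowerSeries.coeff n x) : ℚ) : ℂ)
  map_zero' := by
    ext n
    simp
  map_add' x y := by
    ext n
    simp

@[simp] theorem rationalSolve_coeff_proj (π : ℂ →ₗ[ℚ] ℚ) (x : PowerSeries ℂ) (n : ℕ) :
    PowerSeries.coeff n (rationalSolve_proj π x) = ((π (PowerSeries.coeff n x) : ℚ) : ℂ) := by
  simp [rationalSolve_proj]

theorem rationalSolve_map_mul_rat (π : ℂ →ₗ[ℚ] ℚ) (c : ℂ) (r : ℚ) :
    π (c * (r : ℂ)) = π c * r := by
  have : c * (r : ℂ) = (r : ℚ) • c := by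
    rw [Algebra.smul_def]
    simp [mul_comm]
  rw [this, map_smul, smul_eq_mul, mul_comm]

/-- A `ℚ⟦X⟧`-linear retraction of `ℂ⟦X⟧` onto the rational power series
(coefficientwise a `ℚ`-linear retraction `π : ℂ → ℚ` with `π 1 = 1`). -/
theorem exists_ratProj : ∃ P : PowerSeries ℂ →+ PowerSeries ℂ,
    (∀ x, IsRatPS (P x)) ∧ (∀ R, IsRatPS R → P R = R) ∧
    (∀ x R, IsRatPS R → P (x * R) = P x * R) ∧
    (∀ (c : ℂ) (R : PowerSeries ℂ), IsRatPS R → ∃ r : ℚ, P (c • R) = (r : ℂ) • R) := by
  classical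
  obtain ⟨π, hπ⟩ := rationalSolve_exists_retraction
  refine ⟨rationalSolve_proj π, ?_, ?_, ?_, ?_⟩
  · intro x n
    exact ⟨π (PowerSeries.coeff n x), rationalSolve_coeff_proj π x n⟩
  · intro R hR
    ext n
    obtain ⟨r, hr⟩ := hR n
    rw [rationalSolve_coeff_proj, hr, hπ]
  · intro x R hR
    ext n
    choose r hr using hR
    rw [rationalSolve_coeff_proj, PowerSeries.coeff_mul, PowerSeries.coeff_mul, map_sum]
    push_cast
    refine Finset.sum_congr rfl fun ij _ => ?_
    rw [rationalSolve_coeff_proj, hr ij.2, rationalSolve_map_mul_rat]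
    push_cast
    rfl
  · intro c R hR
    refine ⟨π c, ?_⟩
    ext n
    obtain ⟨r, hr⟩ := hR n
    rw [rationalSolve_coeff_proj, PowerSeries.coeff_smul, PowerSeries.coeff_smul, hr, smul_eq_mul,
      smul_eq_mul, rationalSolve_map_mul_rat]
    push_cast
    rfl

end Fermat.Agent.S23
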