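import Fermat.Agent.S23.Interface
import Fermat.Agent.S23.MFClosure
import Fermat.Agent.S23.QRing
import Fermat.Agent.S23.RationalSolve
import Fermat.Agent.S23.AlmostIntegral
import Fermat.Agent.S23.DfunLemma

/-!
# S23 piece P18, part (2): the q-expansion of a rational cusp form is a fraction of integral series

`bddFrac_exists`: for a cusp form `f` for `Γ₀(N)` with rational `q`-expansion `F` there are power
series `P`, `Q` with integer coefficients, `Q ≠ 0`, with `Q * F = P`.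

Proof: Lagrange relation `f · D_Θ = ∑ l_j Θ^(n-1-j)`, `D_Θ = ∑ λ_j Θ^(n-1-j)` with level-one `l_j`, `λ_j`
(`StmtLagrangeRel` for `f` and for the constant form `1`), `StmtP4` for `l_j`, `λ_j`, and the
`ℚ⟦X⟧`-linear retraction `exists_ratProj`.

All names are prefixed `bddFrac` / `BddFracPS`.
-/

set_option autoImplicit false

noncomputable section

namespace Fermat.Agent.S23

open UpperHalfPlane ModularForm SlashInvariantForm
open scoped MatrixGroups ModularForm Manifold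

/-- The power series has bounded denominators: a nonzero integer multiple is integral. -/
def BddFracPS (x : PowerSeries ℂ) : Prop := ∃ M : ℕ, M ≠ 0 ∧ IsIntPS ((M : ℂ) • x)

theorem bddFrac_natCast_smul {x : PowerSeries ℂ} (m : ℕ) (hx : IsIntPS x) :
    IsIntPS ((m : ℂ) • x) := by
  have : (m : ℂ) • x = (m : PowerSeries ℂ) * x := by
    rw [PowerSeries.smul_eq_C_mul]
    simp
  rw [this]
  exact almostInt_isIntPS_mul (almostInt_isIntPS_natCast m) hx

theorem BddFracPS.of_isIntPS {x : PowerSeries ℂ} (h : IsIntPS x) : BddFracPS x :=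
  ⟨1, one_ne_zero, by simpa using h⟩

theorem BddFracPS.zero : BddFracPS 0 := BddFracPS.of_isIntPS almostInt_isIntPS_zero

theorem BddFracPS.add {x y : PowerSeries ℂ} (hx : BddFracPS x) (hy : BddFracPS y) :
    BddFracPS (x + y) := by
  obtain ⟨M₁, h₁, hx⟩ := hx
  obtain ⟨M₂, h₂, hy⟩ := hy
  refine ⟨M₁ * M₂, Nat.mul_ne_zero h₁ h₂, ?_⟩
  have : ((M₁ * M₂ : ℕ) : ℂ) • (x + y)
      = (M₂ : ℂ) • ((M₁ : ℂ) • x) + (M₁ : ℂ) • ((M₂ : ℂ) • y) := by
    push_cast
    rw [smul_add, smul_smul, smul_smul, mul_comm (M₂ : ℂ) (M₁ : ℂ)]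
  rw [this]
  exact almostInt_isIntPS_add (bddFrac_natCast_smul M₂ hx) (bddFrac_natCast_smul M₁ hy)

theorem BddFracPS.mul_isIntPS {x T : PowerSeries ℂ} (hx : BddFracPS x) (hT : IsIntPS T) :
    BddFracPS (x * T) := by
  obtain ⟨M, hM, hx⟩ := hx
  refine ⟨M, hM, ?_⟩
  rw [← smul_mul_assoc]
  exact almostInt_isIntPS_mul hx hT

theorem BddFracPS.rat_smul (r : ℚ) {x : PowerSeries ℂ} (hx : IsIntPS x) :
    BddFracPS ((r : ℂ) • x) := by
  refine ⟨r.den, r.den_nz, ?_⟩
  have h1 : ((r.den : ℕ) : ℂ) * (r : ℂ) = (r.num : ℂ) := by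
    have := Rat.den_mul_eq_num r
    exact_mod_cast this
  have : ((r.den : ℕ) : ℂ) • ((r : ℂ) • x) = PowerSeries.C (r.num : ℂ) * x := by
    rw [smul_smul, PowerSeries.smul_eq_C_mul, h1]
  rw [this]
  exact almostInt_isIntPS_mul (almostInt_isIntPS_C_int _) hx

theorem BddFracPS.sum {ι : Type*} (s : Finset ι) (F : ι → PowerSeries ℂ)
    (h : ∀ i ∈ s, BddFracPS (F i)) : BddFracPS (∑ i ∈ s, F i) := by
  classical
  induction s using Finset.induction_on with
  | empty => simpa using BddFracPS.zero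
  | insert a s ha ih =>
    rw [Finset.sum_insert ha]
    exact (h a (Finset.mem_insert_self a s)).add (ih fun i hi => h i (Finset.mem_insert_of_mem hi))

/-- The projection of the `q`-expansion of a level-one form has bounded denominators. -/
theorem bddFrac_proj_levelOne (hP4 : StmtP4) (P : PowerSeries ℂ →+ PowerSeries ℂ)
    (hPsmul : ∀ (c : ℂ) (R : PowerSeries ℂ), IsRatPS R → ∃ r : ℚ, P (c • R) = (r : ℂ) • R)
    {κ : ℤ} {l : ℍ → ℂ} (hl : IsMF 𝒮ℒ κ l) : BddFracPS (P (qExpansion 1 l)) := by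
  obtain ⟨L, rfl⟩ := hl
  have key : ∀ c : ℂ, BddFracPS (P (c • qExpansion 1 L)) := by
    have hmem := hP4 κ L
    induction hmem using Submodule.span_induction with
    | mem b hb =>
      intro c
      obtain ⟨r, hr⟩ := hPsmul c _ (almostInt_isIntPS_isRatPS hb)
      rw [hr]
      exact BddFracPS.rat_smul r hb
    | zero =>
      intro c
      have : qExpansion 1 (⇑(0 : ModularForm 𝒮ℒ κ)) = 0 := by
        rw [FunLike.coe_zero]
        exact qExpansion_zero 1
      rw [this, smul_zero, map_zero]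
      exact BddFracPS.zero
    | add a b _ _ iha ihb =>
      intro c
      rw [FunLike.coe_add, ModularForm.qExpansion_add one_pos one_mem_strictPeriods_SL,
        smul_add, map_add]
      exact (iha c).add (ihb c)
    | smul c' a _ iha =>
      intro c
      rw [FunLike.coe_smul, ModularForm.qExpansion_smul one_pos one_mem_strictPeriods_SL,
        smul_smul]
      exact iha (c * c')
  simpa using key 1

/-- **P18, part (2).** The `q`-expansion of a cusp form for `Γ₀(N)` with rational coefficients is a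
quotient of two power series with integer coefficients. -/
theorem bddFrac_exists (N : ℕ) [NeZero N] (k : ℤ) (hP4 : StmtP4) (hΘ : StmtTheta N)
    (hL : StmtLagrangeRel N) (f : CuspForm (G0 N) k) (hf : IsRatPS (qExpansion 1 f)) :
    ∃ P Q : PowerSeries ℂ, IsIntPS P ∧ IsIntPS Q ∧ Q ≠ 0 ∧ Q * qExpansion 1 f = P := by
  classical
  obtain ⟨w, Θ, hTint, hT0, hz⟩ := hΘ
  obtain ⟨Pr, hPrat, hPid, hPmul, hPsmul⟩ := exists_ratProj
  obtain ⟨l, hl, hrel⟩ := hL k w (ModularFormClass.modularForm f) Θ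
  obtain ⟨lam, hlam, hrel1⟩ := hL 0 w 1 Θ
  set n : ℕ := cosetCard N with hn
  set T : PowerSeries ℂ := qExpansion 1 Θ with hT
  set F : PowerSeries ℂ := qExpansion 1 f with hF
  have hΘMF : IsMF (G0 N) w (⇑Θ) := ⟨Θ, rfl⟩
  have hfMF : IsMF (G0 N) k (⇑f) := IsCF.isMF ⟨f, rfl⟩
  have hΘHPB : IsHPB (⇑Θ) := hΘMF.isHPB
  have hfHPB : IsHPB (⇑f) := hfMF.isHPB
  have hlMF : ∀ j : ℕ, IsMF (G0 N) (k + (j : ℤ) * w) (l j) := fun j => IsMF.of_levelOne (hl j)
  have hlamMF : ∀ j : ℕ, IsMF (G0 N) (0 + (j : ℤ) * w) (lam j) := fun j => IsMF.of_levelOne (hlam j)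
  -- the two Lagrange relations as identities of functions
  have hDfun : Dfun Θ = ∑ j ∈ Finset.range n, lam j * (⇑Θ) ^ (n - 1 - j) := by
    funext z
    have := hrel1 z
    rw [ModularForm.one_coe_eq_one, Pi.one_apply, one_mul] at this
    rw [this, Finset.sum_apply]
    rfl
  have hfD : (⇑f) * Dfun Θ = ∑ j ∈ Finset.range n, l j * (⇑Θ) ^ (n - 1 - j) := by
    funext z
    have := hrel z
    rw [Finset.sum_apply]
    exact this
  have hDHPB : IsHPB (Dfun Θ) := by
    rw [hDfun]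
    exact HPB.sum_mem fun j _ => HPB.mul_mem (hlamMF j).isHPB (HPB.pow_mem hΘHPB _)
  -- q-expansions
  have hqD : qExpansion 1 (Dfun Θ)
      = ∑ j ∈ Finset.range n, qExpansion 1 (lam j) * T ^ (n - 1 - j) := by
    rw [hDfun, IsMF.qExpansion_sum (N := N) _ _
      (fun j : ℕ => (0 + (j : ℤ) * w) + ((n - 1 - j : ℕ) : ℤ) * w)
      (fun j _ => (hlamMF j).mul (hΘMF.pow _))]
    refine Finset.sum_congr rfl fun j _ => ?_
    rw [(hlamMF j).qExpansion_mul (hΘMF.pow _), hΘMF.qExpansion_pow]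
  have hqG : F * qExpansion 1 (Dfun Θ)
      = ∑ j ∈ Finset.range n, qExpansion 1 (l j) * T ^ (n - 1 - j) := by
    rw [hF, ← UpperHalfPlane.qExpansion_mul hfHPB.analyticAt hDHPB.analyticAt, hfD,
      IsMF.qExpansion_sum (N := N) _ _
      (fun j : ℕ => (k + (j : ℤ) * w) + ((n - 1 - j : ℕ) : ℤ) * w)
      (fun j _ => (hlMF j).mul (hΘMF.pow _))]
    refine Finset.sum_congr rfl fun j _ => ?_
    rw [(hlMF j).qExpansion_mul (hΘMF.pow _), hΘMF.qExpansion_pow]
  have hD0 : (qExpansion 1 (Dfun Θ)).coeff 0 = 1 :=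
    hDHPB.coeff_zero_of_tendsto (Dfun_tendsto_one Θ hT0 hz)
  -- apply the projection
  have hTint' : ∀ m : ℕ, IsIntPS (T ^ m) := fun m => almostInt_isIntPS_pow hTint m
  have hTrat : ∀ m : ℕ, IsRatPS (T ^ m) := fun m => almostInt_isIntPS_isRatPS (hTint' m)
  have hD'bdd : BddFracPS (Pr (qExpansion 1 (Dfun Θ))) := by
    rw [hqD, map_sum]
    refine BddFracPS.sum _ _ fun j _ => ?_
    rw [hPmul _ _ (hTrat _)]
    exact (bddFrac_proj_levelOne hP4 Pr hPsmul (hlam j)).mul_isIntPS (hTint' _)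
  have hG'bdd : BddFracPS (Pr (F * qExpansion 1 (Dfun Θ))) := by
    rw [hqG, map_sum]
    refine BddFracPS.sum _ _ fun j _ => ?_
    rw [hPmul _ _ (hTrat _)]
    exact (bddFrac_proj_levelOne hP4 Pr hPsmul (hl j)).mul_isIntPS (hTint' _)
  have hG'eq : Pr (F * qExpansion 1 (Dfun Θ)) = Pr (qExpansion 1 (Dfun Θ)) * F := by
    rw [mul_comm, hPmul _ _ hf]
  have hD'0 : Pr (qExpansion 1 (Dfun Θ)) ≠ 0 := by
    have h1 := PowerSeries.eq_shift_mul_X_add_const (qExpansion 1 (Dfun Θ))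
    have hone : IsRatPS (1 : PowerSeries ℂ) := almostInt_isIntPS_isRatPS almostInt_isIntPS_one
    have hX : IsRatPS (PowerSeries.X : PowerSeries ℂ) := almostInt_isIntPS_isRatPS almostInt_isIntPS_X
    have h2 : (PowerSeries.coeff 0) (Pr (qExpansion 1 (Dfun Θ))) = 1 := by
      rw [← PowerSeries.coeff_zero_eq_constantCoeff_apply, hD0, map_one] at h1
      rw [h1, map_add, hPid _ hone, hPmul _ _ hX]
      simp
    intro h0
    rw [h0] at h2
    simp at h2
  obtain ⟨M₁, hM₁, hQ⟩ := hD'bdd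
  obtain ⟨M₂, hM₂, hP⟩ := hG'bdd
  refine ⟨(M₁ : ℂ) • ((M₂ : ℂ) • Pr (F * qExpansion 1 (Dfun Θ))),
    (M₂ : ℂ) • ((M₁ : ℂ) • Pr (qExpansion 1 (Dfun Θ))),
    bddFrac_natCast_smul M₁ hP, bddFrac_natCast_smul M₂ hQ, ?_, ?_⟩
  · refine smul_ne_zero (Nat.cast_ne_zero.mpr hM₂) (smul_ne_zero (Nat.cast_ne_zero.mpr hM₁) hD'0)
  · rw [hG'eq, smul_mul_assoc, smul_mul_assoc, smul_comm]

set_option linter.unusedVariables false in
/-- **P18, part (2)**, in the exact form of the P18 split (P20 `Dfun_tendsto_one` is accepted as a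
hypothesis `hD1` but not needed: `DfunLemma` is imported). -/
theorem bdd_fraction (N : ℕ) [NeZero N] (k : ℤ) (hP4 : StmtP4) (hΘ : StmtTheta N)
    (hLR : StmtLagrangeRel N)
    (hD1 : ∀ (w : ℤ) (Θ : ModularForm (G0 N) w), (qExpansion 1 Θ).coeff 0 = 1 →
      (∀ γ : SL(2, ℤ), γ ∉ CongruenceSubgroup.Gamma0 N → IsZeroAtImInfty ((⇑Θ : ℍ → ℂ) ∣[w] γ)) →
      Filter.Tendsto (Dfun Θ) atImInfty (nhds 1))
    (f : CuspForm (G0 N) k) (hf : IsRatPS (qExpansion 1 f)) :
    ∃ P Q : PowerSeries ℂ, IsIntPS P ∧ IsIntPS Q ∧ Q ≠ 0 ∧ Q * qExpansion 1 f = P :=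
  bddFrac_exists N k hP4 hΘ hLR f hf

end Fermat.Agent.S23
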