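import Fermat.Agent.S23.BddMonic

/-!
# S23, piece P18 (glue): bounded denominators from the monic relation and the fraction

`bdd_of_parts`: if every rational `q`-expansion `F` of a cusp form has a nonzero multiple `M • F`
integral over `ℤ⟦X⟧` (part (1)) and is a fraction `P / Q` of integral power series (part (2)), then
`M • F` is integral (`StmtAlmostIntegral`), i.e. `StmtBdd N k` holds.
-/

set_option autoImplicit false

noncomputable section

namespace Fermat.Agent.S23

open UpperHalfPlane ModularForm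
open scoped MatrixGroups ModularForm Manifold

theorem bdd_of_parts (N : ℕ) [NeZero N] (k : ℤ) (hAI : StmtAlmostIntegral)
    (h1 : ∀ f : CuspForm (G0 N) k, IsRatPS (qExpansion 1 f) →
      ∃ (M : ℕ) (c : ℕ → PowerSeries ℂ), M ≠ 0 ∧
        (∀ m, 1 ≤ m → m ≤ cosetCard N → IsIntPS (c m)) ∧
        ((M : ℂ) • qExpansion 1 f) ^ cosetCard N +
          ∑ m ∈ Finset.Icc 1 (cosetCard N),
            c m * ((M : ℂ) • qExpansion 1 f) ^ (cosetCard N - m) = 0)
    (h2 : ∀ f : CuspForm (G0 N) k, IsRatPS (qExpansion 1 f) →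
      ∃ P Q : PowerSeries ℂ, IsIntPS P ∧ IsIntPS Q ∧ Q ≠ 0 ∧ Q * qExpansion 1 f = P) :
    StmtBdd N k := by
  intro f hf
  obtain ⟨M, c, hM, hc, hrel⟩ := h1 f hf
  obtain ⟨P, Q, hP, hQ, hQ0, hQF⟩ := h2 f hf
  refine ⟨M, hM, hAI ((M : ℂ) • qExpansion 1 f) ((M : ℂ) • P) Q (cosetCard N) c
    (bddTools_isRatPS_smul_nat M hf) (bddTools_isIntPS_smul_nat M hP) hQ hQ0 ?_ hc
    (bddMonic_cosetCard_pos N) hrel⟩
  rw [mul_smul_comm, hQF]

end Fermat.Agent.S23
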