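import Fermat.Agent.S23.Interface
import Fermat.Agent.S23.FinDim

/-!
# S23 — P19: rational span + bounded denominators ⇒ `CuspForm.HasIntegralStructure N k`
-/

set_option autoImplicit false

noncomputable section

namespace Fermat.Agent.S23

open UpperHalfPlane ModularForm SlashInvariantForm
open scoped MatrixGroups ModularForm Manifold

theorem glue0_qExpansion_smul (N : ℕ) [NeZero N] (k : ℤ) (c : ℂ) (f : CuspForm (G0 N) k) :
    qExpansion 1 (⇑(c • f) : ℍ → ℂ) = c • qExpansion 1 (⇑f : ℍ → ℂ) := by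
  obtain ⟨L, -, hL⟩ := exists_qExpLin N k
  have h2 := L.map_smul c f
  rw [hL, hL] at h2
  exact h2

theorem hasIntegralStructure_of (N : ℕ) [NeZero N] (k : ℤ) :
    StmtRatSpan N k → StmtBdd N k → CuspForm.HasIntegralStructure N k := by
  intro hRat hBdd
  unfold CuspForm.HasIntegralStructure
  rw [eq_top_iff, ← hRat]
  apply Submodule.span_le.mpr
  intro f hf
  obtain ⟨M, hM0, hM⟩ := hBdd f hf
  have hMc : (M : ℂ) ≠ 0 := Nat.cast_ne_zero.mpr hM0
  have hmem : (M : ℂ) • f ∈ (CuspForm.intLattice N k : Set (CuspForm (CongruenceSubgroup.Gamma0 N) k)) := by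
    apply Submodule.subset_span
    intro n
    obtain ⟨z, hz⟩ := hM n
    refine ⟨z, ?_⟩
    show (qExpansion 1 (⇑((M : ℂ) • f) : ℍ → ℂ)).coeff n = (z : ℂ)
    rw [glue0_qExpansion_smul N k (M : ℂ) f]
    exact hz
  have hf' : f = (M : ℂ)⁻¹ • ((M : ℂ) • f) := by
    rw [smul_smul, inv_mul_cancel₀ hMc, one_smul]
  rw [hf']
  exact Submodule.smul_mem _ _ (Submodule.subset_span hmem)

end Fermat.Agent.S23
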