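import Mathlib

/-!
# S23, piece P5 (core): σ-stability and bounded denominators from a spanning set of integral forms

Everything here is stated for an arbitrary family of modular forms of level one whose `ℂ`-span
contains the given form; the final statements (importing P4) are in `LevelOne.lean`.
-/

set_option autoImplicit false

open ModularForm ModularFormClass UpperHalfPlane MatrixGroups

namespace Fermat.Agent.S23

/-- the `n`-th `q`-coefficient as a linear functional on level-one modular forms. -/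
theorem p5_coeff_add {m : ℤ} (a b : ModularForm 𝒮ℒ m) (n : ℕ) :
    (qExpansion 1 (⇑(a + b : ModularForm 𝒮ℒ m))).coeff n =
      (qExpansion 1 a).coeff n + (qExpansion 1 b).coeff n := by
  have h := ModularForm.qExpansion_add (h := 1) one_pos one_mem_strictPeriods_SL a b
  have h' : qExpansion 1 (⇑(a + b : ModularForm 𝒮ℒ m)) = qExpansion 1 (⇑a) + qExpansion 1 (⇑b) := by
    simpa using h
  rw [h', map_add]

theorem p5_coeff_smul {m : ℤ} (c : ℂ) (a : ModularForm 𝒮ℒ m) (n : ℕ) :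
    (qExpansion 1 (⇑(c • a : ModularForm 𝒮ℒ m))).coeff n = c * (qExpansion 1 a).coeff n := by
  have h := ModularForm.qExpansion_smul (h := 1) one_pos one_mem_strictPeriods_SL c a
  have h' : qExpansion 1 (⇑(c • a : ModularForm 𝒮ℒ m)) = c • qExpansion 1 (⇑a) := by
    simpa using h
  rw [h', PowerSeries.coeff_smul, smul_eq_mul]

theorem p5_coeff_zero {m : ℤ} (n : ℕ) :
    (qExpansion 1 (⇑(0 : ModularForm 𝒮ℒ m))).coeff n = 0 := by
  have : (⇑(0 : ModularForm 𝒮ℒ m) : ℍ → ℂ) = 0 := rfl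
  rw [this, qExpansion_zero, map_zero]

/-- **σ-stability from a spanning set of integral forms.** -/
theorem p5_exists_map_of_mem_span (σ : ℂ →+* ℂ) {m : ℤ} (a : ModularForm 𝒮ℒ m)
    (ha : a ∈ Submodule.span ℂ
      {b : ModularForm 𝒮ℒ m | ∀ n, ∃ z : ℤ, (qExpansion 1 b).coeff n = (z : ℂ)}) :
    ∃ a' : ModularForm 𝒮ℒ m, qExpansion 1 a' = PowerSeries.map σ (qExpansion 1 a) := by
  induction ha using Submodule.span_induction with
  | mem b hb =>
    refine ⟨b, ?_⟩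
    ext n
    obtain ⟨z, hz⟩ := hb n
    rw [PowerSeries.coeff_map, hz, map_intCast]
  | zero =>
    refine ⟨0, ?_⟩
    ext n
    rw [PowerSeries.coeff_map, p5_coeff_zero, map_zero]
  | add x y _ _ hx hy =>
    obtain ⟨x', hx'⟩ := hx
    obtain ⟨y', hy'⟩ := hy
    refine ⟨x' + y', ?_⟩
    ext n
    rw [p5_coeff_add, hx', hy', PowerSeries.coeff_map, PowerSeries.coeff_map,
      PowerSeries.coeff_map, p5_coeff_add, map_add]
  | smul c x _ hx =>
    obtain ⟨x', hx'⟩ := hx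
    refine ⟨σ c • x', ?_⟩
    ext n
    rw [p5_coeff_smul, hx', PowerSeries.coeff_map, PowerSeries.coeff_map, p5_coeff_smul, map_mul]

/-- Key step for bounded denominators: for every `ℚ`-linear functional `ℓ : ℂ → ℚ`, applying `ℓ`
coefficientwise to the `q`-expansion of a form in the span of integral forms gives the
`q`-expansion of a form with bounded denominators. -/
theorem p5_exists_functional_of_mem_span {m : ℤ} (a : ModularForm 𝒮ℒ m)
    (ha : a ∈ Submodule.span ℂ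
      {b : ModularForm 𝒮ℒ m | ∀ n, ∃ z : ℤ, (qExpansion 1 b).coeff n = (z : ℂ)})
    (ℓ : ℂ →ₗ[ℚ] ℚ) :
    ∃ y : ModularForm 𝒮ℒ m,
      (∃ D : ℕ, D ≠ 0 ∧ ∀ n, ∃ z : ℤ, (D : ℂ) * (qExpansion 1 y).coeff n = (z : ℂ)) ∧
      ∀ n, (qExpansion 1 y).coeff n = ((ℓ ((qExpansion 1 a).coeff n) : ℚ) : ℂ) := by
  induction ha using Submodule.span_induction generalizing ℓ with
  | mem b hb =>
    refine ⟨((ℓ 1 : ℚ) : ℂ) • b, ⟨(ℓ 1).den, (ℓ 1).den_nz, fun n => ?_⟩, fun n => ?_⟩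
    · obtain ⟨z, hz⟩ := hb n
      refine ⟨(ℓ 1).num * z, ?_⟩
      rw [p5_coeff_smul, hz, ← mul_assoc]
      have h1 : (((ℓ 1).den : ℕ) : ℂ) * ((ℓ 1 : ℚ) : ℂ) = (((ℓ 1).num : ℤ) : ℂ) := by
        have := Rat.den_mul_eq_num (ℓ 1)
        exact_mod_cast congrArg (fun q : ℚ => (q : ℂ)) this
      rw [h1]
      push_cast
      ring
    · obtain ⟨z, hz⟩ := hb n
      rw [p5_coeff_smul, hz]
      have : ℓ (z : ℂ) = (z : ℚ) * ℓ 1 := by
        have h2 : (z : ℂ) = (z : ℚ) • (1 : ℂ) := by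
          rw [Rat.smul_def]; simp
        rw [h2, map_smul, smul_eq_mul]
      rw [this]
      push_cast
      ring
  | zero =>
    refine ⟨0, ⟨1, one_ne_zero, fun n => ⟨0, ?_⟩⟩, fun n => ?_⟩
    · rw [p5_coeff_zero]; simp
    · rw [p5_coeff_zero, map_zero]; simp
  | add x y _ _ hx hy =>
    obtain ⟨x', ⟨D₁, hD₁, hx1⟩, hx2⟩ := hx ℓ
    obtain ⟨y', ⟨D₂, hD₂, hy1⟩, hy2⟩ := hy ℓ
    refine ⟨x' + y', ⟨D₁ * D₂, mul_ne_zero hD₁ hD₂, fun n => ?_⟩, fun n => ?_⟩
    · obtain ⟨z₁, hz₁⟩ := hx1 n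
      obtain ⟨z₂, hz₂⟩ := hy1 n
      refine ⟨D₂ * z₁ + D₁ * z₂, ?_⟩
      rw [p5_coeff_add]
      push_cast
      linear_combination (D₂ : ℂ) * hz₁ + (D₁ : ℂ) * hz₂
    · rw [p5_coeff_add, p5_coeff_add, hx2, hy2, map_add]
      push_cast
      ring
  | smul c x _ hx =>
    obtain ⟨x', hD, hx2⟩ := hx (ℓ.comp ((LinearMap.mulLeft ℂ c).restrictScalars ℚ))
    refine ⟨x', hD, fun n => ?_⟩
    rw [hx2, p5_coeff_smul]
    simp

/-- **Bounded denominators from a spanning set of integral forms.** -/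
theorem p5_bdd_denom_of_mem_span {m : ℤ} (a : ModularForm 𝒮ℒ m)
    (ha : a ∈ Submodule.span ℂ
      {b : ModularForm 𝒮ℒ m | ∀ n, ∃ z : ℤ, (qExpansion 1 b).coeff n = (z : ℂ)})
    (h : ∀ n, ∃ r : ℚ, (qExpansion 1 a).coeff n = (r : ℂ)) :
    ∃ D : ℕ, D ≠ 0 ∧ ∀ n, ∃ z : ℤ, (D : ℂ) * (qExpansion 1 a).coeff n = (z : ℂ) := by
  -- a `ℚ`-linear retraction `ℂ → ℚ`
  obtain ⟨π, hπ⟩ := LinearMap.exists_leftInverse_of_injective
    (Algebra.linearMap ℚ ℂ) (LinearMap.ker_eq_bot.mpr (algebraMap ℚ ℂ).injective)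
  have hπr : ∀ r : ℚ, π (r : ℂ) = r := fun r => by
    have := LinearMap.congr_fun hπ r
    simpa using this
  obtain ⟨y, ⟨D, hD, hy1⟩, hy2⟩ := p5_exists_functional_of_mem_span a ha π
  refine ⟨D, hD, fun n => ?_⟩
  obtain ⟨z, hz⟩ := hy1 n
  obtain ⟨r, hr⟩ := h n
  refine ⟨z, ?_⟩
  rw [← hz, hy2, hr, hπr]

end Fermat.Agent.S23
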