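import Fermat.Agent.S23.LevelOneInt

/-!
# S23, piece P4 (fallback version by helper60): level-one forms are spanned by integral forms

`p4x_levelOne_mem_span_int` : every `a : ModularForm 𝒮ℒ m` lies in the `ℂ`-span of the level-one
forms of weight `m` with integral `q`-expansion.  All names are prefixed `p4x_`.
-/

set_option autoImplicit false

open UpperHalfPlane ModularForm ModularFormClass MatrixGroups EisensteinSeries

namespace Fermat.Agent.S23

/-- the set of level-one forms of weight `m` with integral `q`-expansion -/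
def p4x_intForms (m : ℤ) : Set (ModularForm 𝒮ℒ m) :=
  {b | ∀ n, ∃ z : ℤ, (qExpansion 1 b).coeff n = (z : ℂ)}

theorem p4x_coeff_smul {m : ℤ} (c : ℂ) (a : ModularForm 𝒮ℒ m) (n : ℕ) :
    (qExpansion 1 (⇑(c • a : ModularForm 𝒮ℒ m))).coeff n = c * (qExpansion 1 a).coeff n := by
  have h := ModularForm.qExpansion_smul (h := 1) one_pos one_mem_strictPeriods_SL c a
  have h' : qExpansion 1 (⇑(c • a : ModularForm 𝒮ℒ m)) = c • qExpansion 1 (⇑a) := by
    simpa using h
  rw [h', PowerSeries.coeff_smul, smul_eq_mul]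

theorem p4x_coeff_sub {m : ℤ} (a b : ModularForm 𝒮ℒ m) (n : ℕ) :
    (qExpansion 1 (⇑(a - b : ModularForm 𝒮ℒ m))).coeff n =
      (qExpansion 1 a).coeff n - (qExpansion 1 b).coeff n := by
  have h := ModularForm.qExpansion_sub (h := 1) one_pos one_mem_strictPeriods_SL a b
  have h' : qExpansion 1 (⇑(a - b : ModularForm 𝒮ℒ m)) = qExpansion 1 (⇑a) - qExpansion 1 (⇑b) := by
    simpa using h
  rw [h', map_sub]

/-- For even `k ≥ 4` there is a level-one form of weight `k` with integral `q`-expansion and
nonzero constant term (a multiple of the Eisenstein series). -/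
theorem p4x_exists_int_eisenstein {k : ℕ} (hk : 3 ≤ k) (hk2 : Even k) :
    ∃ G : ModularForm 𝒮ℒ k, G ∈ p4x_intForms k ∧ (qExpansion 1 G).coeff 0 ≠ 0 := by
  by_cases hB : bernoulli k = 0
  · refine ⟨E hk, fun n => ?_, ?_⟩
    · rw [E_qExpansion_coeff hk hk2]
      split_ifs
      · exact ⟨1, by simp⟩
      · exact ⟨0, by simp [hB]⟩
    · rw [E_qExpansion_coeff_zero hk hk2]
      exact one_ne_zero
  · have hnum : (bernoulli k).num ≠ 0 := Rat.num_ne_zero.mpr hB
    have hBC : ((bernoulli k : ℚ) : ℂ) ≠ 0 := by exact_mod_cast hB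
    have hnd : (((bernoulli k).num : ℤ) : ℂ) = ((bernoulli k : ℚ) : ℂ) * ((bernoulli k).den : ℂ) := by
      have := Rat.mul_den_eq_num (bernoulli k)
      exact_mod_cast (congrArg (fun q : ℚ => (q : ℂ)) this).symm
    refine ⟨(((bernoulli k).num : ℤ) : ℂ) • E hk, fun n => ?_, ?_⟩
    · rw [p4x_coeff_smul, E_qExpansion_coeff hk hk2]
      split_ifs
      · exact ⟨(bernoulli k).num, by simp⟩
      · refine ⟨-(2 * k * (bernoulli k).den * (ArithmeticFunction.sigma (k - 1) n : ℤ)), ?_⟩
        rw [hnd]
        push_cast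
        field_simp
    · rw [p4x_coeff_smul, E_qExpansion_coeff_zero hk hk2, mul_one]
      exact_mod_cast hnum

/-- multiplication by `Δ` as a linear map `M_{k-12} → M_k`. -/
noncomputable def p4x_mulDelta (k : ℤ) : ModularForm 𝒮ℒ (k - 12) →ₗ[ℂ] ModularForm 𝒮ℒ k :=
  CuspForm.toModularFormₗ ∘ₗ (CuspForm.discriminantEquiv (k := k)).symm.toLinearMap

theorem p4x_mulDelta_apply (k : ℤ) (h : ModularForm 𝒮ℒ (k - 12)) (z : ℍ) :
    p4x_mulDelta k h z = ModularForm.discriminant z * h z := rfl

theorem p4x_qExpansion_mulDelta (k : ℤ) (h : ModularForm 𝒮ℒ (k - 12)) :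
    qExpansion 1 (p4x_mulDelta k h) = qExpansion 1 ModularForm.discriminant * qExpansion 1 h := by
  have h1 : (⇑(p4x_mulDelta k h) : ℍ → ℂ) = (⇑CuspForm.discriminant : ℍ → ℂ) * ⇑h := by
    ext z
    rfl
  rw [h1, ← CuspForm.coe_discriminant]
  exact ModularForm.qExpansion_mul_coe one_pos one_mem_strictPeriods_SL _ _

theorem p4x_mulDelta_mem (k : ℤ) {h : ModularForm 𝒮ℒ (k - 12)} (hh : h ∈ p4x_intForms (k - 12)) :
    p4x_mulDelta k h ∈ p4x_intForms k := by
  have hΔ : qExpansion 1 ModularForm.discriminant ∈ levelOneInt_psCoeffsIn ⊥ :=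
    levelOneInt_discriminant_mem ⊥
  have hh' : qExpansion 1 h ∈ levelOneInt_psCoeffsIn ⊥ := fun n => by
    obtain ⟨z, hz⟩ := hh n
    rw [hz]
    exact intCast_mem _ z
  have := (levelOneInt_psCoeffsIn ⊥).mul_mem hΔ hh'
  intro n
  rw [p4x_qExpansion_mulDelta]
  exact levelOneInt_exists_int_of_mem_bot (this n)

/-- a level-one form with vanishing constant term is `Δ` times a form of weight `k - 12`. -/
theorem p4x_exists_eq_mulDelta {k : ℤ} (a : ModularForm 𝒮ℒ k)
    (h0 : (qExpansion 1 a).coeff 0 = 0) : ∃ h : ModularForm 𝒮ℒ (k - 12), p4x_mulDelta k h = a := by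
  refine ⟨CuspForm.discriminantEquiv (toCuspForm a h0), ?_⟩
  ext z
  rw [p4x_mulDelta_apply, CuspForm.discriminantEquiv_apply, toCuspForm_apply]
  exact mul_div_cancel₀ _ (discriminant_ne_zero z)

theorem p4x_zero_mem_span (m : ℤ) {a : ModularForm 𝒮ℒ m} (ha : a = 0) :
    a ∈ Submodule.span ℂ (p4x_intForms m) := by
  rw [ha]
  exact Submodule.zero_mem _

theorem p4x_levelOne_mem_span_aux (n : ℕ) : ∀ k : ℤ, k < n → ∀ a : ModularForm 𝒮ℒ k,
    a ∈ Submodule.span ℂ (p4x_intForms k) := by
  induction n with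
  | zero =>
    intro k hk a
    refine p4x_zero_mem_span k ?_
    have := levelOne_neg_weight_eq_zero (by exact_mod_cast hk) a
    exact DFunLike.coe_injective this
  | succ n ih =>
    intro k hk a
    rcases lt_or_ge k (n : ℤ) with hlt | hge
    · exact ih k hlt a
    have hkn : k = (n : ℤ) := by
      have : k < (n : ℤ) + 1 := by exact_mod_cast hk
      omega
    subst hkn
    rcases Nat.even_or_odd n with hev | hodd
    · -- even weight
      rcases Nat.lt_or_ge n 3 with h3 | h3
      · -- n = 0 or n = 2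
        have hn02 : n = 0 ∨ n = 2 := by
          obtain ⟨r, hr⟩ := hev
          omega
        rcases hn02 with rfl | rfl
        · -- weight 0 : constants
          obtain ⟨c, hc⟩ := levelOne_weight_zero_const (F := ModularForm 𝒮ℒ ((0 : ℕ) : ℤ)) a
          have h1 : (1 : ModularForm 𝒮ℒ 0) ∈ p4x_intForms 0 := by
            intro n
            rw [ModularForm.qExpansion_one, PowerSeries.coeff_one]
            split_ifs
            · exact ⟨1, by simp⟩
            · exact ⟨0, by simp⟩
          have ha : a = c • (1 : ModularForm 𝒮ℒ 0) := by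
            apply DFunLike.coe_injective
            rw [hc]
            ext z
            simp
          rw [ha]
          exact Submodule.smul_mem _ _ (Submodule.subset_span h1)
        · -- weight 2 : zero
          refine p4x_zero_mem_span _ ?_
          exact rank_zero_iff_forall_zero.mp levelOne_weight_two_rank_zero a
      · -- even n ≥ 4
        obtain ⟨G, hG, hG0⟩ := p4x_exists_int_eisenstein h3 hev
        set c : ℂ := (qExpansion 1 a).coeff 0 / (qExpansion 1 G).coeff 0 with hc
        have h0 : (qExpansion 1 (⇑(a - c • G : ModularForm 𝒮ℒ (n : ℤ)))).coeff 0 = 0 := by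
          rw [p4x_coeff_sub, p4x_coeff_smul, hc, div_mul_cancel₀ _ hG0, sub_self]
        obtain ⟨h, hh⟩ := p4x_exists_eq_mulDelta (a - c • G) h0
        have hmem : h ∈ Submodule.span ℂ (p4x_intForms ((n : ℤ) - 12)) :=
          ih _ (by omega) h
        have hmap : p4x_mulDelta (n : ℤ) h ∈ Submodule.span ℂ (p4x_intForms (n : ℤ)) := by
          have := Submodule.mem_map_of_mem (f := p4x_mulDelta (n : ℤ)) hmem
          rw [Submodule.map_span] at this
          refine Submodule.span_mono ?_ this
          rintro _ ⟨b, hb, rfl⟩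
          exact p4x_mulDelta_mem _ hb
        have ha : a = p4x_mulDelta (n : ℤ) h + c • G := by
          rw [hh]
          abel
        rw [ha]
        exact Submodule.add_mem _ hmap (Submodule.smul_mem _ _ (Submodule.subset_span hG))
    · -- odd weight
      refine p4x_zero_mem_span _ ?_
      exact levelOne_odd_weight_eq_zero (by exact_mod_cast hodd) a

/-- **P4 (fallback).** Every level-one modular form is a `ℂ`-combination of forms with integral
`q`-expansion. -/
theorem p4x_levelOne_mem_span_int {m : ℤ} (a : ModularForm 𝒮ℒ m) :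
    a ∈ Submodule.span ℂ
      {b : ModularForm 𝒮ℒ m | ∀ n, ∃ z : ℤ, (qExpansion 1 b).coeff n = (z : ℂ)} :=
  p4x_levelOne_mem_span_aux (m.toNat + 1) m (by omega) a

end Fermat.Agent.S23
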