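import Fermat.Agent.S23.Interface
import Fermat.Agent.S23.LevelOneAux
import Fermat.Agent.S23.LevelOneSpanAlt

/-!
# S23, piece P5: σ-stability and bounded denominators at level one

Interface theorems `levelOne_exists_map`, `levelOne_bdd_denom`, and the packaged statements
`p5_stmtL1 : StmtL1`, `p4x_stmtP4 : StmtP4`.
-/

set_option autoImplicit false

open UpperHalfPlane ModularForm ModularFormClass MatrixGroups

namespace Fermat.Agent.S23

/-- **P5 (σ-stability).** -/
theorem levelOne_exists_map (σ : ℂ →+* ℂ) {m : ℤ} (a : ModularForm 𝒮ℒ m) :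
    ∃ a' : ModularForm 𝒮ℒ m, qExpansion 1 a' = PowerSeries.map σ (qExpansion 1 a) :=
  p5_exists_map_of_mem_span σ a (p4x_levelOne_mem_span_int a)

/-- **P5 (bounded denominators).** -/
theorem levelOne_bdd_denom {m : ℤ} (a : ModularForm 𝒮ℒ m)
    (h : ∀ n, ∃ r : ℚ, (qExpansion 1 a).coeff n = (r : ℂ)) :
    ∃ D : ℕ, D ≠ 0 ∧ ∀ n, ∃ z : ℤ, (D : ℂ) * (qExpansion 1 a).coeff n = (z : ℂ) :=
  p5_bdd_denom_of_mem_span a (p4x_levelOne_mem_span_int a) h

/-- the packaged statement `StmtL1` of `Interface.lean`. -/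
theorem p5_stmtL1 : StmtL1 := fun σ _ a => levelOne_exists_map σ a

/-- the packaged statement `StmtP4` of `Interface.lean` (fallback proof). -/
theorem p4x_stmtP4 : StmtP4 := fun _ a => p4x_levelOne_mem_span_int a

end Fermat.Agent.S23
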