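import Fermat.Agent.S23.Basic

/-!
# S23, piece P9: symmetric functions of the `SL(2,ℤ)`-translates of a level `Γ₀(N)` form

For `f` a modular form of level `Γ₀(N)` and weight `k`, the elementary symmetric functions of the
translates `f_q = f ∣[k] h⁻¹` (`q = ⟦h⟧ ∈ SL(2,ℤ)/Γ₀(N)`) are modular forms of level one
(`isMF_esymm`), cusp forms if `f` is (`isCF_esymm`), and so are the "Lagrange coefficients"
`∑_q f_q · e_j(Θ_{q'} : q' ≠ q)` (`isMF_lagrange`).
-/

set_option autoImplicit false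
set_option linter.unusedSectionVars false

noncomputable section

namespace Fermat.Agent.S23

open UpperHalfPlane ModularForm SlashInvariantForm Filter
open scoped MatrixGroups ModularForm Manifold

section general

variable {𝒢 : Subgroup (GL (Fin 2) ℝ)} [𝒢.IsFiniteRelIndex 𝒮ℒ]

local notation "𝒬" => 𝒮ℒ ⧸ (𝒢.subgroupOf 𝒮ℒ)

omit [𝒢.IsFiniteRelIndex 𝒮ℒ] in
/-- The translates of a modular form are holomorphic. -/
theorem esymm_mdiff_quotientFunc {k : ℤ} (f : ModularForm 𝒢 k) (q : 𝒬) :
    MDiff (quotientFunc f q) := by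
  induction q using Quotient.inductionOn with
  | h r => exact (ModularForm.translate f r.val⁻¹).holo'

/-- The translates of a modular form are bounded at all cusps of `SL(2,ℤ)`. -/
theorem esymm_isBoundedAt_quotientFunc {k : ℤ} (f : ModularForm 𝒢 k) (q : 𝒬)
    {c : OnePoint ℝ} (hc : IsCusp c 𝒮ℒ) (γ : GL (Fin 2) ℝ) (hγ : γ • OnePoint.infty = c) :
    IsBoundedAtImInfty (quotientFunc f q ∣[k] γ) := by
  induction q using Quotient.inductionOn with
  | h r =>
    obtain ⟨r, hr⟩ := r
    refine (ModularForm.translate f r⁻¹).bdd_at_cusps' ?_ γ hγ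
    simpa using hc.of_isFiniteRelIndex_conj hr

/-- The translates of a cusp form vanish at all cusps of `SL(2,ℤ)`. -/
theorem esymm_isZeroAt_quotientFunc {k : ℤ} (f : CuspForm 𝒢 k) (q : 𝒬)
    {c : OnePoint ℝ} (hc : IsCusp c 𝒮ℒ) (γ : GL (Fin 2) ℝ) (hγ : γ • OnePoint.infty = c) :
    IsZeroAtImInfty (quotientFunc f q ∣[k] γ) := by
  induction q using Quotient.inductionOn with
  | h r =>
    obtain ⟨r, hr⟩ := r
    refine (CuspForm.translate f r⁻¹).zero_at_cusps' ?_ γ hγ
    simpa using hc.of_isFiniteRelIndex_conj hr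

end general

section sums

/-- A finite sum of holomorphic functions, each bounded at the cusps, whose sum is invariant
under `SL(2,ℤ)`, is a modular form of level one. -/
theorem esymm_isMF_sum {ι : Type} (s : Finset ι) (g : ι → ℍ → ℂ) (κ : ℤ)
    (hol : ∀ t ∈ s, MDiff (g t))
    (bdd : ∀ t ∈ s, ∀ {c : OnePoint ℝ}, IsCusp c 𝒮ℒ → ∀ γ : GL (Fin 2) ℝ,
      γ • OnePoint.infty = c → IsBoundedAtImInfty (g t ∣[κ] γ))
    (inv : ∀ h ∈ 𝒮ℒ, (∑ t ∈ s, g t ∣[κ] h) = ∑ t ∈ s, g t) :
    IsMF 𝒮ℒ κ (fun z => ∑ t ∈ s, g t z) := by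
  have hfun : (fun z => ∑ t ∈ s, g t z) = ∑ t ∈ s, g t := by
    ext z; simp [Finset.sum_apply]
  rw [hfun]
  refine ⟨{ toFun := ∑ t ∈ s, g t
            slash_action_eq' := fun h hh => by
              rw [SlashAction.sum_slash]; exact inv h hh
            holo' := by
              change MDiff (∑ t ∈ s, g t)
              exact MDifferentiable.sum hol
            bdd_at_cusps' := fun {c} hc γ hγ => by
              rw [SlashAction.sum_slash, IsBoundedAtImInfty, BoundedAtFilter]
              exact Asymptotics.IsBigO.sum fun t ht => bdd t ht hc γ hγ }, rfl⟩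

/-- A finite sum of holomorphic functions, each vanishing at the cusps, whose sum is invariant
under `SL(2,ℤ)`, is a cusp form of level one. -/
theorem esymm_isCF_sum {ι : Type} (s : Finset ι) (g : ι → ℍ → ℂ) (κ : ℤ)
    (hol : ∀ t ∈ s, MDiff (g t))
    (zero : ∀ t ∈ s, ∀ {c : OnePoint ℝ}, IsCusp c 𝒮ℒ → ∀ γ : GL (Fin 2) ℝ,
      γ • OnePoint.infty = c → IsZeroAtImInfty (g t ∣[κ] γ))
    (inv : ∀ h ∈ 𝒮ℒ, (∑ t ∈ s, g t ∣[κ] h) = ∑ t ∈ s, g t) :
    IsCF 𝒮ℒ κ (fun z => ∑ t ∈ s, g t z) := by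
  have hfun : (fun z => ∑ t ∈ s, g t z) = ∑ t ∈ s, g t := by
    ext z; simp [Finset.sum_apply]
  rw [hfun]
  refine ⟨{ toFun := ∑ t ∈ s, g t
            slash_action_eq' := fun h hh => by
              rw [SlashAction.sum_slash]; exact inv h hh
            holo' := by
              change MDiff (∑ t ∈ s, g t)
              exact MDifferentiable.sum hol
            zero_at_cusps' := fun {c} hc γ hγ => by
              change IsZeroAtImInfty ((∑ t ∈ s, g t) ∣[κ] γ)
              rw [SlashAction.sum_slash, IsZeroAtImInfty, ZeroAtFilter]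
              have h0 : (0 : ℂ) = ∑ _t ∈ s, (0 : ℂ) := by simp
              rw [h0]
              have : (∑ t ∈ s, g t ∣[κ] γ) = fun z => ∑ t ∈ s, (g t ∣[κ] γ) z := by
                ext z; simp [Finset.sum_apply]
              rw [this]
              exact tendsto_finsetSum _ fun t ht => zero t ht hc γ hγ }, rfl⟩

end sums

section esymm

variable {𝒢 : Subgroup (GL (Fin 2) ℝ)} [𝒢.IsFiniteRelIndex 𝒮ℒ]

local notation "𝒬" => 𝒮ℒ ⧸ (𝒢.subgroupOf 𝒮ℒ)

omit [𝒢.IsFiniteRelIndex 𝒮ℒ] in
/-- Slash of a product of `m` translates by an arbitrary matrix. -/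
theorem esymm_prod_slash {k : ℤ} {F : Type*} [FunLike F ℍ ℂ] [SlashInvariantFormClass F 𝒢 k]
    (f : F) {m : ℕ} {S : Finset 𝒬} (hS : S.card = m) (γ : GL (Fin 2) ℝ) :
    (fun z => ∏ q ∈ S, quotientFunc f q z) ∣[(m : ℤ) * k] γ =
      |γ.det.val| ^ ((m : ℤ) - 1) • ∏ q ∈ S, (quotientFunc f q ∣[k] γ) := by
  have h1 : (fun z => ∏ q ∈ S, quotientFunc f q z) = ∏ q ∈ S, quotientFunc f q := by
    ext z; simp [Finset.prod_apply]
  rw [h1, mul_comm, ← hS]
  exact ModularForm.prod_slash

/-- Slash of a product of translates by an element of `SL(2,ℤ)`: the translates are permuted. -/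
theorem esymm_prod_slash_of_mem {k : ℤ} {F : Type*} [FunLike F ℍ ℂ]
    [SlashInvariantFormClass F 𝒢 k]
    (f : F) {m : ℕ} {S : Finset 𝒬} (hS : S.card = m) {h : GL (Fin 2) ℝ} (hh : h ∈ 𝒮ℒ) :
    (fun z => ∏ q ∈ S, quotientFunc f q z) ∣[(m : ℤ) * k] h =
      fun z => ∏ q ∈ S.map (MulAction.toPerm (⟨h, hh⟩ : 𝒮ℒ)⁻¹ : 𝒬 ≃ 𝒬).toEmbedding,
        quotientFunc f q z := by
  rw [esymm_prod_slash f hS h, Subgroup.HasDetPlusMinusOne.abs_det hh, one_zpow, one_smul]
  ext z
  simp [Finset.prod_apply, quotientFunc_smul f hh]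

/-- Reindexing a sum over `m`-subsets of a fintype along a permutation. -/
theorem esymm_sum_powersetCard_map {α : Type*} [Fintype α] {M : Type*} [AddCommMonoid M]
    (m : ℕ) (σ : α ≃ α) (G : Finset α → M) :
    ∑ S ∈ Finset.powersetCard m (Finset.univ : Finset α), G (S.map σ.toEmbedding) =
      ∑ S ∈ Finset.powersetCard m (Finset.univ : Finset α), G S := by
  have h1 : (Finset.univ : Finset α) = (Finset.univ : Finset α).map σ.toEmbedding := by
    simp
  conv_rhs => rw [h1, Finset.powersetCard_map, Finset.sum_map]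
  rfl

/-- Elementary symmetric functions of the translates of a modular form are level-one modular
forms (general finite-index subgroup, arbitrary `Fintype` instance on the coset space). -/
theorem esymm_isMF_esymm_aux [Fintype 𝒬] {k : ℤ} (f : ModularForm 𝒢 k) (m : ℕ) :
    IsMF 𝒮ℒ (m * k) (fun z => ∑ S ∈ Finset.powersetCard m (Finset.univ : Finset 𝒬),
      ∏ q ∈ S, quotientFunc f q z) := by
  refine esymm_isMF_sum (Finset.powersetCard m (Finset.univ : Finset 𝒬))
    (fun S z => ∏ q ∈ S, quotientFunc f q z) (m * k) ?_ ?_ ?_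
  · intro S _
    have h1 : (fun z => ∏ q ∈ S, quotientFunc f q z) = ∏ q ∈ S, quotientFunc f q := by
      ext z; simp [Finset.prod_apply]
    rw [h1]
    exact MDifferentiable.prod fun q _ => esymm_mdiff_quotientFunc f q
  · intro S hS c hc γ hγ
    rw [esymm_prod_slash f (Finset.mem_powersetCard.mp hS).2 γ, IsBoundedAtImInfty]
    refine BoundedAtFilter.smul _ (BoundedAtFilter.prod (s := S) ?_)
    intro q _
    exact esymm_isBoundedAt_quotientFunc f q hc γ hγ
  · intro h hh
    rw [Finset.sum_congr rfl fun S hS =>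
      esymm_prod_slash_of_mem f (Finset.mem_powersetCard.mp hS).2 hh]
    exact esymm_sum_powersetCard_map m _ (fun S z => ∏ q ∈ S, quotientFunc f q z)

/-- Elementary symmetric functions (of positive degree) of the translates of a cusp form are
level-one cusp forms. -/
theorem esymm_isCF_esymm_aux [Fintype 𝒬] {k : ℤ} (f : CuspForm 𝒢 k) (m : ℕ) (hm : 1 ≤ m) :
    IsCF 𝒮ℒ (m * k) (fun z => ∑ S ∈ Finset.powersetCard m (Finset.univ : Finset 𝒬),
      ∏ q ∈ S, quotientFunc f q z) := by
  classical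
  refine esymm_isCF_sum (Finset.powersetCard m (Finset.univ : Finset 𝒬))
    (fun S z => ∏ q ∈ S, quotientFunc f q z) (m * k) ?_ ?_ ?_
  · intro S _
    have h1 : (fun z => ∏ q ∈ S, quotientFunc f q z) = ∏ q ∈ S, quotientFunc f q := by
      ext z; simp [Finset.prod_apply]
    rw [h1]
    exact MDifferentiable.prod fun q _ =>
      esymm_mdiff_quotientFunc (f : ModularForm 𝒢 k) q
  · intro S hS c hc γ hγ
    have hcard := (Finset.mem_powersetCard.mp hS).2
    rw [esymm_prod_slash f hcard γ, IsZeroAtImInfty]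
    refine ZeroAtFilter.smul _ ?_
    have hne : S.Nonempty := by
      rw [← Finset.card_pos]; omega
    obtain ⟨q₀, hq₀⟩ := hne
    rw [← Finset.mul_prod_erase S _ hq₀]
    refine ZeroAtFilter.mul_boundedAtFilter ?_ (BoundedAtFilter.prod (s := S.erase q₀) ?_)
    · exact esymm_isZeroAt_quotientFunc f q₀ hc γ hγ
    · intro q _
      exact esymm_isBoundedAt_quotientFunc (f : ModularForm 𝒢 k) q hc γ hγ
  · intro h hh
    rw [Finset.sum_congr rfl fun S hS =>
      esymm_prod_slash_of_mem f (Finset.mem_powersetCard.mp hS).2 hh]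
    exact esymm_sum_powersetCard_map m _ (fun S z => ∏ q ∈ S, quotientFunc f q z)

/-- Slash of an elementary symmetric function of a subfamily of translates by an element of
`SL(2,ℤ)`. -/
theorem esymm_sub_slash_of_mem {w : ℤ} {F : Type*} [FunLike F ℍ ℂ]
    [SlashInvariantFormClass F 𝒢 w] (Θ : F) (j : ℕ) (A : Finset 𝒬)
    {h : GL (Fin 2) ℝ} (hh : h ∈ 𝒮ℒ) :
    (fun z => ∑ S ∈ Finset.powersetCard j A, ∏ q ∈ S, quotientFunc Θ q z) ∣[(j : ℤ) * w] h =
      fun z => ∑ S ∈ Finset.powersetCard j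
        (A.map (MulAction.toPerm (⟨h, hh⟩ : 𝒮ℒ)⁻¹ : 𝒬 ≃ 𝒬).toEmbedding),
          ∏ q ∈ S, quotientFunc Θ q z := by
  have h1 : (fun z => ∑ S ∈ Finset.powersetCard j A, ∏ q ∈ S, quotientFunc Θ q z) =
      ∑ S ∈ Finset.powersetCard j A, fun z => ∏ q ∈ S, quotientFunc Θ q z := by
    ext z; simp [Finset.sum_apply]
  rw [h1, SlashAction.sum_slash, Finset.sum_congr rfl fun S hS =>
      esymm_prod_slash_of_mem Θ (Finset.mem_powersetCard.mp hS).2 hh,
    Finset.powersetCard_map]
  ext z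
  simp [Finset.sum_apply, Finset.sum_map]

/-- An elementary symmetric function of a subfamily of translates is holomorphic. -/
theorem esymm_sub_mdiff {w : ℤ} (Θ : ModularForm 𝒢 w) (j : ℕ) (A : Finset 𝒬) :
    MDiff (fun z => ∑ S ∈ Finset.powersetCard j A, ∏ q ∈ S, quotientFunc Θ q z) := by
  have h1 : (fun z => ∑ S ∈ Finset.powersetCard j A, ∏ q ∈ S, quotientFunc Θ q z) =
      ∑ S ∈ Finset.powersetCard j A, ∏ q ∈ S, quotientFunc Θ q := by
    ext z; simp [Finset.sum_apply, Finset.prod_apply]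
  rw [h1]
  exact MDifferentiable.sum fun S _ =>
    MDifferentiable.prod fun q _ => esymm_mdiff_quotientFunc Θ q

/-- An elementary symmetric function of a subfamily of translates is bounded at the cusps. -/
theorem esymm_sub_isBoundedAt {w : ℤ} (Θ : ModularForm 𝒢 w) (j : ℕ) (A : Finset 𝒬)
    {c : OnePoint ℝ} (hc : IsCusp c 𝒮ℒ) (γ : GL (Fin 2) ℝ) (hγ : γ • OnePoint.infty = c) :
    IsBoundedAtImInfty
      ((fun z => ∑ S ∈ Finset.powersetCard j A, ∏ q ∈ S, quotientFunc Θ q z) ∣[(j : ℤ) * w] γ) := by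
  have h1 : (fun z => ∑ S ∈ Finset.powersetCard j A, ∏ q ∈ S, quotientFunc Θ q z) =
      ∑ S ∈ Finset.powersetCard j A, fun z => ∏ q ∈ S, quotientFunc Θ q z := by
    ext z; simp [Finset.sum_apply]
  rw [h1, SlashAction.sum_slash, IsBoundedAtImInfty, BoundedAtFilter]
  refine Asymptotics.IsBigO.sum fun S hS => ?_
  rw [esymm_prod_slash Θ (Finset.mem_powersetCard.mp hS).2 γ]
  refine BoundedAtFilter.smul _ (BoundedAtFilter.prod (s := S) ?_)
  intro q _
  exact esymm_isBoundedAt_quotientFunc Θ q hc γ hγ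

/-- The "Lagrange coefficients" `∑_q f_q · e_j(Θ_{q'} : q' ≠ q)` are level-one modular forms
(general finite-index subgroup, arbitrary `Fintype` and `DecidableEq` instances). -/
theorem esymm_isMF_lagrange_aux [Fintype 𝒬] [DecidableEq 𝒬] {k w : ℤ} (f : ModularForm 𝒢 k)
    (Θ : ModularForm 𝒢 w) (j : ℕ) :
    IsMF 𝒮ℒ (k + j * w) (fun z => ∑ q ∈ (Finset.univ : Finset 𝒬), quotientFunc f q z *
      ∑ S ∈ Finset.powersetCard j ((Finset.univ : Finset 𝒬).erase q),
        ∏ q' ∈ S, quotientFunc Θ q' z) := by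
  set E : 𝒬 → ℍ → ℂ := fun q z =>
    ∑ S ∈ Finset.powersetCard j ((Finset.univ : Finset 𝒬).erase q),
      ∏ q' ∈ S, quotientFunc Θ q' z with hE
  have hterm : ∀ q : 𝒬, (fun z => quotientFunc f q z * E q z) = quotientFunc f q * E q :=
    fun q => rfl
  refine esymm_isMF_sum (Finset.univ : Finset 𝒬)
    (fun q z => quotientFunc f q z * E q z) (k + j * w) ?_ ?_ ?_
  · intro q _
    rw [hterm]
    exact (esymm_mdiff_quotientFunc f q).mul (esymm_sub_mdiff Θ j _)
  · intro q _ c hc γ hγ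
    rw [hterm, ModularForm.mul_slash, IsBoundedAtImInfty]
    refine BoundedAtFilter.smul _ (BoundedAtFilter.mul ?_ ?_)
    · exact esymm_isBoundedAt_quotientFunc f q hc γ hγ
    · exact esymm_sub_isBoundedAt Θ j _ hc γ hγ
  · intro h hh
    have key : ∀ q : 𝒬, (fun z => quotientFunc f q z * E q z) ∣[k + j * w] h =
        (fun q z => quotientFunc f q z * E q z)
          ((MulAction.toPerm (⟨h, hh⟩ : 𝒮ℒ)⁻¹ : 𝒬 ≃ 𝒬) q) := by
      intro q
      rw [hterm, ModularForm.mul_slash, Subgroup.HasDetPlusMinusOne.abs_det hh, one_smul,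
        quotientFunc_smul f hh, hE]
      simp only
      rw [esymm_sub_slash_of_mem Θ j _ hh, Finset.map_erase]
      simp only [Finset.map_univ_equiv]
      rfl
    rw [Finset.sum_congr rfl fun q _ => key q]
    exact Equiv.sum_comp (MulAction.toPerm (⟨h, hh⟩ : 𝒮ℒ)⁻¹ : 𝒬 ≃ 𝒬)
      (fun q z => quotientFunc f q z * E q z)

end esymm

section interface

open scoped Classical in
/-- P9, first statement: elementary symmetric functions of the translates of a modular form of
level `Γ₀(N)` are modular forms of level one. -/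
theorem isMF_esymm {N : ℕ} [NeZero N] {k : ℤ} (f : ModularForm (G0 N) k) (m : ℕ) :
    IsMF 𝒮ℒ (m * k) (fun z => ∑ S ∈ Finset.powersetCard m (cosetFinset N),
      ∏ q ∈ S, quotientFunc f q z) :=
  @esymm_isMF_esymm_aux (G0 N) _ (Fintype.ofFinite (Coset N)) k f m

open scoped Classical in
/-- P9, second statement: elementary symmetric functions of positive degree of the translates of
a cusp form of level `Γ₀(N)` are cusp forms of level one. -/
theorem isCF_esymm {N : ℕ} [NeZero N] {k : ℤ} (f : CuspForm (G0 N) k) (m : ℕ) (hm : 1 ≤ m) :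
    IsCF 𝒮ℒ (m * k) (fun z => ∑ S ∈ Finset.powersetCard m (cosetFinset N),
      ∏ q ∈ S, quotientFunc f q z) :=
  @esymm_isCF_esymm_aux (G0 N) _ (Fintype.ofFinite (Coset N)) k f m hm

open scoped Classical in
/-- P9, third statement: the Lagrange coefficients are modular forms of level one. -/
theorem isMF_lagrange {N : ℕ} [NeZero N] {k w : ℤ} (f : ModularForm (G0 N) k)
    (Θ : ModularForm (G0 N) w) (j : ℕ) :
    IsMF 𝒮ℒ (k + j * w) (fun z => ∑ q ∈ cosetFinset N, quotientFunc f q z *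
      ∑ S ∈ Finset.powersetCard j ((cosetFinset N).erase q), ∏ q' ∈ S, quotientFunc Θ q' z) :=
  @esymm_isMF_lagrange_aux (G0 N) _ (Fintype.ofFinite (Coset N)) _ k w f Θ j

end interface

end Fermat.Agent.S23
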