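import Fermat.Agent.S23.Interface
import Fermat.Agent.S23.Esymm
import Fermat.Agent.S23.MFClosure

/-!
# S23, piece P15: the norm relation and the Lagrange relation

* `Fermat.Agent.S23.esymm_stmt : StmtEsymm N` (packaging of `Esymm.lean`);
* `Fermat.Agent.S23.normPoly_of_esymm : StmtEsymm N → StmtNormRel N ∧ StmtLagrangeRel N`.
-/

set_option autoImplicit false

noncomputable section

namespace Fermat.Agent.S23

open UpperHalfPlane ModularForm SlashInvariantForm
open scoped MatrixGroups ModularForm Manifold

/-- Vieta's formula for a finite product `∏ (X - x i)`, in an arbitrary commutative ring. -/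
theorem normPoly_vieta {R : Type*} [CommRing R] {ι : Type*} (s : Finset ι) (x : ι → R) (X : R) :
    ∏ i ∈ s, (X - x i) = ∑ j ∈ Finset.range (s.card + 1),
      (-1) ^ j * (∑ t ∈ Finset.powersetCard j s, ∏ i ∈ t, x i) * X ^ (s.card - j) := by
  have h := congrArg (Polynomial.eval X) (Multiset.prod_X_sub_X_eq_sum_esymm (s.val.map x))
  simp only [Multiset.map_map, Function.comp_def, Multiset.card_map, Finset.card_val,
    Finset.esymm_map_val, Polynomial.eval_finsetSum, Polynomial.eval_mul, Polynomial.eval_pow,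
    Polynomial.eval_neg, Polynomial.eval_one, Polynomial.eval_C, Polynomial.eval_X] at h
  have h2 : Polynomial.eval X
      (Multiset.map (fun i => Polynomial.X - Polynomial.C (x i)) s.val).prod =
      ∏ i ∈ s, (X - x i) := by
    rw [Polynomial.eval_multiset_prod, Multiset.map_map]
    simp only [Function.comp_def, Polynomial.eval_sub, Polynomial.eval_X, Polynomial.eval_C]
    rfl
  rw [← h2, h]
  exact Finset.sum_congr rfl fun j _ => by ring

/-- P9 packaged as the statement `StmtEsymm N` of the interface. -/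
theorem esymm_stmt (N : ℕ) [NeZero N] : StmtEsymm N :=
  ⟨fun _ f m => isMF_esymm f m, fun _ f m hm => isCF_esymm f m hm,
    fun _ _ f Θ j => isMF_lagrange f Θ j⟩

/-- The translate attached to the identity coset is the form itself. -/
theorem normPoly_quotientFunc_coset1 {N : ℕ} {k : ℤ} {F : Type*} [FunLike F ℍ ℂ]
    [SlashInvariantFormClass F (G0 N) k] (f : F) (z : ℍ) :
    quotientFunc f (coset1 N) z = f z := by
  have h : quotientFunc f (coset1 N) = (f : ℍ → ℂ) ∣[k] ((1 : 𝒮ℒ) : GL (Fin 2) ℝ)⁻¹ :=
    quotientFunc_mk f (1 : 𝒮ℒ)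
  rw [h]
  simp

/-- `cosetCard N` is positive. -/
theorem normPoly_cosetCard_pos (N : ℕ) [NeZero N] : 0 < cosetCard N :=
  Finset.card_pos.mpr ⟨coset1 N, mem_cosetFinset _⟩

/-- Sum over `Icc 1 n` as a shifted sum over `range n`. -/
theorem normPoly_sum_Icc {M : Type*} [AddCommMonoid M] (n : ℕ) (G : ℕ → M) :
    ∑ m ∈ Finset.Icc 1 n, G m = ∑ j ∈ Finset.range n, G (j + 1) := by
  rw [← Finset.Ico_add_one_right_eq_Icc, Finset.sum_Ico_eq_sum_range]
  simp [add_comm]

/-- (P15a) the norm relation. -/
theorem normPoly_normRel (N : ℕ) [NeZero N] (h : StmtEsymm N) : StmtNormRel N := by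
  intro k f
  refine ⟨fun m z => (-1 : ℂ) ^ m * ∑ S ∈ Finset.powersetCard m (cosetFinset N),
      ∏ q ∈ S, quotientFunc f q z, fun m hm => ?_, fun z => ?_⟩
  · exact (h.2.1 k f m hm).const_smul ((-1 : ℂ) ^ m)
  · have hv := normPoly_vieta (cosetFinset N) (fun q => quotientFunc f q z) (f z)
    have h0 : ∏ q ∈ cosetFinset N, (f z - quotientFunc f q z) = 0 :=
      Finset.prod_eq_zero (mem_cosetFinset (coset1 N))
        (by rw [normPoly_quotientFunc_coset1]; exact sub_self _)
    rw [h0, Finset.sum_range_succ'] at hv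
    rw [normPoly_sum_Icc, cosetCard]
    simp only [pow_zero, one_mul, Finset.powersetCard_zero, Finset.sum_singleton,
      Finset.prod_empty, Nat.sub_zero] at hv
    rw [hv, add_comm]

open scoped Classical in
/-- (P15b) the Lagrange relation. -/
theorem normPoly_lagrangeRel (N : ℕ) [NeZero N] (h : StmtEsymm N) : StmtLagrangeRel N := by
  intro k w f Θ
  refine ⟨fun j z => (-1 : ℂ) ^ j * ∑ q ∈ cosetFinset N, quotientFunc f q z *
      ∑ S ∈ Finset.powersetCard j ((cosetFinset N).erase q), ∏ q' ∈ S, quotientFunc Θ q' z,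
    fun j => ?_, fun z => ?_⟩
  · exact (h.2.2 k w f Θ j).const_smul ((-1 : ℂ) ^ j)
  · have hcard : ∀ q : Coset N, ((cosetFinset N).erase q).card + 1 = cosetCard N := fun q => by
      rw [Finset.card_erase_of_mem (mem_cosetFinset q), cosetCard]
      exact Nat.sub_add_cancel (normPoly_cosetCard_pos N)
    have hcard' : ∀ q : Coset N, ((cosetFinset N).erase q).card = cosetCard N - 1 := fun q => by
      have := hcard q; omega
    -- each `∏_{q' ≠ q} (Θ - Θ_{q'})` expanded by Vieta
    have hv : ∀ q : Coset N, ∏ q' ∈ (cosetFinset N).erase q, (Θ z - quotientFunc Θ q' z) =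
        ∑ j ∈ Finset.range (cosetCard N), (-1 : ℂ) ^ j *
          (∑ S ∈ Finset.powersetCard j ((cosetFinset N).erase q), ∏ q' ∈ S, quotientFunc Θ q' z) *
            Θ z ^ (cosetCard N - 1 - j) := fun q => by
      rw [normPoly_vieta ((cosetFinset N).erase q) (fun q' => quotientFunc Θ q' z) (Θ z),
        hcard q, hcard' q]
    -- the sum over `q` of `f_q ∏_{q' ≠ q} (Θ - Θ_{q'})` reduces to the term `q = ⟦1⟧`
    have hsum : ∑ q ∈ cosetFinset N, quotientFunc f q z *
        ∏ q' ∈ (cosetFinset N).erase q, (Θ z - quotientFunc Θ q' z) = f z * Dfun Θ z := by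
      rw [Finset.sum_eq_single (coset1 N)]
      · rw [normPoly_quotientFunc_coset1]; rfl
      · intro q _ hq
        have hmem : coset1 N ∈ (cosetFinset N).erase q :=
          Finset.mem_erase.mpr ⟨fun e => hq e.symm, mem_cosetFinset _⟩
        rw [Finset.prod_eq_zero hmem (by rw [normPoly_quotientFunc_coset1]; exact sub_self _),
          mul_zero]
      · intro hne; exact absurd (mem_cosetFinset _) hne
    rw [← hsum]
    simp only [hv, Finset.mul_sum, Finset.sum_mul]
    rw [Finset.sum_comm]
    refine Finset.sum_congr rfl fun j _ => Finset.sum_congr rfl fun q _ => ?_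
    refine Finset.sum_congr rfl fun S _ => ?_
    ring

/-- (P15) the norm relation and the Lagrange relation, from the symmetric-function statement. -/
theorem normPoly_of_esymm (N : ℕ) [NeZero N] : StmtEsymm N → StmtNormRel N ∧ StmtLagrangeRel N :=
  fun h => ⟨normPoly_normRel N h, normPoly_lagrangeRel N h⟩

end Fermat.Agent.S23
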