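import Fermat.Agent.S23.Descent1
import Fermat.Agent.S23.Descent2

/-!
# S23 pieces P1 + P2 combined

`Fermat.Agent.S23.descent_le_span_rational` : a finite-dimensional subspace of `ℂ⟦X⟧` which is stable
under all coefficientwise ring automorphisms of `ℂ` is spanned by its elements with rational
coefficients.
-/

set_option autoImplicit false

noncomputable section

namespace Fermat.Agent.S23

/-- P1 in the contrapositive form used by P2. -/
theorem descent_exists_rat_of_fixed (x : ℂ) (h : ∀ σ : ℂ ≃+* ℂ, σ x = x) : ∃ r : ℚ, x = (r : ℂ) := by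
  by_contra hx
  have hx' : x ∉ Set.range (algebraMap ℚ ℂ) := by
    rintro ⟨r, hr⟩
    exact hx ⟨r, by rw [← hr]; rfl⟩
  obtain ⟨σ, hσ⟩ := exists_ringEquiv_apply_ne hx'
  exact hσ (h σ)

theorem descent_le_span_rational
    (V : Submodule ℂ (PowerSeries ℂ)) [FiniteDimensional ℂ V]
    (hV : ∀ (σ : ℂ ≃+* ℂ), ∀ F ∈ V, PowerSeries.map (σ : ℂ →+* ℂ) F ∈ V) :
    V ≤ Submodule.span ℂ {F | F ∈ V ∧ ∀ n, ∃ r : ℚ, PowerSeries.coeff n F = (r : ℂ)} :=
  le_span_rational_of_stable descent_exists_rat_of_fixed V hV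

end Fermat.Agent.S23
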