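import Fermat.Agent.S23.Interface
import Fermat.Agent.S23.Descent
import Fermat.Agent.S23.FinDim

/-!
# S23, piece P17: σ-stability of the q-expansions ⇒ cusp forms with rational q-expansion span.
-/

set_option autoImplicit false

noncomputable section

namespace Fermat.Agent.S23

open UpperHalfPlane ModularForm
open scoped MatrixGroups ModularForm Manifold

theorem ratSpan_of_sigma (N : ℕ) [NeZero N] (k : ℤ) : StmtSigma N k → StmtRatSpan N k := by
  intro hσ
  haveI : FiniteDimensional ℂ (CuspForm (G0 N) k) := cuspForm_finiteDimensional N k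
  -- the image of the q-expansion map
  set L := qExpLin N k with hL
  have hLinj : Function.Injective L := qExpLin_injective N k
  set W : Submodule ℂ (PowerSeries ℂ) := LinearMap.range L with hW
  haveI : FiniteDimensional ℂ W := by
    rw [hW]
    infer_instance
  have hstab : ∀ (σ : ℂ ≃+* ℂ), ∀ F ∈ W, PowerSeries.map (σ : ℂ →+* ℂ) F ∈ W := by
    rintro σ F ⟨f, rfl⟩
    obtain ⟨g, hg⟩ := hσ (σ : ℂ →+* ℂ) f
    exact ⟨g, hg⟩
  have hdesc := descent_le_span_rational W hstab
  -- the rational elements of `W` are images of rational cusp forms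
  have hsub : {F | F ∈ W ∧ ∀ n, ∃ r : ℚ, PowerSeries.coeff n F = (r : ℂ)} ⊆
      L '' {f : CuspForm (G0 N) k | IsRatPS (qExpansion 1 f)} := by
    rintro F ⟨⟨f, rfl⟩, hF⟩
    exact ⟨f, hF, rfl⟩
  unfold StmtRatSpan
  rw [eq_top_iff]
  intro f _
  have hf : L f ∈ W := ⟨f, rfl⟩
  have h1 : L f ∈ Submodule.span ℂ (L '' {f : CuspForm (G0 N) k | IsRatPS (qExpansion 1 f)}) :=
    Submodule.span_mono hsub (hdesc hf)
  rw [← Submodule.map_span] at h1
  obtain ⟨g, hg, hgf⟩ := h1
  rw [← hLinj hgf]
  exact hg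

end Fermat.Agent.S23

end
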