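import Fermat.Statements.S23
import Fermat.Prelude.Thm_ModularForm_sturm_bound_Gamma0
import Fermat.Prelude.Thm_CongruenceSubgroup_one_mem_strictPeriods_Gamma0
import Fermat.Prelude.Thm_UpperHalfPlane_qExpansion_coeff_nat_mul

/-!
# S23 — basic definitions shared by all modules of the S23 development

* `G0 N` : `Γ₀(N)` as a subgroup of `GL(2, ℝ)` (this is what `CuspForm (CongruenceSubgroup.Gamma0 N) k` unfolds to).
* `IsMF Γ κ g`, `IsCF Γ κ g` : the function `g : ℍ → ℂ` is (the underlying function of) a modular / cusp form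
  of weight `κ` and level `Γ`. Using predicates on functions avoids all dependent-type weight casts.
* `Coset N` : the finite coset space `SL(2,ℤ) / Γ₀(N)` used by Mathlib's `SlashInvariantForm.quotientFunc`,
  `cosetFinset N` : its universal finset (with a fixed `Fintype` instance).
* `scaleN N z = N z`, `deltaNFun N z = Δ(N z)`, `thetaFun N z = Δ(z)^N / Δ(N z)`.
-/

set_option autoImplicit false

noncomputable section

namespace Fermat.Agent.S23

open UpperHalfPlane ModularForm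
open scoped MatrixGroups ModularForm Manifold

/-- `Γ₀(N)` as a subgroup of `GL(2, ℝ)`. -/
abbrev G0 (N : ℕ) : Subgroup (GL (Fin 2) ℝ) :=
  Subgroup.map (Matrix.SpecialLinearGroup.mapGL ℝ) (CongruenceSubgroup.Gamma0 N)

/-- `g` is the underlying function of a modular form of weight `κ` and level `Γ`. -/
def IsMF (Γ : Subgroup (GL (Fin 2) ℝ)) (κ : ℤ) (g : ℍ → ℂ) : Prop :=
  ∃ F : ModularForm Γ κ, (⇑F : ℍ → ℂ) = g

/-- `g` is the underlying function of a cusp form of weight `κ` and level `Γ`. -/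
def IsCF (Γ : Subgroup (GL (Fin 2) ℝ)) (κ : ℤ) (g : ℍ → ℂ) : Prop :=
  ∃ F : CuspForm Γ κ, (⇑F : ℍ → ℂ) = g

/-- The coset space `SL(2,ℤ) / Γ₀(N)` (as used by `SlashInvariantForm.quotientFunc`). -/
abbrev Coset (N : ℕ) : Type := 𝒮ℒ ⧸ (G0 N).subgroupOf 𝒮ℒ

/-- The universal finset of `Coset N` (for a fixed choice of `Fintype` instance). -/
def cosetFinset (N : ℕ) [NeZero N] : Finset (Coset N) :=
  @Finset.univ (Coset N) (Fintype.ofFinite (Coset N))

@[simp] theorem mem_cosetFinset {N : ℕ} [NeZero N] (q : Coset N) : q ∈ cosetFinset N :=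
  @Finset.mem_univ (Coset N) (Fintype.ofFinite (Coset N)) q

/-- `z ↦ N z` on the upper half plane. -/
def scaleN (N : ℕ) [NeZero N] (z : ℍ) : ℍ :=
  ⟨(N : ℂ) * (z : ℂ), by
    have hN : (0 : ℝ) < (N : ℝ) := Nat.cast_pos.mpr (Nat.pos_of_ne_zero (NeZero.ne N))
    have : ((N : ℂ) * (z : ℂ)).im = (N : ℝ) * z.im := by simp
    rw [this]
    exact mul_pos hN z.im_pos⟩

@[simp] theorem coe_scaleN (N : ℕ) [NeZero N] (z : ℍ) : ((scaleN N z : ℍ) : ℂ) = (N : ℂ) * (z : ℂ) := rfl

/-- `z ↦ Δ(N z)`. -/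
def deltaNFun (N : ℕ) [NeZero N] : ℍ → ℂ := fun z => discriminant (scaleN N z)

/-- `Θ(z) = Δ(z)^N / Δ(N z)`. -/
def thetaFun (N : ℕ) [NeZero N] : ℍ → ℂ := fun z => discriminant z ^ N / discriminant (scaleN N z)

/-- the weight of `thetaFun N`. -/
def thetaWeight (N : ℕ) : ℤ := 12 * ((N : ℤ) - 1)

/-- The power series has integer coefficients. -/
def IsIntPS (F : PowerSeries ℂ) : Prop := ∀ n, ∃ z : ℤ, PowerSeries.coeff n F = (z : ℂ)

/-- The power series has rational coefficients. -/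
def IsRatPS (F : PowerSeries ℂ) : Prop := ∀ n, ∃ r : ℚ, PowerSeries.coeff n F = (r : ℂ)

end Fermat.Agent.S23
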