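import Mathlib
import Fermat.Agent.S23.Basic

/-!
# S23 piece (B): "algebraic ⇒ analytic" (removable singularities)

If `G`, `D` are holomorphic on `ℍ`, `D ≠ 0`, and `G / D` satisfies a monic polynomial equation
with holomorphic coefficients, then `G / D` extends to a holomorphic function on `ℍ`.
-/

set_option autoImplicit false

open Complex Filter Topology Set

namespace Fermat.Agent.S23

/-- Cauchy-type bound for the roots of a monic polynomial. -/
lemma rem_norm_le_of_monic_eq {n : ℕ} (x : ℂ) (c : ℕ → ℂ)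
    (h : x ^ n + ∑ m ∈ Finset.range n, c (m + 1) * x ^ (n - (m + 1)) = 0) :
    ‖x‖ ≤ max 1 (∑ m ∈ Finset.range n, ‖c (m + 1)‖) := by
  rcases le_or_gt ‖x‖ 1 with h1 | h1
  · exact le_max_of_le_left h1
  · apply le_max_of_le_right
    rcases Nat.eq_zero_or_pos n with rfl | hn
    · simp at h
    have hx0 : 0 < ‖x‖ := lt_trans one_pos h1
    have hxn : x ^ n = - ∑ m ∈ Finset.range n, c (m + 1) * x ^ (n - (m + 1)) :=
      eq_neg_of_add_eq_zero_left h
    have h2 : ‖x‖ ^ n ≤ (∑ m ∈ Finset.range n, ‖c (m + 1)‖) * ‖x‖ ^ (n - 1) := by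
      calc ‖x‖ ^ n = ‖x ^ n‖ := (norm_pow x n).symm
        _ = ‖∑ m ∈ Finset.range n, c (m + 1) * x ^ (n - (m + 1))‖ := by rw [hxn, norm_neg]
        _ ≤ ∑ m ∈ Finset.range n, ‖c (m + 1) * x ^ (n - (m + 1))‖ := norm_sum_le _ _
        _ ≤ ∑ m ∈ Finset.range n, ‖c (m + 1)‖ * ‖x‖ ^ (n - 1) := by
            apply Finset.sum_le_sum
            intro m _
            rw [norm_mul, norm_pow]
            apply mul_le_mul_of_nonneg_left _ (norm_nonneg _)
            exact pow_le_pow_right₀ h1.le (by omega)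
        _ = (∑ m ∈ Finset.range n, ‖c (m + 1)‖) * ‖x‖ ^ (n - 1) := by
            rw [Finset.sum_mul]
    have h3 : ‖x‖ ^ n = ‖x‖ * ‖x‖ ^ (n - 1) := by
      rw [← pow_succ']; congr 1; omega
    rw [h3] at h2
    exact le_of_mul_le_mul_right h2 (pow_pos hx0 _)

/-- If the coefficients are small, the roots are small. -/
lemma rem_norm_pow_le_of_monic_eq {n : ℕ} (x : ℂ) (c : ℕ → ℂ)
    (h : x ^ n + ∑ m ∈ Finset.range n, c (m + 1) * x ^ (n - (m + 1)) = 0)
    (hS : ∑ m ∈ Finset.range n, ‖c (m + 1)‖ ≤ 1) :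
    ‖x‖ ^ n ≤ ∑ m ∈ Finset.range n, ‖c (m + 1)‖ := by
  have h1 : ‖x‖ ≤ 1 := (rem_norm_le_of_monic_eq x c h).trans (max_le le_rfl hS)
  have hxn : x ^ n = - ∑ m ∈ Finset.range n, c (m + 1) * x ^ (n - (m + 1)) :=
    eq_neg_of_add_eq_zero_left h
  calc ‖x‖ ^ n = ‖x ^ n‖ := (norm_pow x n).symm
    _ = ‖∑ m ∈ Finset.range n, c (m + 1) * x ^ (n - (m + 1))‖ := by rw [hxn, norm_neg]
    _ ≤ ∑ m ∈ Finset.range n, ‖c (m + 1) * x ^ (n - (m + 1))‖ := norm_sum_le _ _
    _ ≤ ∑ m ∈ Finset.range n, ‖c (m + 1)‖ := by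
        apply Finset.sum_le_sum
        intro m _
        rw [norm_mul, norm_pow]
        exact mul_le_of_le_one_right (norm_nonneg _) (pow_le_one₀ (norm_nonneg _) h1)


/-- Zeros of a holomorphic function which is not identically zero on a preconnected open set
are isolated. -/
lemma rem_eventually_ne_zero {U : Set ℂ} (hUo : IsOpen U) (hUc : IsPreconnected U)
    {d : ℂ → ℂ} (hd : DifferentiableOn ℂ d U) (hd0 : ∃ z ∈ U, d z ≠ 0)
    {z₀ : ℂ} (hz₀ : z₀ ∈ U) : ∀ᶠ z in 𝓝[≠] z₀, d z ≠ 0 := by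
  have hdA : AnalyticOnNhd ℂ d U := hd.analyticOnNhd hUo
  rcases (hdA z₀ hz₀).eventually_eq_zero_or_eventually_ne_zero with h | h
  · exfalso
    obtain ⟨z, hz, hdz⟩ := hd0
    exact hdz (hdA.eqOn_zero_of_preconnected_of_eventuallyEq_zero hUc hz₀ h hz)
  · exact h

/-- If `h` is continuous at `z₀` and vanishes on a punctured neighbourhood, it vanishes at `z₀`. -/
lemma rem_eq_zero_of_eventually_punctured {h : ℂ → ℂ} {z₀ : ℂ} (hc : ContinuousAt h z₀)
    (h0 : ∀ᶠ z in 𝓝[≠] z₀, h z = 0) : h z₀ = 0 := by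
  have h1 : Tendsto h (𝓝[≠] z₀) (𝓝 (h z₀)) := hc.tendsto.mono_left nhdsWithin_le_nhds
  have h2 : Tendsto h (𝓝[≠] z₀) (𝓝 0) :=
    tendsto_const_nhds.congr' (h0.mono fun z hz => hz.symm)
  exact tendsto_nhds_unique h1 h2

/-- **Lemma A** (removable singularities): if `g`, `d` are holomorphic on a preconnected open
set `U`, `d` is not identically zero on `U`, and `g / d` satisfies a monic equation with continuous
coefficients (written after clearing denominators), then there is a holomorphic `F` on `U` with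
`F * d = g`. -/
theorem rem_exists_holo_quotient {U : Set ℂ} (hUo : IsOpen U) (hUc : IsPreconnected U)
    {n : ℕ} (g d : ℂ → ℂ) (α : ℕ → ℂ → ℂ)
    (hg : DifferentiableOn ℂ g U) (hd : DifferentiableOn ℂ d U)
    (hα : ∀ m, ContinuousOn (α m) U)
    (hd0 : ∃ z ∈ U, d z ≠ 0)
    (heq : ∀ z ∈ U, g z ^ n +
      ∑ m ∈ Finset.range n, α (m + 1) z * g z ^ (n - (m + 1)) * d z ^ (m + 1) = 0) :
    ∃ F : ℂ → ℂ, DifferentiableOn ℂ F U ∧ (∀ z ∈ U, F z * d z = g z) ∧
      (∀ z ∈ U, F z ^ n + ∑ m ∈ Finset.range n, α (m + 1) z * F z ^ (n - (m + 1)) = 0) := by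
  classical
  set q : ℂ → ℂ := fun z => g z / d z with hq
  -- the monic equation for q
  have hqeq : ∀ z ∈ U, d z ≠ 0 →
      q z ^ n + ∑ m ∈ Finset.range n, α (m + 1) z * q z ^ (n - (m + 1)) = 0 := by
    intro z hz hdz
    have h := heq z hz
    have hdn : d z ^ n ≠ 0 := pow_ne_zero _ hdz
    have key : (q z ^ n + ∑ m ∈ Finset.range n, α (m + 1) z * q z ^ (n - (m + 1))) * d z ^ n
        = g z ^ n +
      ∑ m ∈ Finset.range n, α (m + 1) z * g z ^ (n - (m + 1)) * d z ^ (m + 1) := by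
      rw [add_mul, Finset.sum_mul]
      congr 1
      · simp only [hq, div_pow]; field_simp
      · apply Finset.sum_congr rfl
        intro m hm
        have hmn : m + 1 ≤ n := Finset.mem_range.mp hm
        have : d z ^ n = d z ^ (n - (m + 1)) * d z ^ (m + 1) := by
          rw [← pow_add]; congr 1; omega
        rw [this]
        simp only [hq, div_pow]
        field_simp
    rw [h] at key
    exact (mul_eq_zero.mp key).resolve_right hdn
  have hqdiff : ∀ z ∈ U, d z ≠ 0 → DifferentiableAt ℂ q z := by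
    intro z hz hdz
    exact (hg.differentiableAt (hUo.mem_nhds hz)).div (hd.differentiableAt (hUo.mem_nhds hz)) hdz
  set F : ℂ → ℂ := fun z => limUnder (𝓝[≠] z) q with hF
  have hFq : ∀ z ∈ U, d z ≠ 0 → F z = q z := by
    intro z hz hdz
    have : Tendsto q (𝓝[≠] z) (𝓝 (q z)) :=
      (hqdiff z hz hdz).continuousAt.tendsto.mono_left nhdsWithin_le_nhds
    exact this.limUnder_eq
  have hiso : ∀ z₀ ∈ U, ∀ᶠ z in 𝓝[≠] z₀, d z ≠ 0 := fun z₀ hz₀ =>
    rem_eventually_ne_zero hUo hUc hd hd0 hz₀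
  -- differentiability of F at each point
  have hFdiff : ∀ z₀ ∈ U, DifferentiableAt ℂ F z₀ := by
    intro z₀ hz₀
    set S : ℂ → ℝ := fun z => ∑ m ∈ Finset.range n, ‖α (m + 1) z‖ with hS
    have hScont : ContinuousAt S z₀ := by
      apply tendsto_finsetSum
      intro m _
      exact ((hα (m + 1)).continuousAt (hUo.mem_nhds hz₀)).norm
    have h1 : ∀ᶠ z in 𝓝 z₀, z ∈ U := hUo.mem_nhds hz₀
    have h2 : ∀ᶠ z in 𝓝 z₀, z ≠ z₀ → d z ≠ 0 := by
      have := hiso z₀ hz₀
      rw [eventually_nhdsWithin_iff] at this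
      exact this.mono fun z hz hne => hz hne
    have h3 : ∀ᶠ z in 𝓝 z₀, S z < S z₀ + 1 :=
      hScont.eventually (gt_mem_nhds (lt_add_one _))
    have h123 := h1.and (h2.and h3)
    obtain ⟨s, hsub, hso, hz₀s⟩ := eventually_nhds_iff.mp h123
    have hs_nhds : s ∈ 𝓝 z₀ := hso.mem_nhds hz₀s
    have hdq : DifferentiableOn ℂ q (s \ {z₀}) := by
      intro z hz
      have hzs := hsub z hz.1
      exact (hqdiff z hzs.1 (hzs.2.1 hz.2)).differentiableWithinAt
    have hbd : BddAbove (norm ∘ q '' (s \ {z₀})) := by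
      refine ⟨max 1 (S z₀ + 1), ?_⟩
      rintro _ ⟨z, hz, rfl⟩
      have hzs := hsub z hz.1
      have := rem_norm_le_of_monic_eq (q z) (fun m => α m z) (hqeq z hzs.1 (hzs.2.1 hz.2))
      exact this.trans (max_le_max le_rfl hzs.2.2.le)
    have hupd := differentiableOn_update_limUnder_of_bddAbove hs_nhds hdq hbd
    have hEq : F =ᶠ[𝓝 z₀] Function.update q z₀ (limUnder (𝓝[≠] z₀) q) := by
      filter_upwards [hs_nhds] with z hz
      by_cases hzz : z = z₀
      · subst hzz; simp [hF]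
      · rw [Function.update_of_ne hzz]
        have hzs := hsub z hz
        exact hFq z hzs.1 (hzs.2.1 hzz)
    exact (hupd.differentiableAt hs_nhds).congr_of_eventuallyEq hEq
  refine ⟨F, fun z hz => (hFdiff z hz).differentiableWithinAt, ?_, ?_⟩
  swap
  · intro z₀ hz₀
    by_cases hdz : d z₀ = 0
    · have hc : ContinuousAt
          (fun z => F z ^ n + ∑ m ∈ Finset.range n, α (m + 1) z * F z ^ (n - (m + 1))) z₀ := by
        apply ContinuousAt.add
        · exact ((hFdiff z₀ hz₀).continuousAt).pow n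
        · apply tendsto_finsetSum
          intro m _
          exact ((hα (m + 1)).continuousAt (hUo.mem_nhds hz₀)).mul
            (((hFdiff z₀ hz₀).continuousAt).pow _)
      have h0 : ∀ᶠ z in 𝓝[≠] z₀,
          F z ^ n + ∑ m ∈ Finset.range n, α (m + 1) z * F z ^ (n - (m + 1)) = 0 := by
        have hU' : ∀ᶠ z in 𝓝[≠] z₀, z ∈ U :=
          eventually_nhdsWithin_of_eventually_nhds (hUo.mem_nhds hz₀)
        filter_upwards [hiso z₀ hz₀, hU'] with z hz hzU
        rw [hFq z hzU hz]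
        exact hqeq z hzU hz
      exact rem_eq_zero_of_eventually_punctured
        (h := fun z => F z ^ n + ∑ m ∈ Finset.range n, α (m + 1) z * F z ^ (n - (m + 1))) hc h0
    · rw [hFq z₀ hz₀ hdz]
      exact hqeq z₀ hz₀ hdz
  intro z₀ hz₀
  by_cases hdz : d z₀ = 0
  · have hc : ContinuousAt (fun z => F z * d z - g z) z₀ :=
      (((hFdiff z₀ hz₀).mul (hd.differentiableAt (hUo.mem_nhds hz₀))).sub
        (hg.differentiableAt (hUo.mem_nhds hz₀))).continuousAt
    have h0 : ∀ᶠ z in 𝓝[≠] z₀, F z * d z - g z = 0 := by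
      have hU' : ∀ᶠ z in 𝓝[≠] z₀, z ∈ U :=
        eventually_nhdsWithin_of_eventually_nhds (hUo.mem_nhds hz₀)
      filter_upwards [hiso z₀ hz₀, hU'] with z hz hzU
      rw [hFq z hzU hz, hq]
      field_simp
      ring
    have := rem_eq_zero_of_eventually_punctured hc h0
    exact sub_eq_zero.mp this
  · rw [hFq z₀ hz₀ hdz, hq]
    field_simp


open UpperHalfPlane ModularForm
open scoped MatrixGroups Manifold

lemma rem_isPreconnected_upperHalfPlaneSet : IsPreconnected {z : ℂ | 0 < z.im} :=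
  (convex_halfSpace_im_gt 0).isPreconnected

/-- If `D` is holomorphic on `ℍ` and not identically zero, `h` is continuous and `h * D = 0`,
then `h = 0`. -/
lemma rem_eq_zero_of_mul_eq_zero {D h : ℍ → ℂ} (hD : MDiff D) (hD0 : D ≠ 0)
    (hh : Continuous h) (hmul : ∀ z, h z * D z = 0) : h = 0 := by
  funext z₀
  have hd : DifferentiableOn ℂ (D ∘ ofComplex) {z : ℂ | 0 < z.im} :=
    UpperHalfPlane.mdifferentiable_iff.mp hD
  have hd0 : ∃ z ∈ {z : ℂ | 0 < z.im}, (D ∘ ofComplex) z ≠ 0 := by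
    by_contra hcon
    push Not at hcon
    apply hD0
    funext z
    have := hcon (z : ℂ) z.im_pos
    simpa using this
  have hiso := rem_eventually_ne_zero isOpen_upperHalfPlaneSet
    rem_isPreconnected_upperHalfPlaneSet hd hd0 (z₀ := (z₀ : ℂ)) z₀.im_pos
  have hc : ContinuousAt (h ∘ ofComplex) (z₀ : ℂ) := by
    have h1 : ContinuousAt ofComplex (z₀ : ℂ) :=
      (mdifferentiableAt_ofComplex z₀.im_pos).continuousAt
    exact hh.continuousAt.comp h1
  have h0 : ∀ᶠ z in 𝓝[≠] (z₀ : ℂ), (h ∘ ofComplex) z = 0 := by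
    filter_upwards [hiso] with z hz
    have := hmul (ofComplex z)
    exact (mul_eq_zero.mp this).resolve_right hz
  have := rem_eq_zero_of_eventually_punctured hc h0
  simpa using this

/-- **Lemma A on `ℍ`**: holomorphic quotient `f = G / D` on `ℍ`, satisfying the monic equation. -/
theorem rem_exists_mdiff_quotient {n : ℕ} (G D : ℍ → ℂ) (a : ℕ → ℍ → ℂ)
    (hG : MDiff G) (hD : MDiff D) (ha : ∀ m, m < n → MDiff (a (m + 1)))
    (hD0 : D ≠ 0)
    (heq : ∀ z, G z ^ n +
      ∑ m ∈ Finset.range n, a (m + 1) z * G z ^ (n - (m + 1)) * D z ^ (m + 1) = 0) :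
    ∃ f : ℍ → ℂ, MDiff f ∧ (∀ z, f z * D z = G z) ∧
      (∀ z, f z ^ n + ∑ m ∈ Finset.range n, a (m + 1) z * f z ^ (n - (m + 1)) = 0) := by
  classical
  set α : ℕ → ℂ → ℂ := fun m => if m - 1 < n ∧ 1 ≤ m then (a m) ∘ ofComplex else 0 with hα
  have hαa : ∀ m, m < n → α (m + 1) = (a (m + 1)) ∘ ofComplex := by
    intro m hm
    simp [hα, hm]
  have hg : DifferentiableOn ℂ (G ∘ ofComplex) {z : ℂ | 0 < z.im} :=
    UpperHalfPlane.mdifferentiable_iff.mp hG
  have hd : DifferentiableOn ℂ (D ∘ ofComplex) {z : ℂ | 0 < z.im} :=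
    UpperHalfPlane.mdifferentiable_iff.mp hD
  have hαc : ∀ m, ContinuousOn (α m) {z : ℂ | 0 < z.im} := by
    intro m
    by_cases hm : m - 1 < n ∧ 1 ≤ m
    · have h1 : m = (m - 1) + 1 := by omega
      have : α m = (a m) ∘ ofComplex := by simp [hα, hm]
      rw [this]
      have h2 : MDiff (a m) := by rw [h1]; exact ha (m - 1) hm.1
      exact (UpperHalfPlane.mdifferentiable_iff.mp h2).continuousOn
    · have : α m = 0 := by simp [hα, hm]
      rw [this]
      exact continuousOn_const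
  have hd0 : ∃ z ∈ {z : ℂ | 0 < z.im}, (D ∘ ofComplex) z ≠ 0 := by
    by_contra hcon
    push Not at hcon
    apply hD0
    funext z
    have := hcon (z : ℂ) z.im_pos
    simpa using this
  have heq' : ∀ z ∈ {z : ℂ | 0 < z.im}, (G ∘ ofComplex) z ^ n +
      ∑ m ∈ Finset.range n, α (m + 1) z * (G ∘ ofComplex) z ^ (n - (m + 1)) *
        (D ∘ ofComplex) z ^ (m + 1) = 0 := by
    intro z _
    have := heq (ofComplex z)
    rw [← this]
    congr 1
    apply Finset.sum_congr rfl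
    intro m hm
    rw [hαa m (Finset.mem_range.mp hm)]
    rfl
  obtain ⟨F, hFd, hFmul, hFeq⟩ := rem_exists_holo_quotient isOpen_upperHalfPlaneSet
    rem_isPreconnected_upperHalfPlaneSet (G ∘ ofComplex) (D ∘ ofComplex) α hg hd hαc hd0 heq'
  refine ⟨fun z => F (z : ℂ), ?_, ?_, ?_⟩
  · rw [UpperHalfPlane.mdifferentiable_iff]
    apply hFd.congr
    intro z hz
    simp only [Function.comp_apply, ofComplex_apply_of_im_pos hz]
  · intro z
    have := hFmul (z : ℂ) z.im_pos
    simpa using this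
  · intro z
    have := hFeq (z : ℂ) z.im_pos
    rw [← this]
    congr 1
    apply Finset.sum_congr rfl
    intro m hm
    rw [hαa m (Finset.mem_range.mp hm)]
    simp only [Function.comp_apply, ofComplex_apply]


/-- The weight-`k` slash of `f` by `γ ∈ SL(2,ℤ)` satisfies the same monic equation, when the
coefficients `a m` are slash-invariant of weight `m * k` under `γ`. -/
lemma rem_slash_monic_eq {k : ℤ} {n : ℕ} (f : ℍ → ℂ) (a : ℕ → ℍ → ℂ) (γ : SL(2, ℤ))
    (haSL : ∀ m, m < n → a (m + 1) ∣[((m + 1 : ℕ) : ℤ) * k] γ = a (m + 1))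
    (hf : ∀ z, f z ^ n + ∑ m ∈ Finset.range n, a (m + 1) z * f z ^ (n - (m + 1)) = 0) (z : ℍ) :
    (f ∣[k] γ) z ^ n +
      ∑ m ∈ Finset.range n, a (m + 1) z * (f ∣[k] γ) z ^ (n - (m + 1)) = 0 := by
  set w : ℍ := γ • z with hw
  set u : ℂ := denom γ z ^ (-k) with hu
  have hfz : (f ∣[k] γ) z = f w * u := by rw [SL_slash_apply]
  have haz : ∀ m, m < n → a (m + 1) z = a (m + 1) w * u ^ (m + 1) := by
    intro m hm
    have h1 := congrFun (haSL m hm) z
    rw [SL_slash_apply] at h1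
    rw [← h1, hu, ← zpow_natCast, ← zpow_mul]
    congr 2
    push_cast
    ring
  have key : (f ∣[k] γ) z ^ n +
      ∑ m ∈ Finset.range n, a (m + 1) z * (f ∣[k] γ) z ^ (n - (m + 1)) =
      u ^ n * (f w ^ n + ∑ m ∈ Finset.range n, a (m + 1) w * f w ^ (n - (m + 1))) := by
    rw [mul_add, Finset.mul_sum, hfz]
    congr 1
    · ring
    · apply Finset.sum_congr rfl
      intro m hm
      have hmn : m < n := Finset.mem_range.mp hm
      rw [haz m hmn]
      have : u ^ n = u ^ (m + 1) * u ^ (n - (m + 1)) := by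
        rw [← pow_add]; congr 1; omega
      rw [this]
      ring
  rw [key, hf w, mul_zero]

/-- A function satisfying a monic equation whose coefficients tend to `0` at `i∞` tends to `0`
at `i∞`. -/
lemma rem_isZeroAtImInfty_of_monic_eq {n : ℕ} (f : ℍ → ℂ) (a : ℕ → ℍ → ℂ)
    (ha0 : ∀ m, m < n → IsZeroAtImInfty (a (m + 1)))
    (hf : ∀ z, f z ^ n + ∑ m ∈ Finset.range n, a (m + 1) z * f z ^ (n - (m + 1)) = 0) :
    IsZeroAtImInfty f := by
  rcases Nat.eq_zero_or_pos n with rfl | hn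
  · exfalso
    have := hf UpperHalfPlane.I
    simp at this
  set S : ℍ → ℝ := fun z => ∑ m ∈ Finset.range n, ‖a (m + 1) z‖ with hS
  have hS0 : Tendsto S atImInfty (𝓝 0) := by
    have : Tendsto S atImInfty (𝓝 (∑ m ∈ Finset.range n, (0 : ℝ))) := by
      apply tendsto_finsetSum
      intro m hm
      have := ha0 m (Finset.mem_range.mp hm)
      exact tendsto_zero_iff_norm_tendsto_zero.mp this
    simpa using this
  rw [IsZeroAtImInfty, ZeroAtFilter, Metric.tendsto_nhds]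
  intro ε hε
  have hεn : 0 < min 1 (ε ^ n) := lt_min one_pos (pow_pos hε n)
  have hev : ∀ᶠ z in atImInfty, S z < min 1 (ε ^ n) := by
    have := (Metric.tendsto_nhds.mp hS0) (min 1 (ε ^ n)) hεn
    filter_upwards [this] with z hz
    rw [Real.dist_eq, sub_zero] at hz
    exact (le_abs_self _).trans_lt hz
  filter_upwards [hev] with z hz
  rw [dist_zero_right]
  have h1 : S z ≤ 1 := (hz.trans_le (min_le_left _ _)).le
  have h2 : ‖f z‖ ^ n ≤ S z :=
    rem_norm_pow_le_of_monic_eq (f z) (fun m => a m z) (hf z) h1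
  have h3 : ‖f z‖ ^ n < ε ^ n := h2.trans_lt (hz.trans_le (min_le_right _ _))
  exact lt_of_pow_lt_pow_left₀ n hε.le h3

/-- **(B), function form.** -/
theorem rem_exists_cuspForm (Γ : Subgroup SL(2, ℤ)) {k W : ℤ} {n : ℕ}
    (G D : ℍ → ℂ) (a : ℕ → ℍ → ℂ)
    (hG : MDiff G) (hD : MDiff D) (ha : ∀ m, m < n → MDiff (a (m + 1)))
    (hGΓ : ∀ γ ∈ Γ, G ∣[W + k] γ = G) (hDΓ : ∀ γ ∈ Γ, D ∣[W] γ = D)
    (haSL : ∀ m, m < n → ∀ γ : SL(2, ℤ), a (m + 1) ∣[((m + 1 : ℕ) : ℤ) * k] γ = a (m + 1))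
    (ha0 : ∀ m, m < n → IsZeroAtImInfty (a (m + 1)))
    (hD0 : D ≠ 0)
    (heq : ∀ z, G z ^ n +
      ∑ m ∈ Finset.range n, a (m + 1) z * G z ^ (n - (m + 1)) * D z ^ (m + 1) = 0) :
    ∃ f : CuspForm (Γ.map (Matrix.SpecialLinearGroup.mapGL ℝ)) k, ∀ z, f z * D z = G z := by
  obtain ⟨f, hfd, hfmul, hfeq⟩ := rem_exists_mdiff_quotient G D a hG hD ha hD0 heq
  have hslash : ∀ γ ∈ Γ, f ∣[k] γ = f := by
    intro γ hγ
    have hc : Continuous (f ∣[k] γ - f) := by
      have h1 : MDiff (f ∣[k] γ) := hfd.slash k _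
      exact h1.continuous.sub hfd.continuous
    have hmul : ∀ z, (f ∣[k] γ - f) z * D z = 0 := by
      intro z
      have hGz := congrFun (hGΓ γ hγ) z
      have hDz := congrFun (hDΓ γ hγ) z
      rw [SL_slash_apply] at hGz hDz
      have hδ : denom γ z ≠ 0 := denom_ne_zero _ z
      rw [Pi.sub_apply, sub_mul, hfmul z, SL_slash_apply]
      nth_rewrite 1 [← hDz]
      rw [← hGz, ← hfmul (γ • z), neg_add, zpow_add₀ hδ]
      ring
    have := rem_eq_zero_of_mul_eq_zero hD hD0 hc hmul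
    exact sub_eq_zero.mp this
  have hzero : ∀ γ : SL(2, ℤ), IsZeroAtImInfty (f ∣[k] γ) := by
    intro γ
    apply rem_isZeroAtImInfty_of_monic_eq (f ∣[k] γ) a ha0
    intro z
    exact rem_slash_monic_eq f a γ (fun m hm => haSL m hm γ) hfeq z
  refine ⟨{ toFun := f
            slash_action_eq' := ?_
            holo' := hfd
            zero_at_cusps' := ?_ }, fun z => hfmul z⟩
  · intro γ hγ
    obtain ⟨γ₀, hγ₀, rfl⟩ := Subgroup.mem_map.mp hγ
    exact hslash γ₀ hγ₀
  · intro c hc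
    have hc' : IsCusp c 𝒮ℒ := hc.mono (Subgroup.map_le_range _ _)
    rw [OnePoint.isZeroAt_iff_forall_SL2Z hc']
    intro γ _
    exact hzero γ


lemma rem_sum_Icc_eq_sum_range {M : Type*} [AddCommMonoid M] (F : ℕ → M) (n : ℕ) :
    ∑ m ∈ Finset.Icc 1 n, F m = ∑ m ∈ Finset.range n, F (m + 1) := by
  induction n with
  | zero => simp
  | succ n ih =>
    rw [Finset.sum_range_succ, ← ih, ← Finset.insert_Icc_right_eq_Icc_add_one (by omega),
      Finset.sum_insert (by simp), add_comm]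

/-- **P6 = (B), algebraic ⇒ analytic** (interface of NOTES/S23.md). -/
theorem exists_cuspForm_of_monic_relation {N : ℕ} [NeZero N] {k W : ℤ} {n : ℕ} (hn : 1 ≤ n)
    (G D : ℍ → ℂ) (hG : IsMF (G0 N) (W + k) G) (hD : IsMF (G0 N) W D) (hD0 : D ≠ 0)
    (a : ℕ → ℍ → ℂ) (ha : ∀ m, 1 ≤ m → m ≤ n → IsCF 𝒮ℒ (m * k) (a m))
    (h : ∀ z, G z ^ n + ∑ m ∈ Finset.Icc 1 n, a m z * G z ^ (n - m) * D z ^ m = 0) :
    ∃ f : CuspForm (G0 N) k, ∀ z, f z * D z = G z := by
  have _ := hn
  obtain ⟨FG, rfl⟩ := hG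
  obtain ⟨FD, rfl⟩ := hD
  have hcusp : IsCusp OnePoint.infty 𝒮ℒ := by
    rw [isCusp_SL2Z_iff']
    exact ⟨1, by simp⟩
  apply rem_exists_cuspForm (n := n) (W := W) (k := k) (CongruenceSubgroup.Gamma0 N) (⇑FG) (⇑FD) a
    (ModularFormClass.holo FG) (ModularFormClass.holo FD)
  · intro m hm
    obtain ⟨F, hF⟩ := ha (m + 1) (by omega) (by omega)
    rw [← hF]
    exact CuspFormClass.holo F
  · intro γ hγ
    exact SlashInvariantFormClass.slash_action_eq FG _ (Subgroup.mem_map_of_mem _ hγ)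
  · intro γ hγ
    exact SlashInvariantFormClass.slash_action_eq FD _ (Subgroup.mem_map_of_mem _ hγ)
  · intro m hm γ
    obtain ⟨F, hF⟩ := ha (m + 1) (by omega) (by omega)
    rw [← hF]
    exact SlashInvariantFormClass.slash_action_eq F _ ⟨γ, rfl⟩
  · intro m hm
    obtain ⟨F, hF⟩ := ha (m + 1) (by omega) (by omega)
    rw [← hF]
    exact OnePoint.isZeroAt_infty_iff.mp (CuspFormClass.zero_at_cusps F hcusp)
  · exact hD0
  · intro z
    rw [← h z, rem_sum_Icc_eq_sum_range]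

end Fermat.Agent.S23
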