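import Fermat.Agent.S23.Interface
import Fermat.Agent.S23.MFClosure

/-!
# S23 piece P16: σ-stability of the q-expansions of cusp forms for `Γ₀(N)`

`sigma_stable N k : StmtL1 → StmtB N → StmtTheta N → StmtNormRel N → StmtLagrangeRel N → StmtSigma N k`
-/

set_option autoImplicit false

noncomputable section

namespace Fermat.Agent.S23

open UpperHalfPlane ModularForm SlashInvariantForm
open scoped MatrixGroups ModularForm Manifold

lemma sigma_map_injective (σ : ℂ →+* ℂ) : Function.Injective (PowerSeries.map σ) := by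
  intro F G h
  ext n
  have := congrArg (PowerSeries.coeff n) h
  rw [PowerSeries.coeff_map, PowerSeries.coeff_map] at this
  exact σ.injective this

lemma sigma_map_of_isIntPS (σ : ℂ →+* ℂ) {F : PowerSeries ℂ} (hF : IsIntPS F) :
    PowerSeries.map σ F = F := by
  ext n
  obtain ⟨z, hz⟩ := hF n
  rw [PowerSeries.coeff_map, hz, map_intCast]

lemma sigma_levelOne_isMF (hL1 : StmtL1) (σ : ℂ →+* ℂ) {m : ℤ} {a : ℍ → ℂ}
    (ha : IsMF 𝒮ℒ m a) :
    ∃ a' : ℍ → ℂ, IsMF 𝒮ℒ m a' ∧ qExpansion 1 a' = PowerSeries.map σ (qExpansion 1 a) := by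
  obtain ⟨A, rfl⟩ := ha
  obtain ⟨A', hA'⟩ := hL1 σ m A
  exact ⟨A', ⟨A', rfl⟩, hA'⟩

lemma sigma_levelOne_isCF (hL1 : StmtL1) (σ : ℂ →+* ℂ) {m : ℤ} {a : ℍ → ℂ}
    (ha : IsCF 𝒮ℒ m a) :
    ∃ a' : ℍ → ℂ, IsCF 𝒮ℒ m a' ∧ qExpansion 1 a' = PowerSeries.map σ (qExpansion 1 a) := by
  obtain ⟨a', ha', hq⟩ := sigma_levelOne_isMF hL1 σ ha.isMF
  refine ⟨a', ha'.isCF_levelOne_of_coeff_zero ?_, hq⟩
  rw [hq, PowerSeries.coeff_map, (ha.of_levelOne (N := 1)).coeff_zero, map_zero]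


lemma sigma_quotientFunc_isZero {N : ℕ} [NeZero N] {w : ℤ} (Θ : ModularForm (G0 N) w)
    (hΘ : ∀ γ : SL(2, ℤ), γ ∉ CongruenceSubgroup.Gamma0 N →
      IsZeroAtImInfty ((⇑Θ : ℍ → ℂ) ∣[w] γ))
    (q : Coset N) (hq : q ≠ coset1 N) : IsZeroAtImInfty (quotientFunc Θ q) := by
  induction q using QuotientGroup.induction_on with
  | H h =>
    obtain ⟨γ, hγ⟩ : ∃ γ : SL(2, ℤ), Matrix.SpecialLinearGroup.mapGL ℝ γ = h.val := h.property
    have hγN : γ⁻¹ ∉ CongruenceSubgroup.Gamma0 N := by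
      intro hmem
      apply hq
      have hγ' : γ ∈ CongruenceSubgroup.Gamma0 N := by
        have := inv_mem hmem
        simpa using this
      rw [coset1, QuotientGroup.eq]
      rw [Subgroup.mem_subgroupOf]
      have hh : h.val ∈ G0 N := by
        rw [← hγ]
        exact Subgroup.mem_map_of_mem _ hγ'
      simpa using inv_mem hh
    have key : quotientFunc Θ (QuotientGroup.mk h : Coset N) = (⇑Θ : ℍ → ℂ) ∣[w] γ⁻¹ := by
      have h1 : quotientFunc Θ (QuotientGroup.mk h : Coset N) = (⇑Θ : ℍ → ℂ) ∣[w] h.val⁻¹ := rfl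
      rw [h1, ← hγ, ← map_inv]
      rfl
    rw [key]
    exact hΘ _ hγN

open scoped Classical in
lemma sigma_Dfun_tendsto {N : ℕ} [NeZero N] {w : ℤ} (Θ : ModularForm (G0 N) w)
    (h0 : (qExpansion 1 Θ).coeff 0 = 1)
    (hΘ : ∀ γ : SL(2, ℤ), γ ∉ CongruenceSubgroup.Gamma0 N →
      IsZeroAtImInfty ((⇑Θ : ℍ → ℂ) ∣[w] γ)) :
    Filter.Tendsto (Dfun Θ) atImInfty (nhds 1) := by
  have hΘ1 : Filter.Tendsto (⇑Θ : ℍ → ℂ) atImInfty (nhds 1) := by
    have hmf : IsMF (G0 N) w (⇑Θ : ℍ → ℂ) := ⟨Θ, rfl⟩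
    have := hmf.tendsto_coeff_zero
    rwa [h0] at this
  have : Filter.Tendsto (Dfun Θ) atImInfty
      (nhds (∏ q ∈ (cosetFinset N).erase (coset1 N), (1 - 0 : ℂ))) := by
    unfold Dfun
    apply tendsto_finsetProd
    intro q hq
    have hq1 : q ≠ coset1 N := (Finset.mem_erase.mp hq).1
    exact hΘ1.sub (sigma_quotientFunc_isZero Θ hΘ q hq1)
  simpa using this

open scoped Classical in
lemma sigma_Dfun_ne_zero {N : ℕ} [NeZero N] {w : ℤ} (Θ : ModularForm (G0 N) w)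
    (h0 : (qExpansion 1 Θ).coeff 0 = 1)
    (hΘ : ∀ γ : SL(2, ℤ), γ ∉ CongruenceSubgroup.Gamma0 N →
      IsZeroAtImInfty ((⇑Θ : ℍ → ℂ) ∣[w] γ)) :
    Dfun Θ ≠ 0 := by
  intro h
  have h1 := sigma_Dfun_tendsto Θ h0 hΘ
  rw [h] at h1
  have h2 : Filter.Tendsto (0 : ℍ → ℂ) atImInfty (nhds 0) := tendsto_const_nhds
  exact one_ne_zero (tendsto_nhds_unique h1 h2)

lemma sigma_cosetCard_pos (N : ℕ) [NeZero N] : 1 ≤ cosetCard N :=
  Finset.card_pos.mpr ⟨coset1 N, mem_cosetFinset _⟩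


/-- pure algebra: multiply the norm relation by `Dq ^ n`. -/
lemma sigma_rel_mul {R : Type*} [CommRing R] (n : ℕ) (F Dq : R) (A : ℕ → R)
    (h : F ^ n + ∑ m ∈ Finset.Icc 1 n, A m * F ^ (n - m) = 0) :
    (F * Dq) ^ n + ∑ m ∈ Finset.Icc 1 n, A m * (F * Dq) ^ (n - m) * Dq ^ m = 0 := by
  have key : (F * Dq) ^ n + ∑ m ∈ Finset.Icc 1 n, A m * (F * Dq) ^ (n - m) * Dq ^ m =
      Dq ^ n * (F ^ n + ∑ m ∈ Finset.Icc 1 n, A m * F ^ (n - m)) := by
    rw [mul_add, Finset.mul_sum, mul_pow]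
    congr 1
    · ring
    · apply Finset.sum_congr rfl
      intro m hm
      have hmn : m ≤ n := (Finset.mem_Icc.mp hm).2
      have : Dq ^ n = Dq ^ (n - m) * Dq ^ m := by
        rw [← pow_add]; congr 1; omega
      rw [this, mul_pow]
      ring
  rw [key, h, mul_zero]

/-- the polynomial `∑_{j<n} c_j Θ^(n-1-j)` with level-one coefficients is a form for `Γ₀(N)`. -/
lemma sigma_isMF_poly {N : ℕ} [NeZero N] {w κ : ℤ} {Θf : ℍ → ℂ} (hΘ : IsMF (G0 N) w Θf)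
    (n : ℕ) (c : ℕ → ℍ → ℂ) (hc : ∀ j : ℕ, IsMF 𝒮ℒ (κ + (j : ℤ) * w) (c j)) :
    IsMF (G0 N) (((n : ℤ) - 1) * w + κ) (∑ j ∈ Finset.range n, c j * Θf ^ (n - 1 - j)) := by
  apply IsMF.sum
  intro j hj
  have hjn : j < n := Finset.mem_range.mp hj
  have h1 : IsMF (G0 N) (κ + (j : ℤ) * w) (c j) := (hc j).of_levelOne
  have h2 := h1.mul (hΘ.pow (n - 1 - j))
  refine h2.of_weight_eq ?_
  have : ((n - 1 - j : ℕ) : ℤ) = (n : ℤ) - 1 - j := by omega
  rw [this]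
  ring

/-- q-expansion of the polynomial `∑_{j<n} c_j Θ^(n-1-j)`. -/
lemma sigma_qExpansion_poly {N : ℕ} [NeZero N] {w κ : ℤ} {Θf : ℍ → ℂ} (hΘ : IsMF (G0 N) w Θf)
    (n : ℕ) (c : ℕ → ℍ → ℂ) (hc : ∀ j : ℕ, IsMF 𝒮ℒ (κ + (j : ℤ) * w) (c j)) :
    qExpansion 1 (∑ j ∈ Finset.range n, c j * Θf ^ (n - 1 - j)) =
      ∑ j ∈ Finset.range n, qExpansion 1 (c j) * qExpansion 1 Θf ^ (n - 1 - j) := by
  rw [IsMF.qExpansion_sum (N := N) (Finset.range n) (fun j => c j * Θf ^ (n - 1 - j))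
    (fun j => (κ + (j : ℤ) * w) + ((n - 1 - j : ℕ) : ℤ) * w)
    (fun j _ => ((hc j).of_levelOne).mul (hΘ.pow (n - 1 - j)))]
  apply Finset.sum_congr rfl
  intro j _
  rw [((hc j).of_levelOne (N := N)).qExpansion_mul (hΘ.pow (n - 1 - j)), hΘ.qExpansion_pow]


open scoped Classical in
/-- **P16**: σ-stability of the q-expansions of cusp forms of weight `k` for `Γ₀(N)`. -/
theorem sigma_stable (N : ℕ) [NeZero N] (k : ℤ) :
    StmtL1 → StmtB N → StmtTheta N → StmtNormRel N → StmtLagrangeRel N → StmtSigma N k := by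
  intro hL1 hB hTheta hNorm hLag σ f
  obtain ⟨w, Θ, hΘint, hΘ0, hΘz⟩ := hTheta
  have hn1 : 1 ≤ cosetCard N := sigma_cosetCard_pos N
  obtain ⟨a, ha, hrel⟩ := hNorm k f
  obtain ⟨l, hl, hlrel⟩ := hLag k w (ModularFormClass.modularForm f) Θ
  obtain ⟨lam, hlam, hlamrel⟩ := hLag 0 w (1 : ModularForm (G0 N) 0) Θ
  set n := cosetCard N with hn
  -- basic objects
  have hf : IsCF (G0 N) k (⇑f : ℍ → ℂ) := ⟨f, rfl⟩
  have hfM : IsMF (G0 N) k (⇑f : ℍ → ℂ) := hf.isMF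
  have hΘmf : IsMF (G0 N) w (⇑Θ : ℍ → ℂ) := ⟨Θ, rfl⟩
  set W : ℤ := ((n : ℤ) - 1) * w with hW
  -- Dfun as a polynomial in Θ
  have hDfun : Dfun Θ = ∑ j ∈ Finset.range n, lam j * (⇑Θ : ℍ → ℂ) ^ (n - 1 - j) := by
    funext z
    have := hlamrel z
    rw [ModularForm.one_coe_eq_one, Pi.one_apply, one_mul] at this
    rw [this, Finset.sum_apply]
    rfl
  have hfD : (⇑f : ℍ → ℂ) * Dfun Θ = ∑ j ∈ Finset.range n, l j * (⇑Θ : ℍ → ℂ) ^ (n - 1 - j) := by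
    funext z
    have := hlrel z
    rw [Pi.mul_apply, Finset.sum_apply]
    exact this
  have hDmf : IsMF (G0 N) W (Dfun Θ) := by
    rw [hDfun]
    exact (sigma_isMF_poly hΘmf n lam hlam).of_weight_eq (by ring)
  have hD0 : Dfun Θ ≠ 0 := sigma_Dfun_ne_zero Θ hΘ0 hΘz
  -- power series
  set F := qExpansion 1 (⇑f : ℍ → ℂ) with hF
  set T := qExpansion 1 (⇑Θ : ℍ → ℂ) with hT
  set Dq := qExpansion 1 (Dfun Θ) with hDq
  have hDq0 : Dq ≠ 0 := fun h => hD0 (hDmf.eq_zero_of_qExpansion_eq_zero h)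
  have hFDq : F * Dq = ∑ j ∈ Finset.range n, qExpansion 1 (l j) * T ^ (n - 1 - j) := by
    rw [hF, hDq, ← hfM.qExpansion_mul hDmf, hfD, sigma_qExpansion_poly hΘmf n l hl]
  have hDqpoly : Dq = ∑ j ∈ Finset.range n, qExpansion 1 (lam j) * T ^ (n - 1 - j) := by
    rw [hDq, hDfun, sigma_qExpansion_poly hΘmf n lam hlam]
  -- the norm relation for power series
  have hrelq : F ^ n + ∑ m ∈ Finset.Icc 1 n, qExpansion 1 (a m) * F ^ (n - m) = 0 := by
    have hfun : (⇑f : ℍ → ℂ) ^ n + ∑ m ∈ Finset.Icc 1 n, a m * (⇑f : ℍ → ℂ) ^ (n - m) = 0 := by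
      funext z
      have := hrel z
      rw [Pi.add_apply, Finset.sum_apply]
      exact this
    have hterm : ∀ m ∈ Finset.Icc 1 n,
        IsMF (G0 N) ((m : ℤ) * k + ((n - m : ℕ) : ℤ) * k) (a m * (⇑f : ℍ → ℂ) ^ (n - m)) := by
      intro m hm
      exact ((ha m (Finset.mem_Icc.mp hm).1).isMF.of_levelOne).mul (hfM.pow (n - m))
    have hsum : IsMF (G0 N) ((n : ℤ) * k)
        (∑ m ∈ Finset.Icc 1 n, a m * (⇑f : ℍ → ℂ) ^ (n - m)) := by
      apply IsMF.sum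
      intro m hm
      refine (hterm m hm).of_weight_eq ?_
      have hmn : m ≤ n := (Finset.mem_Icc.mp hm).2
      have : ((n - m : ℕ) : ℤ) = (n : ℤ) - m := by omega
      rw [this]; ring
    have h1 := congrArg (qExpansion 1) hfun
    rw [(hfM.pow n).qExpansion_add hsum, hfM.qExpansion_pow,
      IsMF.qExpansion_sum (N := N) (Finset.Icc 1 n) _ _ hterm, UpperHalfPlane.qExpansion_zero] at h1
    rw [← h1]
    congr 1
    apply Finset.sum_congr rfl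
    intro m hm
    rw [((ha m (Finset.mem_Icc.mp hm).1).isMF.of_levelOne (N := N)).qExpansion_mul
      (hfM.pow (n - m)), hfM.qExpansion_pow]
  -- σ-conjugates of the level-one data
  have hl' : ∀ j : ℕ, ∃ c : ℍ → ℂ, IsMF 𝒮ℒ (k + (j : ℤ) * w) c ∧
      qExpansion 1 c = PowerSeries.map σ (qExpansion 1 (l j)) :=
    fun j => sigma_levelOne_isMF hL1 σ (hl j)
  choose l' hl'mf hl'q using hl'
  have hlam' : ∀ j : ℕ, ∃ c : ℍ → ℂ, IsMF 𝒮ℒ (0 + (j : ℤ) * w) c ∧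
      qExpansion 1 c = PowerSeries.map σ (qExpansion 1 (lam j)) :=
    fun j => sigma_levelOne_isMF hL1 σ (hlam j)
  choose lam' hlam'mf hlam'q using hlam'
  have ha' : ∀ m : ℕ, ∃ c : ℍ → ℂ, 1 ≤ m → (IsCF 𝒮ℒ ((m : ℤ) * k) c ∧
      qExpansion 1 c = PowerSeries.map σ (qExpansion 1 (a m))) := by
    intro m
    by_cases hm : 1 ≤ m
    · obtain ⟨c, hc1, hc2⟩ := sigma_levelOne_isCF hL1 σ (ha m hm)
      exact ⟨c, fun _ => ⟨hc1, hc2⟩⟩
    · exact ⟨0, fun h => absurd h hm⟩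
  choose a' ha'prop using ha'
  -- the conjugate forms G', D'
  set G' : ℍ → ℂ := ∑ j ∈ Finset.range n, l' j * (⇑Θ : ℍ → ℂ) ^ (n - 1 - j) with hG'
  set D' : ℍ → ℂ := ∑ j ∈ Finset.range n, lam' j * (⇑Θ : ℍ → ℂ) ^ (n - 1 - j) with hD'
  have hG'mf : IsMF (G0 N) (W + k) G' := sigma_isMF_poly hΘmf n l' hl'mf
  have hD'mf : IsMF (G0 N) W D' :=
    (sigma_isMF_poly hΘmf n lam' hlam'mf).of_weight_eq (by ring)
  have hσT : PowerSeries.map σ T = T := sigma_map_of_isIntPS σ hΘint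
  have hG'q : qExpansion 1 G' = PowerSeries.map σ (F * Dq) := by
    rw [hG', sigma_qExpansion_poly hΘmf n l' hl'mf, hFDq, map_sum]
    apply Finset.sum_congr rfl
    intro j _
    rw [map_mul, map_pow, hσT, hl'q j]
  have hD'q : qExpansion 1 D' = PowerSeries.map σ Dq := by
    rw [hD', sigma_qExpansion_poly hΘmf n lam' hlam'mf, hDqpoly, map_sum]
    apply Finset.sum_congr rfl
    intro j _
    rw [map_mul, map_pow, hσT, hlam'q j]
  have hD'q0 : qExpansion 1 D' ≠ 0 := by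
    rw [hD'q]
    intro h
    apply hDq0
    apply sigma_map_injective σ
    rw [h, map_zero]
  have hD'0 : D' ≠ 0 := by
    intro h
    apply hD'q0
    rw [h, UpperHalfPlane.qExpansion_zero]
  -- the relation for G', D'
  have hterm' : ∀ m ∈ Finset.Icc 1 n,
      IsMF (G0 N) (((m : ℤ) * k + ((n - m : ℕ) : ℤ) * (W + k)) + (m : ℤ) * W)
        (a' m * G' ^ (n - m) * D' ^ m) := by
    intro m hm
    exact ((((ha'prop m (Finset.mem_Icc.mp hm).1).1).isMF.of_levelOne).mul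
      (hG'mf.pow (n - m))).mul (hD'mf.pow m)
  have hsum' : IsMF (G0 N) ((n : ℤ) * (W + k))
      (∑ m ∈ Finset.Icc 1 n, a' m * G' ^ (n - m) * D' ^ m) := by
    apply IsMF.sum
    intro m hm
    refine (hterm' m hm).of_weight_eq ?_
    have hmn : m ≤ n := (Finset.mem_Icc.mp hm).2
    have : ((n - m : ℕ) : ℤ) = (n : ℤ) - m := by omega
    rw [this]; ring
  have hR'mf : IsMF (G0 N) ((n : ℤ) * (W + k))
      (G' ^ n + ∑ m ∈ Finset.Icc 1 n, a' m * G' ^ (n - m) * D' ^ m) :=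
    (hG'mf.pow n).add hsum'
  have hR'q : qExpansion 1 (G' ^ n + ∑ m ∈ Finset.Icc 1 n, a' m * G' ^ (n - m) * D' ^ m) = 0 := by
    rw [(hG'mf.pow n).qExpansion_add hsum', hG'mf.qExpansion_pow,
      IsMF.qExpansion_sum (N := N) (Finset.Icc 1 n) _ _ hterm']
    have hrel2 := sigma_rel_mul n F Dq (fun m => qExpansion 1 (a m)) hrelq
    have h3 := congrArg (PowerSeries.map σ) hrel2
    rw [map_add, map_pow, map_sum, map_zero] at h3
    rw [← h3, hG'q]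
    congr 1
    apply Finset.sum_congr rfl
    intro m hm
    have hm1 := (Finset.mem_Icc.mp hm).1
    rw [((((ha'prop m hm1).1).isMF.of_levelOne (N := N)).mul (hG'mf.pow (n - m))).qExpansion_mul
      (hD'mf.pow m), (((ha'prop m hm1).1).isMF.of_levelOne (N := N)).qExpansion_mul
      (hG'mf.pow (n - m)), hG'mf.qExpansion_pow, hD'mf.qExpansion_pow, hG'q, hD'q,
      (ha'prop m hm1).2]
    simp only [map_mul, map_pow]
  have hR'0 := hR'mf.eq_zero_of_qExpansion_eq_zero hR'q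
  have hrel' : ∀ z, G' z ^ n + ∑ m ∈ Finset.Icc 1 n, a' m z * G' z ^ (n - m) * D' z ^ m = 0 := by
    intro z
    have := congrFun hR'0 z
    simpa [Finset.sum_apply] using this
  -- apply (B)
  obtain ⟨g, hg⟩ := hB k W n hn1 G' D' hG'mf hD'mf hD'0 a'
    (fun m h1 _ => (ha'prop m h1).1) hrel'
  refine ⟨g, ?_⟩
  have hgC : IsCF (G0 N) k (⇑g : ℍ → ℂ) := ⟨g, rfl⟩
  have hgM : IsMF (G0 N) k (⇑g : ℍ → ℂ) := hgC.isMF
  have hgD : (⇑g : ℍ → ℂ) * D' = G' := funext hg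
  have h4 := congrArg (qExpansion 1) hgD
  rw [hgM.qExpansion_mul hD'mf, hG'q, map_mul, ← hD'q] at h4
  exact mul_right_cancel₀ hD'q0 h4

end Fermat.Agent.S23
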