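import Fermat.Agent.S23.Basic
import Mathlib.NumberTheory.ModularForms.LevelOne.GradedRing
import Mathlib.NumberTheory.ModularForms.LevelOne.DimensionFormula

/-!
# S23 piece (L): level-one modular forms and integrality of q-expansions

All names live in `Fermat.Agent.S23` and are prefixed `levelOneInt_` / `levelOneInt_psCoeffsIn`.
-/

set_option autoImplicit false

open UpperHalfPlane ModularForm ModularFormClass MatrixGroups EisensteinSeries

namespace Fermat.Agent.S23

/-- The subring of `PowerSeries ℂ` of power series all of whose coefficients lie in a subring `R`. -/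
def levelOneInt_psCoeffsIn (R : Subring ℂ) : Subring (PowerSeries ℂ) where
  carrier := {P | ∀ n, P.coeff n ∈ R}
  mul_mem' := by
    intro P Q hP hQ n
    rw [PowerSeries.coeff_mul]
    exact Subring.sum_mem _ fun x _ => R.mul_mem (hP _) (hQ _)
  one_mem' := by
    intro n
    rw [PowerSeries.coeff_one]
    split_ifs
    · exact R.one_mem
    · exact R.zero_mem
  add_mem' := by
    intro P Q hP hQ n
    rw [map_add]
    exact R.add_mem (hP _) (hQ _)
  zero_mem' := by
    intro n
    rw [map_zero]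
    exact R.zero_mem
  neg_mem' := by
    intro P hP n
    rw [map_neg]
    exact R.neg_mem (hP _)

theorem levelOneInt_mem_psCoeffsIn {R : Subring ℂ} {P : PowerSeries ℂ} :
    P ∈ levelOneInt_psCoeffsIn R ↔ ∀ n, P.coeff n ∈ R := Iff.rfl

theorem levelOneInt_psCoeffsIn_mono {R S : Subring ℂ} (h : R ≤ S) : levelOneInt_psCoeffsIn R ≤ levelOneInt_psCoeffsIn S :=
  fun _ hP n => h (hP n)

theorem levelOneInt_C_mem_psCoeffsIn {R : Subring ℂ} {c : ℂ} (hc : c ∈ R) :
    PowerSeries.C c ∈ levelOneInt_psCoeffsIn R := by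
  intro n
  rw [PowerSeries.coeff_C]
  split_ifs
  · exact hc
  · exact R.zero_mem

theorem levelOneInt_smul_mem_psCoeffsIn {R : Subring ℂ} {c : ℂ} (hc : c ∈ R) {P : PowerSeries ℂ}
    (hP : P ∈ levelOneInt_psCoeffsIn R) : c • P ∈ levelOneInt_psCoeffsIn R := by
  intro n
  rw [PowerSeries.coeff_smul, smul_eq_mul]
  exact R.mul_mem hc (hP n)

theorem levelOneInt_intCast_mem_subring (R : Subring ℂ) (m : ℤ) : (m : ℂ) ∈ R :=
  intCast_mem R m

theorem levelOneInt_natCast_mem_subring (R : Subring ℂ) (m : ℕ) : (m : ℂ) ∈ R :=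
  natCast_mem R m

/-- `E₄` has q-expansion `1 + 240 ∑ σ₃(n) qⁿ`. -/
theorem levelOneInt_E4_coeff (m : ℕ) :
    (qExpansion 1 E₄).coeff m = if m = 0 then 1 else 240 * (ArithmeticFunction.sigma 3 m : ℂ) := by
  rw [E_qExpansion_coeff _ ⟨2, rfl⟩]
  norm_num [show bernoulli 4 = -1 / 30 by decide +kernel]

/-- `E₆` has q-expansion `1 - 504 ∑ σ₅(n) qⁿ`. -/
theorem levelOneInt_E6_coeff (m : ℕ) :
    (qExpansion 1 E₆).coeff m = if m = 0 then 1 else -504 * (ArithmeticFunction.sigma 5 m : ℂ) := by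
  rw [E_qExpansion_coeff _ ⟨3, rfl⟩]
  norm_num [show bernoulli 6 = 1 / 42 by decide +kernel]

theorem levelOneInt_E4_mem (R : Subring ℂ) : qExpansion 1 E₄ ∈ levelOneInt_psCoeffsIn R := by
  intro n
  rw [levelOneInt_E4_coeff]
  split_ifs
  · exact R.one_mem
  · exact R.mul_mem (by exact_mod_cast levelOneInt_natCast_mem_subring R 240) (levelOneInt_natCast_mem_subring R _)

theorem levelOneInt_E6_mem (R : Subring ℂ) : qExpansion 1 E₆ ∈ levelOneInt_psCoeffsIn R := by
  intro n
  rw [levelOneInt_E6_coeff]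
  split_ifs
  · exact R.one_mem
  · exact R.mul_mem (by exact_mod_cast levelOneInt_intCast_mem_subring R (-504)) (levelOneInt_natCast_mem_subring R _)


/-! ### Integrality of the q-expansion of `Δ` -/

theorem levelOneInt_twelve_dvd_aux (d : ℕ) : 12 ∣ 5 * d ^ 3 + 7 * d ^ 5 := by
  have h : ∀ x : ZMod 12, 5 * x ^ 3 + 7 * x ^ 5 = 0 := by decide
  have := h (d : ZMod 12)
  rw [← (ZMod.natCast_eq_zero_iff _ 12)]
  push_cast
  exact this

theorem levelOneInt_twelve_dvd_sigma (n : ℕ) :
    12 ∣ 5 * ArithmeticFunction.sigma 3 n + 7 * ArithmeticFunction.sigma 5 n := by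
  rw [ArithmeticFunction.sigma_apply, ArithmeticFunction.sigma_apply, Finset.mul_sum,
    Finset.mul_sum, ← Finset.sum_add_distrib]
  exact Finset.dvd_sum fun d _ => levelOneInt_twelve_dvd_aux d

/-- The power series `∑ σ₃(n) qⁿ`. -/
noncomputable def levelOneInt_A : PowerSeries ℂ := PowerSeries.mk fun n => (ArithmeticFunction.sigma 3 n : ℂ)

/-- The power series `∑ σ₅(n) qⁿ`. -/
noncomputable def levelOneInt_B : PowerSeries ℂ := PowerSeries.mk fun n => (ArithmeticFunction.sigma 5 n : ℂ)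

/-- The power series `∑ (5σ₃(n) + 7σ₅(n))/12 qⁿ`. -/
noncomputable def levelOneInt_C : PowerSeries ℂ :=
  PowerSeries.mk fun n =>
    (((5 * ArithmeticFunction.sigma 3 n + 7 * ArithmeticFunction.sigma 5 n) / 12 : ℕ) : ℂ)

theorem levelOneInt_A_mem (R : Subring ℂ) : levelOneInt_A ∈ levelOneInt_psCoeffsIn R := fun n => by
  rw [levelOneInt_A, PowerSeries.coeff_mk]; exact levelOneInt_natCast_mem_subring R _

theorem levelOneInt_B_mem (R : Subring ℂ) : levelOneInt_B ∈ levelOneInt_psCoeffsIn R := fun n => by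
  rw [levelOneInt_B, PowerSeries.coeff_mk]; exact levelOneInt_natCast_mem_subring R _

theorem levelOneInt_C_mem (R : Subring ℂ) : levelOneInt_C ∈ levelOneInt_psCoeffsIn R := fun n => by
  rw [levelOneInt_C, PowerSeries.coeff_mk]; exact levelOneInt_natCast_mem_subring R _

theorem levelOneInt_E4_eq : qExpansion 1 E₄ = 1 + PowerSeries.C 240 * levelOneInt_A := by
  ext n
  rw [levelOneInt_E4_coeff, map_add, PowerSeries.coeff_one, PowerSeries.coeff_C_mul, levelOneInt_A,
    PowerSeries.coeff_mk]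
  split_ifs with h
  · subst h; simp
  · simp

theorem levelOneInt_E6_eq : qExpansion 1 E₆ = 1 - PowerSeries.C 504 * levelOneInt_B := by
  ext n
  rw [levelOneInt_E6_coeff, map_sub, PowerSeries.coeff_one, PowerSeries.coeff_C_mul, levelOneInt_B,
    PowerSeries.coeff_mk]
  split_ifs with h
  · subst h; simp
  · simp

theorem levelOneInt_AB_eq_C :
    PowerSeries.C 5 * levelOneInt_A + PowerSeries.C 7 * levelOneInt_B = PowerSeries.C 12 * levelOneInt_C := by
  ext n
  rw [map_add, PowerSeries.coeff_C_mul, PowerSeries.coeff_C_mul, PowerSeries.coeff_C_mul,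
    levelOneInt_A, levelOneInt_B, levelOneInt_C, PowerSeries.coeff_mk, PowerSeries.coeff_mk,
    PowerSeries.coeff_mk]
  obtain ⟨c, hc⟩ := levelOneInt_twelve_dvd_sigma n
  rw [hc, Nat.mul_div_cancel_left c (by norm_num : 0 < 12)]
  have : ((5 * ArithmeticFunction.sigma 3 n + 7 * ArithmeticFunction.sigma 5 n : ℕ) : ℂ)
      = ((12 * c : ℕ) : ℂ) := by rw [hc]
  push_cast at this
  linear_combination this


/-- `1728 Δ = E₄³ - E₆²` on q-expansions. -/
theorem levelOneInt_discriminant_qExpansion_mul :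
    PowerSeries.C (1728 : ℂ) * qExpansion 1 ModularForm.discriminant =
      qExpansion 1 E₄ ^ 3 - qExpansion 1 E₆ ^ 2 := by
  set G : ModularForm 𝒮ℒ 12 :=
    ModularForm.mcast (by decide) (E₄.pow 3) - ModularForm.mcast (by decide) (E₆.pow 2) with hG
  have hGq : qExpansion 1 G = qExpansion 1 E₄ ^ 3 - qExpansion 1 E₆ ^ 2 := by
    simp only [hG, FunLike.coe_sub, coe_mcast,
      ModularForm.qExpansion_sub one_pos one_mem_strictPeriods_SL,
      ModularForm.qExpansion_pow one_pos one_mem_strictPeriods_SL]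
  have hfun : (G : ℍ → ℂ) = (1728 : ℂ) • (CuspForm.discriminant : ℍ → ℂ) := by
    funext z
    have h := ModularForm.discriminant_eq_E₄_cube_sub_E₆_sq z
    have hGz : G z = E₄ z ^ 3 - E₆ z ^ 2 := by
      simp only [hG, coe_mcast, coe_pow, sub_apply, Pi.pow_apply]
    rw [hGz, Pi.smul_apply, smul_eq_mul, CuspForm.coe_discriminant, h]
    ring
  have hsm := ModularForm.qExpansion_smul one_pos one_mem_strictPeriods_SL (1728 : ℂ)
    CuspForm.discriminant
  rw [← hfun, hGq, CuspForm.coe_discriminant] at hsm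
  rw [hsm, PowerSeries.smul_eq_C_mul]

/-- The q-expansion of `Δ` as an explicit integral power series. -/
theorem levelOneInt_discriminant_qExpansion_eq :
    qExpansion 1 ModularForm.discriminant =
      PowerSeries.C 100 * levelOneInt_A ^ 2 + PowerSeries.C 8000 * levelOneInt_A ^ 3
        - PowerSeries.C 147 * levelOneInt_B ^ 2 + levelOneInt_C := by
  have h := levelOneInt_discriminant_qExpansion_mul
  rw [levelOneInt_E4_eq, levelOneInt_E6_eq] at h
  have h1728 : PowerSeries.C (1728 : ℂ) ≠ 0 := by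
    rw [Ne, map_eq_zero_iff _ PowerSeries.C_injective]
    norm_num
  apply mul_left_cancel₀ h1728
  rw [h]
  have hC := levelOneInt_AB_eq_C
  have e1 : (PowerSeries.C (1728 : ℂ)) = 1728 := map_ofNat _ _
  have e2 : (PowerSeries.C (240 : ℂ)) = 240 := map_ofNat _ _
  have e3 : (PowerSeries.C (504 : ℂ)) = 504 := map_ofNat _ _
  have e4 : (PowerSeries.C (100 : ℂ)) = 100 := map_ofNat _ _
  have e5 : (PowerSeries.C (8000 : ℂ)) = 8000 := map_ofNat _ _
  have e6 : (PowerSeries.C (147 : ℂ)) = 147 := map_ofNat _ _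
  have e7 : (PowerSeries.C (5 : ℂ)) = 5 := map_ofNat _ _
  have e8 : (PowerSeries.C (7 : ℂ)) = 7 := map_ofNat _ _
  have e9 : (PowerSeries.C (12 : ℂ)) = 12 := map_ofNat _ _
  rw [e7, e8, e9] at hC
  rw [e1, e2, e3, e4, e5, e6]
  linear_combination (144 : PowerSeries ℂ) * hC

/-- The q-expansion of `Δ` has coefficients in every subring of `ℂ` (i.e. in `ℤ`). -/
theorem levelOneInt_discriminant_mem (R : Subring ℂ) :
    qExpansion 1 ModularForm.discriminant ∈ levelOneInt_psCoeffsIn R := by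
  rw [levelOneInt_discriminant_qExpansion_eq]
  have hA := levelOneInt_A_mem R
  have hB := levelOneInt_B_mem R
  have hC := levelOneInt_C_mem R
  have hc : ∀ m : ℕ, PowerSeries.C (m : ℂ) ∈ levelOneInt_psCoeffsIn R :=
    fun m => levelOneInt_C_mem_psCoeffsIn (levelOneInt_natCast_mem_subring R m)
  refine Subring.add_mem _ (Subring.sub_mem _ (Subring.add_mem _ ?_ ?_) ?_) hC
  · exact Subring.mul_mem _ (by exact_mod_cast hc 100) (Subring.pow_mem _ hA 2)
  · exact Subring.mul_mem _ (by exact_mod_cast hc 8000) (Subring.pow_mem _ hA 3)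
  · exact Subring.mul_mem _ (by exact_mod_cast hc 147) (Subring.pow_mem _ hB 2)

theorem levelOneInt_discriminant_coeff_zero : (qExpansion 1 ModularForm.discriminant).coeff 0 = 0 := by
  simpa using CuspFormClass.qExpansion_coeff_zero CuspForm.discriminant one_pos
    one_mem_strictPeriods_SL

theorem levelOneInt_discriminant_coeff_one : (qExpansion 1 ModularForm.discriminant).coeff 1 = 1 :=
  ModularForm.discriminant_qExpansion_coeff_one


/-! ### Interface theorems of piece P3 -/

theorem levelOneInt_exists_int_of_mem_bot {x : ℂ} (hx : x ∈ (⊥ : Subring ℂ)) :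
    ∃ z : ℤ, x = (z : ℂ) := by
  obtain ⟨z, hz⟩ := Subring.mem_bot.mp hx
  exact ⟨z, hz.symm⟩

theorem E4_qExpansion_int (n : ℕ) : ∃ z : ℤ, (qExpansion 1 E₄).coeff n = (z : ℂ) :=
  levelOneInt_exists_int_of_mem_bot (levelOneInt_E4_mem ⊥ n)

theorem E6_qExpansion_int (n : ℕ) : ∃ z : ℤ, (qExpansion 1 E₆).coeff n = (z : ℂ) :=
  levelOneInt_exists_int_of_mem_bot (levelOneInt_E6_mem ⊥ n)

theorem discriminant_qExpansion_int (n : ℕ) :
    ∃ z : ℤ, (qExpansion 1 discriminant).coeff n = (z : ℂ) :=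
  levelOneInt_exists_int_of_mem_bot (levelOneInt_discriminant_mem ⊥ n)

end Fermat.Agent.S23
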