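import Fermat.Agent.S23.Basic

/-!
# S23 piece (Ee): power-series division algebra

If `P * Q = R` in `ℂ⟦X⟧` where `Q` and `R` have integer coefficients, and `Q = X ^ a * (1 + ⋯)`
(i.e. the coefficients of `Q` of index `< a` vanish and the coefficient of index `a` is `1`),
then `P` has integer coefficients, and `coeff 0 P = coeff a R`.
-/

set_option autoImplicit false

namespace Fermat.Agent.S23

open PowerSeries

/-- The key coefficient identity: if `Q` has order `≥ a`, then
`coeff (n + a) (P * Q) = coeff n P * coeff a Q + ∑_{i < n} coeff i P * coeff (n + a - i) Q`. -/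
theorem thetaAlg_coeff_mul {P Q : PowerSeries ℂ} (a : ℕ)
    (hQa : ∀ i < a, PowerSeries.coeff i Q = 0) (n : ℕ) :
    PowerSeries.coeff (n + a) (P * Q) = PowerSeries.coeff n P * PowerSeries.coeff a Q +
      ∑ i ∈ Finset.range n, PowerSeries.coeff i P * PowerSeries.coeff (n + a - i) Q := by
  rw [PowerSeries.coeff_mul, Finset.Nat.sum_antidiagonal_eq_sum_range_succ
    (fun i j => PowerSeries.coeff i P * PowerSeries.coeff j Q)]
  -- split `range (n + a + 1)` into `range n`, `{n}` and the rest
  have hsplit : Finset.range (n + a + 1) =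
      (Finset.range (n + 1)) ∪ (Finset.Ico (n + 1) (n + a + 1)) := by
    ext i
    simp only [Finset.mem_range, Finset.mem_union, Finset.mem_Ico]
    omega
  have hdisj : Disjoint (Finset.range (n + 1)) (Finset.Ico (n + 1) (n + a + 1)) := by
    rw [Finset.disjoint_left]
    intro i hi hi'
    simp only [Finset.mem_range, Finset.mem_Ico] at hi hi'
    omega
  rw [hsplit, Finset.sum_union hdisj, Finset.sum_range_succ]
  have hzero : ∑ i ∈ Finset.Ico (n + 1) (n + a + 1),
      PowerSeries.coeff i P * PowerSeries.coeff (n + a - i) Q = 0 := by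
    apply Finset.sum_eq_zero
    intro i hi
    simp only [Finset.mem_Ico] at hi
    rw [hQa (n + a - i) (by omega), mul_zero]
  rw [hzero, add_zero, Nat.add_sub_cancel_left, add_comm]

/-- **(Ee)**: division by a power series of the form `X ^ a * (1 + ⋯)` preserves integrality. -/
theorem thetaAlg_isIntPS_of_mul_eq {P Q R : PowerSeries ℂ} (a : ℕ) (hQ : IsIntPS Q)
    (hR : IsIntPS R) (hQa : ∀ i < a, PowerSeries.coeff i Q = 0)
    (hQ1 : PowerSeries.coeff a Q = 1) (h : P * Q = R) : IsIntPS P := by
  intro n
  induction n using Nat.strong_induction_on with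
  | _ n ih =>
    have key := thetaAlg_coeff_mul (P := P) a hQa n
    rw [h, hQ1, mul_one] at key
    have hP : PowerSeries.coeff n P = PowerSeries.coeff (n + a) R -
        ∑ i ∈ Finset.range n, PowerSeries.coeff i P * PowerSeries.coeff (n + a - i) Q := by
      rw [key]; ring
    -- everything on the right lies in the subring of integers
    have hmem : PowerSeries.coeff (n + a) R -
        ∑ i ∈ Finset.range n, PowerSeries.coeff i P * PowerSeries.coeff (n + a - i) Q ∈
        (Int.castRingHom ℂ).range := by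
      apply Subring.sub_mem
      · obtain ⟨z, hz⟩ := hR (n + a)
        exact ⟨z, by simp [hz]⟩
      · apply Subring.sum_mem
        intro i hi
        rw [Finset.mem_range] at hi
        apply Subring.mul_mem
        · obtain ⟨z, hz⟩ := ih i hi
          exact ⟨z, by simp [hz]⟩
        · obtain ⟨z, hz⟩ := hQ (n + a - i)
          exact ⟨z, by simp [hz]⟩
    obtain ⟨z, hz⟩ := hmem
    exact ⟨z, by rw [hP, ← hz]; simp⟩

/-- The constant coefficient of the quotient. -/
theorem thetaAlg_coeff_zero_of_mul_eq {P Q R : PowerSeries ℂ} (a : ℕ)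
    (hQa : ∀ i < a, PowerSeries.coeff i Q = 0)
    (hQ1 : PowerSeries.coeff a Q = 1) (h : P * Q = R) :
    PowerSeries.coeff 0 P = PowerSeries.coeff a R := by
  have key := thetaAlg_coeff_mul (P := P) a hQa 0
  rw [h, hQ1, mul_one] at key
  simpa using key.symm

/-- Substitution `X ↦ X ^ N` on coefficients: the series `∑ c_n X^(N n)`. -/
noncomputable def thetaAlg_subst (N : ℕ) (F : PowerSeries ℂ) : PowerSeries ℂ :=
  PowerSeries.mk fun n => if N ∣ n then PowerSeries.coeff (n / N) F else 0

theorem thetaAlg_subst_coeff (N : ℕ) (F : PowerSeries ℂ) (n : ℕ) :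
    PowerSeries.coeff n (thetaAlg_subst N F) =
      if N ∣ n then PowerSeries.coeff (n / N) F else 0 := by
  simp [thetaAlg_subst]

theorem thetaAlg_subst_isIntPS (N : ℕ) {F : PowerSeries ℂ} (hF : IsIntPS F) :
    IsIntPS (thetaAlg_subst N F) := by
  intro n
  rw [thetaAlg_subst_coeff]
  split_ifs
  · exact hF _
  · exact ⟨0, by simp⟩

/-- If `F = X * (1 + ⋯)` then `F(X^N) = X^N * (1 + ⋯)`. -/
theorem thetaAlg_subst_low {N : ℕ} (_hN : 0 < N) {F : PowerSeries ℂ}
    (hF0 : PowerSeries.coeff 0 F = 0) :
    ∀ i < N, PowerSeries.coeff i (thetaAlg_subst N F) = 0 := by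
  intro i hi
  rw [thetaAlg_subst_coeff]
  split_ifs with hdvd
  · have : i = 0 := Nat.eq_zero_of_dvd_of_lt hdvd hi
    subst this
    simpa using hF0
  · rfl

theorem thetaAlg_subst_lead {N : ℕ} (hN : 0 < N) {F : PowerSeries ℂ}
    (hF1 : PowerSeries.coeff 1 F = 1) :
    PowerSeries.coeff N (thetaAlg_subst N F) = 1 := by
  rw [thetaAlg_subst_coeff, if_pos dvd_rfl, Nat.div_self hN, hF1]

end Fermat.Agent.S23
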