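import Fermat.Agent.S23.Basic

/-!
# S23, piece P8: the translates `Θ ∣[w] γ` of `Θ = Δ^N / Δ(N z)` under `γ ∈ SL(2, ℤ)`

* `P8_exists_hermite` : Hermite decomposition `[[N,0],[0,1]] γ = γ' [[A,B],[0,D]]`.
* `P8_thetaFun_slash_apply` : `(Θ ∣[w] γ) z = D^12 Δ(z)^N / Δ((A z + B) / D)`.
* `thetaFun_slash_isBoundedAtImInfty`, `thetaFun_slash_isZeroAtImInfty`.
-/

set_option autoImplicit false

noncomputable section

namespace Fermat.Agent.S23

open UpperHalfPlane ModularForm Filter Asymptotics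
open scoped MatrixGroups ModularForm Manifold Topology Real

/-- Hermite decomposition over `ℤ`: `[[N,0],[0,1]] * γ = γ' * [[A,B],[0,D]]`, entrywise. -/
theorem P8_exists_hermite (N : ℕ) [NeZero N] (γ : SL(2, ℤ)) :
    ∃ (γ' : SL(2, ℤ)) (A B D : ℤ), 0 < A ∧ 0 < D ∧ A * D = N ∧
      (N : ℤ) * γ 0 0 = γ' 0 0 * A ∧ (N : ℤ) * γ 0 1 = γ' 0 0 * B + γ' 0 1 * D ∧
      γ 1 0 = γ' 1 0 * A ∧ γ 1 1 = γ' 1 0 * B + γ' 1 1 * D ∧
      (A = N → γ ∈ CongruenceSubgroup.Gamma0 N) := by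
  have hN : (N : ℤ) ≠ 0 := by exact_mod_cast NeZero.ne N
  have hNpos : (0 : ℤ) < N := by exact_mod_cast Nat.pos_of_ne_zero (NeZero.ne N)
  have hdet : γ 0 0 * γ 1 1 - γ 0 1 * γ 1 0 = 1 := by
    have := γ.2
    rw [Matrix.det_fin_two] at this
    exact this
  set a := γ 0 0 with ha
  set b := γ 0 1 with hb
  set c := γ 1 0 with hc
  set d := γ 1 1 with hd
  -- A = gcd(N, c)
  set g : ℕ := Int.gcd (N : ℤ) c with hg
  have hgpos : 0 < g := Int.gcd_pos_of_ne_zero_left _ hN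
  obtain ⟨D, hD⟩ : (g : ℤ) ∣ (N : ℤ) := Int.gcd_dvd_left _ _
  obtain ⟨c₁, hc₁⟩ : (g : ℤ) ∣ c := Int.gcd_dvd_right _ _
  have hgpos' : (0 : ℤ) < g := by exact_mod_cast hgpos
  have hDpos : 0 < D := by
    by_contra h
    rw [not_lt] at h
    have : (g : ℤ) * D ≤ 0 := mul_nonpos_of_nonneg_of_nonpos hgpos'.le h
    omega
  -- D and c₁ are coprime
  have hcop1 : IsCoprime D c₁ := by
    have h := Int.isCoprime_iff_gcd_eq_one.mpr (Int.gcd_div_gcd_div_gcd (i := (N : ℤ)) (j := c) hgpos)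
    have e1 : (N : ℤ) / (g : ℤ) = D := by
      rw [hD]; exact Int.mul_ediv_cancel_left _ hgpos'.ne'
    have e2 : c / (g : ℤ) = c₁ := by
      rw [hc₁]; exact Int.mul_ediv_cancel_left _ hgpos'.ne'
    rwa [← hg, e1, e2] at h
  -- a and c₁ are coprime
  have hcop2 : IsCoprime a c₁ := by
    refine ⟨d, -b * g, ?_⟩
    rw [hc₁] at hdet
    linear_combination hdet
  have hcop : IsCoprime (D * a) c₁ := hcop1.mul_left hcop2
  obtain ⟨x, y, hxy⟩ := hcop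
  -- γ' = [[D a, -y], [c₁, x]]
  refine ⟨⟨!![D * a, -y; c₁, x], ?_⟩, g, x * N * b + y * d, D, hgpos', hDpos, hD.symm, ?_, ?_, ?_, ?_, ?_⟩
  · rw [Matrix.det_fin_two_of]
    linear_combination hxy
  · show (N : ℤ) * a = D * a * g
    rw [hD]; ring
  · show (N : ℤ) * b = D * a * (x * N * b + y * d) + (-y) * D
    rw [hc₁] at hdet
    rw [hD]
    linear_combination (-(g : ℤ) * D * b) * hxy - (D * y) * hdet
  · show c = c₁ * g
    rw [hc₁]; ring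
  · show d = c₁ * (x * N * b + y * d) + x * D
    rw [hc₁] at hdet
    rw [hD]
    linear_combination (-d) * hxy + (D * x) * hdet
  · intro hgN
    rw [CongruenceSubgroup.Gamma0_mem]
    show ((c : ℤ) : ZMod N) = 0
    rw [ZMod.intCast_zmod_eq_zero_iff_dvd]
    rw [← hgN]
    exact Int.gcd_dvd_right _ _


/-- The point `(A z + B) / D` of the upper half plane. -/
def P8_betaPt (A B D : ℤ) (hA : 0 < A) (hD : 0 < D) (z : ℍ) : ℍ :=
  ⟨((A : ℂ) * (z : ℂ) + (B : ℂ)) / (D : ℂ), by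
    have hA' : (0 : ℝ) < (A : ℝ) := by exact_mod_cast hA
    have hD' : (0 : ℝ) < (D : ℝ) := by exact_mod_cast hD
    have h1 : (((A : ℂ) * (z : ℂ) + (B : ℂ)) / (D : ℂ)) = (((A : ℝ) * (z : ℂ) + (B : ℝ)) / ((D : ℝ) : ℂ)) := by
      push_cast; ring
    rw [h1, Complex.div_ofReal_im]
    have h2 : (((A : ℝ) : ℂ) * (z : ℂ) + ((B : ℝ) : ℂ)).im = (A : ℝ) * z.im := by
      simp
    rw [h2]
    exact div_pos (mul_pos hA' z.im_pos) hD'⟩

theorem P8_coe_betaPt (A B D : ℤ) (hA : 0 < A) (hD : 0 < D) (z : ℍ) :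
    ((P8_betaPt A B D hA hD z : ℍ) : ℂ) = ((A : ℂ) * (z : ℂ) + (B : ℂ)) / (D : ℂ) := rfl

theorem P8_im_betaPt (A B D : ℤ) (hA : 0 < A) (hD : 0 < D) (z : ℍ) :
    (P8_betaPt A B D hA hD z).im = (A : ℝ) / (D : ℝ) * z.im := by
  have h1 : (((A : ℂ) * (z : ℂ) + (B : ℂ)) / (D : ℂ)) = (((A : ℝ) * (z : ℂ) + (B : ℝ)) / ((D : ℝ) : ℂ)) := by
    push_cast; ring
  show (((A : ℂ) * (z : ℂ) + (B : ℂ)) / (D : ℂ)).im = _
  rw [h1, Complex.div_ofReal_im]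
  have h2 : (((A : ℝ) : ℂ) * (z : ℂ) + ((B : ℝ) : ℂ)).im = (A : ℝ) * z.im := by
    simp
  rw [h2]
  ring

/-- `Δ(γ z) = (c z + d)^12 Δ(z)`. -/
theorem P8_discriminant_smul (γ : SL(2, ℤ)) (z : ℍ) :
    discriminant (γ • z) = ((γ 1 0 : ℂ) * z + (γ 1 1 : ℂ)) ^ (12 : ℕ) * discriminant z := by
  have h : (discriminant ∣[(12 : ℤ)] γ) z = discriminant z := by
    have h1 := SlashInvariantForm.slash_action_eqn CuspForm.discriminant
      (γ : GL (Fin 2) ℝ) ⟨γ, rfl⟩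
    exact congrFun h1 z
  have := (ModularForm.slash_action_eq'_iff 12 discriminant γ z).mp h
  rw [this]
  norm_cast


theorem P8_denom_ne_zero (γ : SL(2, ℤ)) (z : ℍ) : ((γ 1 0 : ℂ) * z + (γ 1 1 : ℂ)) ≠ 0 := by
  have := UpperHalfPlane.denom_ne_zero (γ : GL (Fin 2) ℝ) z
  simpa [UpperHalfPlane.denom] using this

theorem P8_coe_smul (γ : SL(2, ℤ)) (z : ℍ) :
    ((γ • z : ℍ) : ℂ) = ((γ 0 0 : ℂ) * z + (γ 0 1 : ℂ)) / ((γ 1 0 : ℂ) * z + (γ 1 1 : ℂ)) := by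
  rw [UpperHalfPlane.coe_specialLinearGroup_apply]
  simp

section Formula

variable (N : ℕ) [NeZero N] (γ γ' : SL(2, ℤ)) (A B D : ℤ) (hA : 0 < A) (hD : 0 < D)

include hA hD in
theorem P8_denom_eq
    (h10 : γ 1 0 = γ' 1 0 * A) (h11 : γ 1 1 = γ' 1 0 * B + γ' 1 1 * D) (z : ℍ) :
    ((γ' 1 0 : ℂ) * (P8_betaPt A B D hA hD z : ℍ) + (γ' 1 1 : ℂ)) =
      ((γ 1 0 : ℂ) * z + (γ 1 1 : ℂ)) / (D : ℂ) := by
  have hD' : (D : ℂ) ≠ 0 := by exact_mod_cast hD.ne'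
  rw [P8_coe_betaPt, h10, h11]
  push_cast
  field_simp
  ring

theorem P8_scaleN_smul
    (h00 : (N : ℤ) * γ 0 0 = γ' 0 0 * A)
    (h01 : (N : ℤ) * γ 0 1 = γ' 0 0 * B + γ' 0 1 * D)
    (h10 : γ 1 0 = γ' 1 0 * A) (h11 : γ 1 1 = γ' 1 0 * B + γ' 1 1 * D) (z : ℍ) :
    scaleN N (γ • z) = γ' • (P8_betaPt A B D hA hD z) := by
  have hD' : (D : ℂ) ≠ 0 := by exact_mod_cast hD.ne'
  have hden := P8_denom_ne_zero γ z
  have hden' := P8_denom_ne_zero γ' (P8_betaPt A B D hA hD z)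
  have hdeq := P8_denom_eq γ γ' A B D hA hD h10 h11 z
  apply UpperHalfPlane.ext
  rw [coe_scaleN, P8_coe_smul, P8_coe_smul, hdeq]
  have hnum : ((γ' 0 0 : ℂ) * (P8_betaPt A B D hA hD z : ℍ) + (γ' 0 1 : ℂ)) =
      (N : ℂ) * ((γ 0 0 : ℂ) * z + (γ 0 1 : ℂ)) / (D : ℂ) := by
    have e00 : ((N : ℂ)) * (γ 0 0 : ℂ) = (γ' 0 0 : ℂ) * (A : ℂ) := by exact_mod_cast h00
    have e01 : ((N : ℂ)) * (γ 0 1 : ℂ) = (γ' 0 0 : ℂ) * (B : ℂ) + (γ' 0 1 : ℂ) * (D : ℂ) := by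
      exact_mod_cast h01
    rw [P8_coe_betaPt]
    field_simp
    linear_combination (-(z : ℂ)) * e00 - e01
  rw [hnum]
  field_simp

end Formula


theorem P8_thetaWeight_eq (N : ℕ) [NeZero N] : thetaWeight N = ((12 * (N - 1) : ℕ) : ℤ) := by
  have hN : 1 ≤ N := Nat.pos_of_ne_zero (NeZero.ne N)
  unfold thetaWeight
  push_cast [Nat.cast_sub hN]
  ring

/-- The explicit formula `(Θ ∣[w] γ) z = D^12 Δ(z)^N / Δ((A z + B) / D)`. -/
theorem P8_thetaFun_slash_apply (N : ℕ) [NeZero N] (γ γ' : SL(2, ℤ)) (A B D : ℤ)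
    (hA : 0 < A) (hD : 0 < D)
    (h00 : (N : ℤ) * γ 0 0 = γ' 0 0 * A)
    (h01 : (N : ℤ) * γ 0 1 = γ' 0 0 * B + γ' 0 1 * D)
    (h10 : γ 1 0 = γ' 1 0 * A) (h11 : γ 1 1 = γ' 1 0 * B + γ' 1 1 * D) (z : ℍ) :
    (thetaFun N ∣[thetaWeight N] γ) z =
      (D : ℂ) ^ 12 * discriminant z ^ N / discriminant (P8_betaPt A B D hA hD z) := by
  have hN : 1 ≤ N := Nat.pos_of_ne_zero (NeZero.ne N)
  have hD' : (D : ℂ) ≠ 0 := by exact_mod_cast hD.ne'
  have hden := P8_denom_ne_zero γ z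
  have hΔ := discriminant_ne_zero (P8_betaPt A B D hA hD z)
  rw [ModularForm.SL_slash_apply]
  have hdenom : UpperHalfPlane.denom (γ : GL (Fin 2) ℝ) z = (γ 1 0 : ℂ) * z + (γ 1 1 : ℂ) := by
    simp [UpperHalfPlane.denom]
  rw [hdenom]
  unfold thetaFun
  rw [P8_scaleN_smul N γ γ' A B D hA hD h00 h01 h10 h11 z, P8_discriminant_smul γ z,
    P8_discriminant_smul γ' _, P8_denom_eq γ γ' A B D hA hD h10 h11 z, P8_thetaWeight_eq,
    zpow_neg, zpow_natCast]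
  set u := ((γ 1 0 : ℂ) * z + (γ 1 1 : ℂ)) with hu
  have hpow : (u ^ 12 * discriminant z) ^ N = u ^ (12 * (N - 1)) * (u ^ 12 * discriminant z ^ N) := by
    rw [mul_pow, ← pow_mul, ← mul_assoc, ← pow_add]
    congr 2
    omega
  rw [hpow]
  field_simp


section Asymptotics

theorem P8_tendsto_im_atImInfty : Tendsto (fun z : ℍ => z.im) atImInfty atTop :=
  tendsto_comap

theorem P8_tendsto_betaPt (A B D : ℤ) (hA : 0 < A) (hD : 0 < D) :
    Tendsto (P8_betaPt A B D hA hD) atImInfty atImInfty := by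
  have hA' : (0 : ℝ) < (A : ℝ) := by exact_mod_cast hA
  have hD' : (0 : ℝ) < (D : ℝ) := by exact_mod_cast hD
  rw [atImInfty, tendsto_comap_iff]
  have : (UpperHalfPlane.im ∘ P8_betaPt A B D hA hD) = fun z : ℍ => (A : ℝ) / (D : ℝ) * z.im := by
    funext z
    exact P8_im_betaPt A B D hA hD z
  rw [this]
  exact Tendsto.const_mul_atTop (div_pos hA' hD') P8_tendsto_im_atImInfty

theorem P8_discriminant_isBigO_exp :
    (discriminant : ℍ → ℂ) =O[atImInfty] fun τ : ℍ => Real.exp (-2 * π * τ.im) := by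
  have h := CuspFormClass.exp_decay_atImInfty (h := 1) CuspForm.discriminant one_pos
    one_mem_strictPeriods_SL
  simpa using h

/-- The basic estimate: `Θ ∣[w] γ = O(exp (-2π (N - A/D) Im z))`. -/
theorem P8_thetaFun_slash_isBigO (N : ℕ) [NeZero N] (γ γ' : SL(2, ℤ)) (A B D : ℤ)
    (hA : 0 < A) (hD : 0 < D)
    (h00 : (N : ℤ) * γ 0 0 = γ' 0 0 * A)
    (h01 : (N : ℤ) * γ 0 1 = γ' 0 0 * B + γ' 0 1 * D)
    (h10 : γ 1 0 = γ' 1 0 * A) (h11 : γ 1 1 = γ' 1 0 * B + γ' 1 1 * D) :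
    (thetaFun N ∣[thetaWeight N] γ) =O[atImInfty]
      fun z : ℍ => Real.exp (-(2 * π * ((N : ℝ) - (A : ℝ) / (D : ℝ))) * z.im) := by
  have h1 : (fun z : ℍ => discriminant z ^ N) =O[atImInfty]
      (fun z : ℍ => (Real.exp (-2 * π * z.im)) ^ N) := P8_discriminant_isBigO_exp.pow N
  have h2 : (fun z : ℍ => Real.exp (-2 * π * (P8_betaPt A B D hA hD z).im)) =O[atImInfty]
      (fun z : ℍ => discriminant (P8_betaPt A B D hA hD z)) :=
    exp_isBigO_discriminant.comp_tendsto (P8_tendsto_betaPt A B D hA hD)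
  have h3 : (fun z : ℍ => (discriminant (P8_betaPt A B D hA hD z))⁻¹) =O[atImInfty]
      (fun z : ℍ => (Real.exp (-2 * π * (P8_betaPt A B D hA hD z).im))⁻¹) :=
    h2.inv_rev (Eventually.of_forall fun z h => absurd h (Real.exp_pos _).ne')
  have h4 := (h1.mul h3).const_mul_left ((D : ℂ) ^ 12)
  refine (h4.congr' ?_ ?_)
  · refine Eventually.of_forall fun z => ?_
    rw [P8_thetaFun_slash_apply N γ γ' A B D hA hD h00 h01 h10 h11 z]
    simp only [div_eq_mul_inv, mul_assoc]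
  · refine Eventually.of_forall fun z => ?_
    simp only
    rw [P8_im_betaPt, ← Real.exp_nat_mul, ← Real.exp_neg, ← Real.exp_add]
    congr 1
    ring

end Asymptotics

/-- `Θ ∣[w] γ` is bounded at `i∞` for every `γ ∈ SL(2, ℤ)`. -/
theorem thetaFun_slash_isBoundedAtImInfty (N : ℕ) [NeZero N] (γ : SL(2, ℤ)) :
    IsBoundedAtImInfty (thetaFun N ∣[thetaWeight N] γ) := by
  obtain ⟨γ', A, B, D, hA, hD, hAD, h00, h01, h10, h11, -⟩ := P8_exists_hermite N γ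
  have hA' : (0 : ℝ) < (A : ℝ) := by exact_mod_cast hA
  have hD' : (0 : ℝ) < (D : ℝ) := by exact_mod_cast hD
  have hD1 : (1 : ℝ) ≤ (D : ℝ) := by exact_mod_cast hD
  have hAD' : (A : ℝ) * (D : ℝ) = (N : ℝ) := by exact_mod_cast hAD
  have hc : 0 ≤ (N : ℝ) - (A : ℝ) / (D : ℝ) := by
    rw [sub_nonneg, div_le_iff₀ hD', ← hAD']
    nlinarith
  have h := P8_thetaFun_slash_isBigO N γ γ' A B D hA hD h00 h01 h10 h11
  refine h.trans ?_
  refine IsBigO.of_bound 1 (Eventually.of_forall fun z => ?_)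
  rw [Real.norm_of_nonneg (Real.exp_pos _).le, Pi.one_apply, norm_one, mul_one,
    Real.exp_le_one_iff]
  have : 0 ≤ (2 * π * ((N : ℝ) - (A : ℝ) / (D : ℝ))) * z.im :=
    mul_nonneg (mul_nonneg (by positivity) hc) z.im_pos.le
  linarith

/-- `Θ ∣[w] γ` vanishes at `i∞` for every `γ ∈ SL(2, ℤ)` outside `Γ₀(N)`. -/
theorem thetaFun_slash_isZeroAtImInfty (N : ℕ) [NeZero N] (γ : SL(2, ℤ))
    (hγ : γ ∉ CongruenceSubgroup.Gamma0 N) :
    IsZeroAtImInfty (thetaFun N ∣[thetaWeight N] γ) := by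
  obtain ⟨γ', A, B, D, hA, hD, hAD, h00, h01, h10, h11, hmem⟩ := P8_exists_hermite N γ
  have hA' : (0 : ℝ) < (A : ℝ) := by exact_mod_cast hA
  have hD' : (0 : ℝ) < (D : ℝ) := by exact_mod_cast hD
  have hAD' : (A : ℝ) * (D : ℝ) = (N : ℝ) := by exact_mod_cast hAD
  have hAN : A ≠ N := fun h => hγ (hmem h)
  have hD2 : (2 : ℤ) ≤ D := by
    by_contra h
    have hD1 : D = 1 := by omega
    rw [hD1, mul_one] at hAD
    exact hAN hAD
  have hD2' : (2 : ℝ) ≤ (D : ℝ) := by exact_mod_cast hD2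
  have hc : 0 < (N : ℝ) - (A : ℝ) / (D : ℝ) := by
    rw [sub_pos, div_lt_iff₀ hD', ← hAD']
    nlinarith
  have h := P8_thetaFun_slash_isBigO N γ γ' A B D hA hD h00 h01 h10 h11
  refine h.trans_tendsto ?_
  have hc' : 0 < 2 * π * ((N : ℝ) - (A : ℝ) / (D : ℝ)) := by positivity
  have h1 : Tendsto (fun z : ℍ => (2 * π * ((N : ℝ) - (A : ℝ) / (D : ℝ))) * z.im) atImInfty atTop :=
    Tendsto.const_mul_atTop hc' P8_tendsto_im_atImInfty
  have h2 := Real.tendsto_exp_neg_atTop_nhds_zero.comp h1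
  refine h2.congr fun z => ?_
  simp only [Function.comp_apply]
  congr 1
  ring

end Fermat.Agent.S23
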