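import Fermat.Agent.S23.Basic
import Fermat.Agent.S23.ThetaSlash
import Fermat.Agent.S23.ThetaAlg
import Fermat.Agent.S23.LevelOneInt
import Fermat.Prelude.Thm_UpperHalfPlane_qExpansion_prod

/-!
# S23, piece P7: `Θ = Δ(z)^N / Δ(N z)` is a modular form for `Γ₀(N)` with integral q-expansion

Main results (all for `N : ℕ` with `[NeZero N]`):
* `isMF_thetaFun` : `Θ` is (the function of) a modular form of weight `12 (N - 1)` for `Γ₀(N)`;
* `thetaFun_qExpansion_int` : the q-expansion of `Θ` at `∞` has integer coefficients;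
* `thetaFun_qExpansion_coeff_zero` : its constant coefficient is `1`.

Auxiliary results that may be reused: `P7_deltaNFun_slash`, `P7_thetaFun_slash` (slash invariance
under `Γ₀(N)`), `P7_mdiff_deltaNFun`, `P7_mdiff_thetaFun`, `P7_tendsto_thetaFun` (`Θ → 1` at `i∞`),
`P7_qExpansion_deltaNFun` (q-expansion of `Δ(N z)`), `P7_qExpansion_mul_eq`.
-/

set_option autoImplicit false

noncomputable section

namespace Fermat.Agent.S23

open UpperHalfPlane ModularForm SlashInvariantForm Filter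
open scoped MatrixGroups ModularForm Manifold Topology

local notation "𝕢" => Function.Periodic.qParam

/-- Level-one slash invariance of `Δ`. -/
theorem P7_theta_discriminant_slash (γ : SL(2, ℤ)) :
    (discriminant ∣[(12 : ℤ)] γ) = discriminant := by
  have := SlashInvariantForm.slash_action_eqn CuspForm.discriminant
    (Matrix.SpecialLinearGroup.mapGL ℝ γ) ⟨γ, rfl⟩
  rw [SL_slash]
  exact this

/-- The companion matrix `[[a, N b], [c / N, d]]` of `γ = [[a, b], [c, d]] ∈ Γ₀(N)`. -/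
def P7_thetaCompanion (N : ℕ) [NeZero N] (γ : SL(2, ℤ)) (h : (N : ℤ) ∣ γ 1 0) : SL(2, ℤ) :=
  ⟨!![γ 0 0, N * γ 0 1; γ 1 0 / N, γ 1 1], by
    have hdet := γ.det_coe
    rw [Matrix.det_fin_two] at hdet
    rw [Matrix.det_fin_two_of]
    obtain ⟨c, hc⟩ := h
    have hN : (N : ℤ) ≠ 0 := by exact_mod_cast NeZero.ne N
    rw [hc, Int.mul_ediv_cancel_left _ hN]
    rw [hc] at hdet
    linear_combination hdet⟩

theorem P7_thetaCompanion_denom (N : ℕ) [NeZero N] (γ : SL(2, ℤ)) (h : (N : ℤ) ∣ γ 1 0) (z : ℍ) :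
    denom (P7_thetaCompanion N γ h) (scaleN N z) = denom γ z := by
  rw [ModularGroup.denom_apply, ModularGroup.denom_apply]
  obtain ⟨c, hc⟩ := h
  have hN : (N : ℤ) ≠ 0 := by exact_mod_cast NeZero.ne N
  simp only [P7_thetaCompanion, coe_scaleN]
  simp [hc, Int.mul_ediv_cancel_left _ hN]
  ring

theorem P7_thetaCompanion_smul (N : ℕ) [NeZero N] (γ : SL(2, ℤ)) (h : (N : ℤ) ∣ γ 1 0) (z : ℍ) :
    scaleN N (γ • z) = P7_thetaCompanion N γ h • scaleN N z := by
  ext1
  have hd1 := denom_ne_zero γ z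
  have hd2 := denom_ne_zero (P7_thetaCompanion N γ h) (scaleN N z)
  have hden := P7_thetaCompanion_denom N γ h z
  rw [ModularGroup.denom_apply] at hd1 hd2 hden
  rw [ModularGroup.denom_apply] at hden
  rw [coe_scaleN, coe_specialLinearGroup_apply, coe_specialLinearGroup_apply]
  simp only [eq_intCast, Complex.ofReal_intCast]
  rw [hden, mul_div_assoc', div_left_inj' hd1]
  simp only [P7_thetaCompanion, coe_scaleN]
  simp
  ring

/-- `Δ(N z)` is slash-invariant of weight 12 under `Γ₀(N)`. -/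
theorem P7_deltaNFun_slash (N : ℕ) [NeZero N] (γ : SL(2, ℤ)) (h : γ ∈ CongruenceSubgroup.Gamma0 N) :
    (deltaNFun N ∣[(12 : ℤ)] γ) = deltaNFun N := by
  have hdvd : (N : ℤ) ∣ γ 1 0 := by
    rw [CongruenceSubgroup.Gamma0_mem] at h
    exact (ZMod.intCast_zmod_eq_zero_iff_dvd _ _).mp h
  ext z
  rw [SL_slash_apply]
  have h1 := congrFun (P7_theta_discriminant_slash (P7_thetaCompanion N γ hdvd)) (scaleN N z)
  rw [SL_slash_apply, P7_thetaCompanion_denom, ← P7_thetaCompanion_smul] at h1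
  exact h1


theorem P7_theta_pow_slash (f : ℍ → ℂ) (k : ℤ) (γ : SL(2, ℤ)) (n : ℕ) :
    (f ^ n) ∣[(n : ℤ) * k] γ = (f ∣[k] γ) ^ n := by
  ext z
  simp only [SL_slash_apply, Pi.pow_apply, mul_pow]
  congr 1
  rw [← zpow_natCast (denom γ z ^ (-k)) n, ← zpow_mul, mul_comm, neg_mul]

theorem P7_thetaFun_eq (N : ℕ) [NeZero N] :
    thetaFun N = (discriminant ^ N) / deltaNFun N := rfl

theorem P7_thetaWeight_eq (N : ℕ) : thetaWeight N = (N : ℤ) * 12 - 12 := by
  unfold thetaWeight; ring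

/-- `Θ` is slash-invariant of weight `12 (N - 1)` under `Γ₀(N)`. -/
theorem P7_thetaFun_slash (N : ℕ) [NeZero N] (γ : SL(2, ℤ)) (h : γ ∈ CongruenceSubgroup.Gamma0 N) :
    (thetaFun N ∣[thetaWeight N] γ) = thetaFun N := by
  rw [P7_thetaFun_eq, P7_thetaWeight_eq, div_slash_SL2, P7_theta_pow_slash, P7_theta_discriminant_slash,
    P7_deltaNFun_slash N γ h]

theorem P7_deltaNFun_ne_zero (N : ℕ) [NeZero N] (z : ℍ) : deltaNFun N z ≠ 0 :=
  discriminant_ne_zero _

theorem P7_mdiff_discriminant : MDiff (discriminant : ℍ → ℂ) :=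
  CuspForm.discriminant.holo'

theorem P7_mdiff_deltaNFun (N : ℕ) [NeZero N] : MDiff (deltaNFun N) := by
  rw [UpperHalfPlane.mdifferentiable_iff]
  have hΔ := UpperHalfPlane.mdifferentiable_iff.mp P7_mdiff_discriminant
  have hN : (0 : ℝ) < (N : ℝ) := Nat.cast_pos.mpr (Nat.pos_of_ne_zero (NeZero.ne N))
  have hmaps : Set.MapsTo (fun w : ℂ => (N : ℂ) * w) {z | 0 < z.im} {z | 0 < z.im} := by
    intro w hw
    simp only [Set.mem_ofPred_eq, Complex.mul_im, Complex.natCast_re, Complex.natCast_im,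
      zero_mul, add_zero] at hw ⊢
    exact mul_pos hN hw
  have hcomp : DifferentiableOn ℂ ((discriminant ∘ ofComplex) ∘ (fun w : ℂ => (N : ℂ) * w))
      {z | 0 < z.im} :=
    hΔ.comp (by fun_prop) hmaps
  refine hcomp.congr ?_
  intro w hw
  have hw' : 0 < ((N : ℂ) * w).im := hmaps hw
  simp only [Function.comp_apply, deltaNFun]
  rw [ofComplex_apply_of_im_pos hw, ofComplex_apply_of_im_pos hw']
  rfl

theorem P7_mdiff_thetaFun (N : ℕ) [NeZero N] : MDiff (thetaFun N) := by
  rw [P7_thetaFun_eq]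
  have h1 : MDiff (discriminant ^ N : ℍ → ℂ) := by
    rw [UpperHalfPlane.mdifferentiable_iff]
    have hΔ := UpperHalfPlane.mdifferentiable_iff.mp P7_mdiff_discriminant
    exact (hΔ.pow N)
  have h2 := P7_mdiff_deltaNFun N
  rw [UpperHalfPlane.mdifferentiable_iff] at h1 h2 ⊢
  refine (h1.div h2 ?_)
  intro w hw
  exact P7_deltaNFun_ne_zero N _


/-- `Θ` is a modular form for `Γ₀(N)` as soon as all its `SL(2,ℤ)`-translates are bounded at `i∞`. -/
theorem P7_isMF_thetaFun_of_bdd (N : ℕ) [NeZero N]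
    (hb : ∀ γ : SL(2, ℤ), IsBoundedAtImInfty (thetaFun N ∣[thetaWeight N] γ)) :
    IsMF (G0 N) (thetaWeight N) (thetaFun N) := by
  refine ⟨{ toFun := thetaFun N
            slash_action_eq' := ?_
            holo' := P7_mdiff_thetaFun N
            bdd_at_cusps' := ?_ }, rfl⟩
  · rintro γ ⟨γ', hγ', rfl⟩
    exact P7_thetaFun_slash N γ' hγ'
  · intro c hc
    rw [Subgroup.IsArithmetic.isCusp_iff_isCusp_SL2Z] at hc
    rw [OnePoint.isBoundedAt_iff_forall_SL2Z hc]
    intro γ _
    exact hb γ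



theorem P7_im_scaleN (N : ℕ) [NeZero N] (z : ℍ) : (scaleN N z).im = (N : ℝ) * z.im := by
  change ((N : ℂ) * (z : ℂ)).im = _
  simp

theorem P7_tendsto_scaleN_atImInfty (N : ℕ) [NeZero N] :
    Tendsto (scaleN N) atImInfty atImInfty := by
  rw [atImInfty, tendsto_comap_iff]
  have hN : (0 : ℝ) < (N : ℝ) := Nat.cast_pos.mpr (Nat.pos_of_ne_zero (NeZero.ne N))
  have : (UpperHalfPlane.im ∘ scaleN N) = fun z : ℍ => (N : ℝ) * z.im := by
    funext z; exact P7_im_scaleN N z
  rw [this]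
  exact (tendsto_comap (f := UpperHalfPlane.im) (x := atTop)).const_mul_atTop hN

/-- The infinite product factor of `Δ`. -/
def P7_thetaProd (z : ℍ) : ℂ := ∏' n : ℕ, (1 - eta_q n z) ^ 24

theorem P7_discriminant_eq_qParam_mul_thetaProd (z : ℍ) :
    discriminant z = 𝕢 1 z * P7_thetaProd z := discriminant_eq_q_prod z

theorem P7_thetaProd_ne_zero (z : ℍ) : P7_thetaProd z ≠ 0 := by
  have h := discriminant_ne_zero z
  rw [P7_discriminant_eq_qParam_mul_thetaProd] at h
  exact right_ne_zero_of_mul h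

theorem P7_tendsto_thetaProd : Tendsto P7_thetaProd atImInfty (𝓝 1) :=
  tendsto_atImInfty_tprod_one_sub_eta_q_pow

theorem P7_qParam_scaleN (N : ℕ) [NeZero N] (z : ℍ) :
    𝕢 1 (scaleN N z : ℂ) = 𝕢 1 (z : ℂ) ^ N := by
  simp only [Function.Periodic.qParam, coe_scaleN, ← Complex.exp_nat_mul]
  congr 1
  simp
  ring

theorem P7_thetaFun_eq_thetaProd (N : ℕ) [NeZero N] (z : ℍ) :
    thetaFun N z = P7_thetaProd z ^ N / P7_thetaProd (scaleN N z) := by
  unfold thetaFun
  rw [P7_discriminant_eq_qParam_mul_thetaProd, P7_discriminant_eq_qParam_mul_thetaProd, P7_qParam_scaleN,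
    mul_pow]
  have hq : 𝕢 1 (z : ℂ) ^ N ≠ 0 := pow_ne_zero _ (Function.Periodic.qParam_ne_zero _)
  rw [mul_div_mul_left _ _ hq]

/-- `Θ → 1` at `i∞`. -/
theorem P7_tendsto_thetaFun (N : ℕ) [NeZero N] : Tendsto (thetaFun N) atImInfty (𝓝 1) := by
  have h1 : Tendsto (fun z => P7_thetaProd z ^ N) atImInfty (𝓝 1) := by
    simpa using P7_tendsto_thetaProd.pow N
  have h2 : Tendsto (fun z => P7_thetaProd (scaleN N z)) atImInfty (𝓝 1) :=
    P7_tendsto_thetaProd.comp (P7_tendsto_scaleN_atImInfty N)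
  have h3 := h1.div h2 one_ne_zero
  simp only [div_one] at h3
  exact h3.congr fun z => (P7_thetaFun_eq_thetaProd N z).symm

theorem P7_isBoundedAtImInfty_thetaFun (N : ℕ) [NeZero N] : IsBoundedAtImInfty (thetaFun N) :=
  (P7_tendsto_thetaFun N).isBigO_one ℝ



/-- `Θ` is a modular form of weight `12 (N - 1)` for `Γ₀(N)`. -/
theorem isMF_thetaFun (N : ℕ) [NeZero N] : IsMF (G0 N) (thetaWeight N) (thetaFun N) :=
  P7_isMF_thetaFun_of_bdd N (thetaFun_slash_isBoundedAtImInfty N)

/-- `Δ` is 1-periodic. -/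
theorem P7_periodic_discriminant : Function.Periodic (discriminant ∘ ofComplex) (1 : ℝ) :=
  SlashInvariantFormClass.periodic_comp_ofComplex CuspForm.discriminant
    one_mem_strictPeriods_SL

theorem P7_isBoundedAtImInfty_discriminant : IsBoundedAtImInfty (discriminant : ℍ → ℂ) :=
  discriminant_isZeroAtImInfty.isBoundedAtImInfty

theorem P7_periodic_thetaFun (N : ℕ) [NeZero N] :
    Function.Periodic (thetaFun N ∘ ofComplex) (1 : ℝ) := by
  obtain ⟨F, hF⟩ := isMF_thetaFun N
  rw [← hF]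
  exact SlashInvariantFormClass.periodic_comp_ofComplex F
    (CongruenceSubgroup.one_mem_strictPeriods_Gamma0 N)

theorem P7_periodic_deltaNFun (N : ℕ) [NeZero N] :
    Function.Periodic (deltaNFun N ∘ ofComplex) (1 : ℝ) := by
  let F : SlashInvariantForm (G0 N) 12 :=
    { toFun := deltaNFun N
      slash_action_eq' := by
        rintro γ ⟨γ', hγ', rfl⟩
        exact P7_deltaNFun_slash N γ' hγ' }
  exact SlashInvariantFormClass.periodic_comp_ofComplex F
    (CongruenceSubgroup.one_mem_strictPeriods_Gamma0 N)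

theorem P7_isZeroAtImInfty_deltaNFun (N : ℕ) [NeZero N] : IsZeroAtImInfty (deltaNFun N) :=
  (discriminant_isZeroAtImInfty : Tendsto discriminant atImInfty (𝓝 0)).comp
    (P7_tendsto_scaleN_atImInfty N)

theorem P7_analyticAt_discriminant : AnalyticAt ℂ (cuspFunction 1 discriminant) 0 :=
  analyticAt_cuspFunction_zero one_pos P7_periodic_discriminant P7_mdiff_discriminant
    P7_isBoundedAtImInfty_discriminant

theorem P7_analyticAt_deltaNFun (N : ℕ) [NeZero N] :
    AnalyticAt ℂ (cuspFunction 1 (deltaNFun N)) 0 :=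
  analyticAt_cuspFunction_zero one_pos (P7_periodic_deltaNFun N) (P7_mdiff_deltaNFun N)
    (P7_isZeroAtImInfty_deltaNFun N).isBoundedAtImInfty

theorem P7_analyticAt_thetaFun (N : ℕ) [NeZero N] :
    AnalyticAt ℂ (cuspFunction 1 (thetaFun N)) 0 :=
  analyticAt_cuspFunction_zero one_pos (P7_periodic_thetaFun N) (P7_mdiff_thetaFun N)
    (P7_isBoundedAtImInfty_thetaFun N)

/-- q-expansion of `z ↦ Δ (N z)`: the coefficient of `q^n` is `τ(n/N)` if `N ∣ n`, else `0`. -/
theorem P7_qExpansion_deltaNFun (N : ℕ) [NeZero N] :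
    qExpansion 1 (deltaNFun N) = thetaAlg_subst N (qExpansion 1 discriminant) := by
  have hN : N ≠ 0 := NeZero.ne N
  ext n
  rw [thetaAlg_subst_coeff]
  set c : ℕ → ℂ := fun n => if N ∣ n then (qExpansion 1 discriminant).coeff (n / N) else 0
    with hc
  have hcont : Continuous (deltaNFun N) := (P7_mdiff_deltaNFun N).continuous
  refine (UpperHalfPlane.qExpansion_coeff_unique (c := c) (ContinuousMap.mk (deltaNFun N) hcont)
    one_pos (P7_analyticAt_deltaNFun N) ?_ n).symm
  intro τ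
  have h1 := hasSum_qExpansion (h := 1) one_pos P7_periodic_discriminant P7_mdiff_discriminant
    P7_isBoundedAtImInfty_discriminant (scaleN N τ)
  rw [P7_qParam_scaleN] at h1
  have hinj : Function.Injective (fun m : ℕ => N * m) := fun a b hab =>
    Nat.eq_of_mul_eq_mul_left (Nat.pos_of_ne_zero hN) hab
  change HasSum (fun m ↦ c m • 𝕢 1 τ ^ m) (discriminant (scaleN N τ))
  rw [← hinj.hasSum_iff]
  · convert h1 using 2 with m
    simp only [Function.comp_apply, hc, dvd_mul_right, if_true, Nat.mul_div_cancel_left _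
      (Nat.pos_of_ne_zero hN), pow_mul]
  · intro x hx
    have : ¬ N ∣ x := fun ⟨k, hk⟩ => hx ⟨k, hk.symm⟩
    simp [hc, this]

theorem P7_thetaFun_mul_deltaNFun (N : ℕ) [NeZero N] :
    thetaFun N * deltaNFun N = ∏ _i ∈ Finset.range N, (discriminant : ℍ → ℂ) := by
  funext z
  simp only [Pi.mul_apply, Finset.prod_const, Finset.card_range, Pi.pow_apply, thetaFun, deltaNFun]
  exact div_mul_cancel₀ _ (discriminant_ne_zero _)

/-- The key power series identity `qExp Θ * qExp Δ(N·) = (qExp Δ)^N`. -/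
theorem P7_qExpansion_mul_eq (N : ℕ) [NeZero N] :
    qExpansion 1 (thetaFun N) * thetaAlg_subst N (qExpansion 1 discriminant) =
      (qExpansion 1 discriminant) ^ N := by
  rw [← P7_qExpansion_deltaNFun, ← qExpansion_mul (P7_analyticAt_thetaFun N)
    (P7_analyticAt_deltaNFun N), P7_thetaFun_mul_deltaNFun,
    UpperHalfPlane.qExpansion_prod _ (fun _ _ => P7_analyticAt_discriminant)]
  simp

theorem P7_isIntPS_discriminant : IsIntPS (qExpansion 1 discriminant) :=
  discriminant_qExpansion_int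

theorem P7_coeff_zero_discriminant : (qExpansion 1 discriminant).coeff 0 = 0 := by
  have := CuspFormClass.qExpansion_coeff_zero (h := 1) CuspForm.discriminant one_pos
    one_mem_strictPeriods_SL
  simpa using this

theorem P7_isIntPS_pow {F : PowerSeries ℂ} (hF : IsIntPS F) (n : ℕ) : IsIntPS (F ^ n) := by
  -- `F` is the image of an integral power series
  have key : ∀ G : PowerSeries ℂ, IsIntPS G ↔
      ∃ G' : PowerSeries ℤ, PowerSeries.map (Int.castRingHom ℂ) G' = G := by
    intro G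
    constructor
    · intro hG
      choose z hz using hG
      exact ⟨PowerSeries.mk z, by ext n; simp [hz]⟩
    · rintro ⟨G', rfl⟩ n
      exact ⟨PowerSeries.coeff n G', by simp⟩
  obtain ⟨F', rfl⟩ := (key F).mp hF
  exact (key _).mpr ⟨F' ^ n, by simp⟩

theorem thetaFun_qExpansion_int (N : ℕ) [NeZero N] (n : ℕ) :
    ∃ z : ℤ, (qExpansion 1 (thetaFun N)).coeff n = (z : ℂ) := by
  have hN : 0 < N := Nat.pos_of_ne_zero (NeZero.ne N)
  exact thetaAlg_isIntPS_of_mul_eq N (thetaAlg_subst_isIntPS N P7_isIntPS_discriminant)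
    (P7_isIntPS_pow P7_isIntPS_discriminant N)
    (thetaAlg_subst_low hN P7_coeff_zero_discriminant)
    (thetaAlg_subst_lead hN discriminant_qExpansion_coeff_one)
    (P7_qExpansion_mul_eq N) n

theorem thetaFun_qExpansion_coeff_zero (N : ℕ) [NeZero N] :
    (qExpansion 1 (thetaFun N)).coeff 0 = 1 := by
  rw [qExpansion_coeff_zero one_pos (P7_analyticAt_thetaFun N) (P7_periodic_thetaFun N)]
  exact (P7_tendsto_thetaFun N).limUnder_eq

end Fermat.Agent.S23
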