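import Fermat.Agent.S23.Interface
import Fermat.Agent.S23.AlmostIntegral
import Fermat.Agent.S23.Removable
import Fermat.Agent.S23.LevelOne
import Fermat.Agent.S23.NormPoly
import Fermat.Agent.S23.Theta
import Fermat.Agent.S23.ThetaSlash
import Fermat.Agent.S23.SigmaStable
import Fermat.Agent.S23.RatSpan
import Fermat.Agent.S23.Glue0
import Fermat.Agent.S23.BddGlue
import Fermat.Agent.S23.BddFraction

/-!
# S23 — glue: `CuspForm.HasIntegralStructure N k` for all `N ≥ 1` and all `k`

Route (see `NOTES/S23.md`): norm polynomial over the level-one ring + removable singularities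
⇒ q-expansions of `S_k(Γ₀(N))` are stable under `Aut(ℂ)` ⇒ rational basis (Galois descent);
bounded denominators via `Θ = Δ(z)^N/Δ(Nz)`, the Lagrange identity and "almost integral ⇒ integral"
for `ℤ⟦X⟧`.
-/

set_option autoImplicit false

noncomputable section

namespace Fermat.Agent.S23

open UpperHalfPlane ModularForm SlashInvariantForm
open scoped MatrixGroups ModularForm Manifold

theorem main_stmtB (N : ℕ) [NeZero N] : StmtB N :=
  fun _ _ _ hn G D hG hD hD0 a ha h => exists_cuspForm_of_monic_relation hn G D hG hD hD0 a ha h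

theorem main_stmtAlmostIntegral : StmtAlmostIntegral :=
  fun _ _ _ _ c hx hP hQ hQ0 hQx hc hn hrel =>
    isIntPS_of_monic_of_fraction c hx hP hQ hQ0 hQx hc hn hrel

theorem main_stmtTheta (N : ℕ) [NeZero N] : StmtTheta N := by
  obtain ⟨Θ, hΘ⟩ := isMF_thetaFun N
  refine ⟨thetaWeight N, Θ, ?_, ?_, ?_⟩
  · rw [hΘ]; exact fun n => thetaFun_qExpansion_int N n
  · rw [hΘ]; exact thetaFun_qExpansion_coeff_zero N
  · intro γ hγ
    rw [hΘ]
    exact thetaFun_slash_isZeroAtImInfty N γ hγ

theorem main_stmtNormRel (N : ℕ) [NeZero N] : StmtNormRel N :=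
  (normPoly_of_esymm N (esymm_stmt N)).1

theorem main_stmtLagrangeRel (N : ℕ) [NeZero N] : StmtLagrangeRel N :=
  (normPoly_of_esymm N (esymm_stmt N)).2

theorem main_stmtSigma (N : ℕ) [NeZero N] (k : ℤ) : StmtSigma N k :=
  sigma_stable N k p5_stmtL1 (main_stmtB N) (main_stmtTheta N) (main_stmtNormRel N)
    (main_stmtLagrangeRel N)

theorem main_stmtRatSpan (N : ℕ) [NeZero N] (k : ℤ) : StmtRatSpan N k :=
  ratSpan_of_sigma N k (main_stmtSigma N k)

theorem main_stmtBdd (N : ℕ) [NeZero N] (k : ℤ) : StmtBdd N k :=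
  bdd_of_parts N k main_stmtAlmostIntegral
    (fun f hf => bdd_monic_relation N k p4x_stmtP4 (main_stmtNormRel N) f hf)
    (fun f hf => bddFrac_exists N k p4x_stmtP4 (main_stmtTheta N) (main_stmtLagrangeRel N) f hf)

/-- **Integral structure**: for every level `N ≥ 1` and every weight `k`, the space of cusp forms
`S_k(Γ₀(N))` is spanned over `ℂ` by the forms whose `q`-expansion has integer coefficients. -/
theorem hasIntegralStructure (N : ℕ) [NeZero N] (k : ℤ) : CuspForm.HasIntegralStructure N k :=
  hasIntegralStructure_of N k (main_stmtRatSpan N k) (main_stmtBdd N k)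

end Fermat.Agent.S23
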