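import Fermat.Agent.S23.Basic

/-!
# S23, piece (E)a — Hermite normal form of `[[N,0],[0,1]] * γ` and the slash formula for `Θ`

Main results (namespace `Fermat.Agent.S23`):
* `thetaMatrix_hermite_entries` : entrywise Hermite normal form over `ℤ`.
* `betaPt A D B z` : the point `(A z + B) / D` of the upper half plane.
* `deltaNFun_slash_apply_eq`, `thetaFun_slash_apply_eq` : for `γ ∈ SL(2,ℤ)` there are `A D B` with
  `A * D = N`, `(γ ∈ Γ₀(N) ↔ A = N)` and
  `(Θ ∣[w] γ) z = D ^ 12 * Δ(z) ^ N / Δ((A z + B) / D)`.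
-/

set_option autoImplicit false

noncomputable section

namespace Fermat.Agent.S23

open UpperHalfPlane ModularForm Matrix
open scoped MatrixGroups ModularForm

/-- Auxiliary: Hermite normal form, entrywise version. For `[[a,b],[c,d]] ∈ SL(2,ℤ)` there are
`[[x,u],[y,v]] ∈ SL(2,ℤ)` and `A D : ℕ`, `B : ℤ` with `A * D = N`, `0 ≤ B < D` and
`[[N,0],[0,1]] * [[a,b],[c,d]] = [[x,u],[y,v]] * [[A,B],[0,D]]`. -/
theorem thetaMatrix_hermite_entries (N : ℕ) [NeZero N] (a b c d : ℤ) (hdet : a * d - b * c = 1) :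
    ∃ (x u y v : ℤ) (A D : ℕ) (B : ℤ), x * v - u * y = 1 ∧ 0 < A ∧ 0 < D ∧ A * D = N ∧
      0 ≤ B ∧ B < D ∧
      x * A = N * a ∧ y * A = c ∧ x * B + u * D = N * b ∧ y * B + v * D = d ∧
      ((N : ℤ) ∣ c ↔ A = N) := by
  have hN : (N : ℤ) ≠ 0 := by exact_mod_cast NeZero.ne N
  have hNpos : (0 : ℤ) < N := by exact_mod_cast Nat.pos_of_ne_zero (NeZero.ne N)
  set g : ℕ := Int.gcd (N * a) c with hg
  have hgpos : 0 < g := by
    rw [hg]
    apply Int.gcd_pos_iff.mpr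
    by_contra hcon
    rw [not_or, not_not, not_not] at hcon
    obtain ⟨h1, h2⟩ := hcon
    have ha : a = 0 := by
      rcases mul_eq_zero.mp h1 with h | h
      · exact absurd h hN
      · exact h
    rw [ha, h2] at hdet
    simp at hdet
  have hgpos' : (0 : ℤ) < g := by exact_mod_cast hgpos
  obtain ⟨x, hx⟩ : (g : ℤ) ∣ N * a := Int.gcd_dvd_left _ _
  obtain ⟨y, hy⟩ : (g : ℤ) ∣ c := Int.gcd_dvd_right _ _
  -- Bezout
  have hbez : (g : ℤ) = N * a * Int.gcdA (N * a) c + c * Int.gcdB (N * a) c :=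
    Int.gcd_eq_gcd_ab (N * a) c
  set v0 := Int.gcdA (N * a) c
  set u0 := -Int.gcdB (N * a) c with hu0
  have hxv : x * v0 - u0 * y = 1 := by
    have h1 : (g : ℤ) * (x * v0 - u0 * y) = g * 1 := by
      have : (g : ℤ) * (x * v0 - u0 * y) = (g * x) * v0 + (g * y) * Int.gcdB (N * a) c := by
        rw [hu0]; ring
      rw [this, ← hx, ← hy, mul_one]
      exact hbez.symm
    exact mul_left_cancel₀ hgpos'.ne' h1
  -- D' and B0
  set D' : ℤ := x * d - y * N * b with hD'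
  set B0 : ℤ := v0 * N * b - u0 * d with hB0
  have hgD : (g : ℤ) * D' = N := by
    have : (g : ℤ) * D' = (g * x) * d - (g * y) * N * b := by rw [hD']; ring
    rw [this, ← hx, ← hy]
    linear_combination (N : ℤ) * hdet
  have hD'pos : 0 < D' := by
    by_contra hcon
    rw [not_lt] at hcon
    have : (g : ℤ) * D' ≤ 0 := mul_nonpos_of_nonneg_of_nonpos hgpos'.le hcon
    omega
  have h12 : x * B0 + u0 * D' = N * b := by
    rw [hB0, hD']
    linear_combination (N * b : ℤ) * hxv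
  have h22 : y * B0 + v0 * D' = d := by
    rw [hB0, hD']
    linear_combination d * hxv
  -- normalisation of B
  set t : ℤ := B0 / D' with ht
  set B : ℤ := B0 % D' with hB
  have hBt : B0 = D' * t + B := (Int.mul_ediv_add_emod B0 D').symm
  have hB0' : 0 ≤ B := Int.emod_nonneg _ hD'pos.ne'
  have hBlt : B < D' := Int.emod_lt_of_pos _ hD'pos
  refine ⟨x, x * t + u0, y, y * t + v0, g, D'.toNat, B, ?_, hgpos, ?_, ?_, hB0', ?_, ?_, ?_, ?_,
    ?_, ?_⟩
  · linear_combination hxv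
  · exact Int.pos_iff_toNat_pos.mp hD'pos
  · have : ((g * D'.toNat : ℕ) : ℤ) = (N : ℤ) := by
      push_cast
      rw [Int.toNat_of_nonneg hD'pos.le]
      exact hgD
    exact_mod_cast this
  · rw [Int.toNat_of_nonneg hD'pos.le]; exact hBlt
  · rw [hx]; ring
  · rw [hy]; ring
  · rw [Int.toNat_of_nonneg hD'pos.le]
    have : x * B = x * B0 - x * D' * t := by rw [hBt]; ring
    rw [this]
    linear_combination h12
  · rw [Int.toNat_of_nonneg hD'pos.le]
    have : y * B = y * B0 - y * D' * t := by rw [hBt]; ring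
    rw [this]
    linear_combination h22
  · -- N ∣ c ↔ g = N
    have hcop : IsCoprime a c := ⟨d, -b, by linear_combination hdet⟩
    constructor
    · intro hNc
      obtain ⟨c', hc'⟩ := hNc
      have hcop' : IsCoprime a c' := by
        rw [hc'] at hcop
        exact hcop.of_mul_right_right
      have h1 : Int.gcd (N * a) (N * c') = N * Int.gcd a c' := by
        rw [Int.gcd_mul_left]
        simp
      rw [hg, hc', h1, Int.isCoprime_iff_gcd_eq_one.mp hcop', mul_one]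
    · intro hgN
      have : (g : ℤ) ∣ c := Int.gcd_dvd_right _ _
      rw [hgN] at this
      exact this

/-- The point `(A z + B) / D` of the upper half plane (junk value unless `0 < A`, `0 < D`). -/
def betaPt (A D : ℕ) (B : ℤ) (z : ℍ) : ℍ :=
  ofComplex (((A : ℂ) * (z : ℂ) + (B : ℂ)) / (D : ℂ))

theorem thetaMatrix_im_pos {A D : ℕ} (B : ℤ) (hA : 0 < A) (hD : 0 < D) (z : ℍ) :
    0 < (((A : ℂ) * (z : ℂ) + (B : ℂ)) / (D : ℂ)).im := by
  have hA' : (0 : ℝ) < A := by exact_mod_cast hA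
  have hD' : (0 : ℝ) < D := by exact_mod_cast hD
  have h1 : (((A : ℂ) * (z : ℂ) + (B : ℂ)) / (D : ℂ)).im = (A : ℝ) * z.im / D := by
    have : ((A : ℂ) * (z : ℂ) + (B : ℂ)) / (D : ℂ)
        = ((((A : ℝ) * z.re + (B : ℝ)) / D : ℝ) : ℂ) + (((A : ℝ) * z.im / D : ℝ) : ℂ) * Complex.I := by
      have hDc : (D : ℂ) ≠ 0 := by exact_mod_cast hD.ne'
      have hz : (z : ℂ) = (z.re : ℂ) + (z.im : ℂ) * Complex.I := by
        simp [← UpperHalfPlane.coe_re, ← UpperHalfPlane.coe_im, Complex.re_add_im]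
      rw [hz]
      push_cast
      field_simp
      ring
    rw [this]
    simp
  rw [h1]
  positivity

@[simp] theorem coe_betaPt {A D : ℕ} (B : ℤ) (hA : 0 < A) (hD : 0 < D) (z : ℍ) :
    ((betaPt A D B z : ℍ) : ℂ) = ((A : ℂ) * (z : ℂ) + (B : ℂ)) / (D : ℂ) := by
  rw [betaPt, ofComplex_apply_of_im_pos (thetaMatrix_im_pos B hA hD z)]

theorem im_betaPt {A D : ℕ} (B : ℤ) (hA : 0 < A) (hD : 0 < D) (z : ℍ) :
    (betaPt A D B z).im = (A : ℝ) * z.im / D := by
  have hD' : (D : ℝ) ≠ 0 := by exact_mod_cast hD.ne'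
  have h := congrArg Complex.im (coe_betaPt B hA hD z)
  rw [UpperHalfPlane.coe_im] at h
  rw [h]
  have hDc : (D : ℂ) = ((D : ℝ) : ℂ) := by push_cast; rfl
  rw [hDc, Complex.div_ofReal_im]
  simp

/-- Modularity of `Δ` in pointwise form. -/
theorem thetaMatrix_discriminant_smul (γ : SL(2, ℤ)) (z : ℍ) :
    discriminant (γ • z) = denom γ z ^ (12 : ℕ) * discriminant z := by
  have h := congrFun (SlashInvariantForm.slash_action_generators_SL2Z
    discriminant_S_invariant discriminant_T_invariant γ) z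
  rw [SL_slash_apply] at h
  have hne : denom γ z ≠ 0 := denom_ne_zero _ z
  have h2 : denom γ z ^ (-(12 : ℤ)) * denom γ z ^ (12 : ℕ) = 1 := by
    rw [← zpow_natCast (denom γ z) 12, ← zpow_add₀ hne]
    norm_num
  calc discriminant (γ • z)
      = (discriminant (γ • z) * denom γ z ^ (-(12 : ℤ))) * denom γ z ^ (12 : ℕ) := by
        rw [mul_assoc, h2, mul_one]
    _ = denom γ z ^ (12 : ℕ) * discriminant z := by rw [h, mul_comm]

/-- **Slash formula.** For `γ ∈ SL(2,ℤ)` there are `A D : ℕ`, `B : ℤ` with `A * D = N`,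
`0 ≤ B < D`, `(γ ∈ Γ₀(N) ↔ A = N)` such that, with `w = (A z + B) / D`,
`(Δ(N ·) ∣[12] γ)(z) = D^(-12) Δ(w)` and `(Θ ∣[12(N-1)] γ)(z) = D^12 Δ(z)^N / Δ(w)`. -/
theorem thetaMatrix_slash_formula (N : ℕ) [NeZero N] (γ : SL(2, ℤ)) :
    ∃ (A D : ℕ) (B : ℤ), 0 < A ∧ 0 < D ∧ A * D = N ∧ 0 ≤ B ∧ B < D ∧
      (γ ∈ CongruenceSubgroup.Gamma0 N ↔ A = N) ∧
      (∀ z : ℍ, (deltaNFun N ∣[(12 : ℤ)] γ) z =
        ((D : ℂ) ^ (12 : ℕ))⁻¹ * discriminant (betaPt A D B z)) ∧
      (∀ z : ℍ, (thetaFun N ∣[thetaWeight N] γ) z =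
        (D : ℂ) ^ (12 : ℕ) * discriminant z ^ N / discriminant (betaPt A D B z)) := by
  have hdet : γ 0 0 * γ 1 1 - γ 0 1 * γ 1 0 = 1 := by
    have := γ.det_coe
    rw [Matrix.det_fin_two] at this
    linarith
  obtain ⟨x, u, y, v, A, D, B, hxv, hA, hD, hAD, hB0, hBD, h11, h21, h12, h22, hiff⟩ :=
    thetaMatrix_hermite_entries N (γ 0 0) (γ 0 1) (γ 1 0) (γ 1 1) hdet
  refine ⟨A, D, B, hA, hD, hAD, hB0, hBD, ?_, ?_⟩
  · rw [CongruenceSubgroup.Gamma0_mem, ← hiff, ZMod.intCast_zmod_eq_zero_iff_dvd]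
  -- the matrix γ'
  let γ' : SL(2, ℤ) := ⟨!![x, u; y, v], by rw [Matrix.det_fin_two_of]; linarith⟩
  have hDc : (D : ℂ) ≠ 0 := by exact_mod_cast hD.ne'
  have h11' : (N : ℂ) * ((γ 0 0 : ℤ) : ℂ) = (x : ℂ) * (A : ℂ) := by exact_mod_cast h11.symm
  have h12' : (N : ℂ) * ((γ 0 1 : ℤ) : ℂ) = (x : ℂ) * (B : ℂ) + (u : ℂ) * (D : ℂ) := by
    exact_mod_cast h12.symm
  have h21' : ((γ 1 0 : ℤ) : ℂ) = (y : ℂ) * (A : ℂ) := by exact_mod_cast h21.symm
  have h22' : ((γ 1 1 : ℤ) : ℂ) = (y : ℂ) * (B : ℂ) + (v : ℂ) * (D : ℂ) := by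
    exact_mod_cast h22.symm
  -- key pointwise facts
  have key : ∀ z : ℍ, denom γ z = (D : ℂ) * denom γ' (betaPt A D B z) ∧
      scaleN N (γ • z) = γ' • betaPt A D B z := by
    intro z
    have hden : denom γ z = (D : ℂ) * denom γ' (betaPt A D B z) := by
      rw [ModularGroup.denom_apply, ModularGroup.denom_apply, coe_betaPt B hA hD]
      have e1 : ((γ' 1 0 : ℤ) : ℂ) = (y : ℂ) := rfl
      have e2 : ((γ' 1 1 : ℤ) : ℂ) = (v : ℂ) := rfl
      rw [e1, e2, h21', h22']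
      field_simp
      ring
    refine ⟨hden, ?_⟩
    apply UpperHalfPlane.ext
    have hne : denom γ z ≠ 0 := denom_ne_zero _ z
    have hne' : denom γ' (betaPt A D B z) ≠ 0 := denom_ne_zero _ _
    rw [coe_scaleN, coe_specialLinearGroup_apply, coe_specialLinearGroup_apply]
    simp only [algebraMap_int_eq, Int.coe_castRingHom, Complex.ofReal_intCast]
    have hd1 : ((γ 1 0 : ℤ) : ℂ) * (z : ℂ) + ((γ 1 1 : ℤ) : ℂ) = denom γ z := rfl
    have hd2 : ((γ' 1 0 : ℤ) : ℂ) * ((betaPt A D B z : ℍ) : ℂ) + ((γ' 1 1 : ℤ) : ℂ)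
        = denom γ' (betaPt A D B z) := rfl
    rw [hd1, hd2, hden]
    have e1 : ((γ' 0 0 : ℤ) : ℂ) = (x : ℂ) := rfl
    have e2 : ((γ' 0 1 : ℤ) : ℂ) = (u : ℂ) := rfl
    rw [e1, e2]
    have hnum : (x : ℂ) * ((betaPt A D B z : ℍ) : ℂ) + (u : ℂ)
        = (N : ℂ) * (((γ 0 0 : ℤ) : ℂ) * (z : ℂ) + ((γ 0 1 : ℤ) : ℂ)) / (D : ℂ) := by
      rw [coe_betaPt B hA hD]
      field_simp
      linear_combination -(z : ℂ) * h11' - h12'
    rw [hnum]
    generalize denom γ' (betaPt A D B z) = j' at hne'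
    field_simp
  constructor
  · intro z
    obtain ⟨hden, hpt⟩ := key z
    have hne' : denom γ' (betaPt A D B z) ≠ 0 := denom_ne_zero _ _
    rw [SL_slash_apply]
    show discriminant (scaleN N (γ • z)) * denom γ z ^ (-(12 : ℤ)) = _
    rw [hpt, thetaMatrix_discriminant_smul, hden, _root_.zpow_neg, ← zpow_natCast _ 12]
    norm_num
    field_simp
  · intro z
    obtain ⟨hden, hpt⟩ := key z
    have hne : denom γ z ≠ 0 := denom_ne_zero _ z
    have hne' : denom γ' (betaPt A D B z) ≠ 0 := denom_ne_zero _ _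
    have hΔ : discriminant (betaPt A D B z) ≠ 0 := discriminant_ne_zero _
    rw [SL_slash_apply]
    show discriminant (γ • z) ^ N / discriminant (scaleN N (γ • z)) *
      denom γ z ^ (-thetaWeight N) = _
    rw [hpt, thetaMatrix_discriminant_smul, thetaMatrix_discriminant_smul]
    obtain ⟨M, hM⟩ : ∃ M : ℕ, N = M + 1 :=
      ⟨N - 1, (Nat.succ_pred_eq_of_pos (Nat.pos_of_ne_zero (NeZero.ne N))).symm⟩
    have hw : thetaWeight N = ((12 * M : ℕ) : ℤ) := by
      rw [thetaWeight, hM]; push_cast; ring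
    rw [hw, _root_.zpow_neg, zpow_natCast]
    have hj : denom γ z ^ (12 * M) ≠ 0 := pow_ne_zero _ hne
    rw [mul_pow, ← pow_mul, hM]
    have e : denom γ z ^ (12 * (M + 1)) = denom γ z ^ (12 * M) * denom γ z ^ 12 := by
      rw [← pow_add]; ring_nf
    rw [e, hden]
    field_simp

end Fermat.Agent.S23
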