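import Fermat.Agent.S23.BddGlue
import Fermat.Agent.S23.BddFraction

/-!
# S23, piece P18: bounded denominators

`bdd_of_almostIntegral N k : StmtP4 → StmtAlmostIntegral → StmtTheta N → StmtNormRel N →
  StmtLagrangeRel N → StmtBdd N k`.
-/

set_option autoImplicit false

noncomputable section

namespace Fermat.Agent.S23

open UpperHalfPlane ModularForm
open scoped MatrixGroups ModularForm Manifold

/-- **P18.** Cusp forms for `Γ₀(N)` with rational `q`-expansion have bounded denominators. -/
theorem bdd_of_almostIntegral (N : ℕ) [NeZero N] (k : ℤ) :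
    StmtP4 → StmtAlmostIntegral → StmtTheta N → StmtNormRel N → StmtLagrangeRel N →
      StmtBdd N k :=
  fun hP4 hAI hΘ hNR hLR =>
    bdd_of_parts N k hAI (bdd_monic_relation N k hP4 hNR) (bddFrac_exists N k hP4 hΘ hLR)

end Fermat.Agent.S23
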