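import Fermat.Agent.S23.BddTools

/-!
# S23, piece P18 part (1): the monic relation over `ℤ⟦X⟧`

For a cusp form `f` of level `Γ₀(N)` with rational `q`-expansion `F`, some nonzero multiple `M • F`
satisfies a monic equation of degree `cosetCard N` with coefficients in `ℤ⟦X⟧`
(`bdd_monic_relation`).
-/

set_option autoImplicit false

noncomputable section

namespace Fermat.Agent.S23

open UpperHalfPlane ModularForm
open scoped MatrixGroups ModularForm Manifold

theorem bddMonic_cosetCard_pos (N : ℕ) [NeZero N] : 1 ≤ cosetCard N :=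
  Finset.card_pos.mpr ⟨coset1 N, mem_cosetFinset _⟩

/-- The `q`-expansion of a monic relation between functions in `HPB`. -/
theorem bddMonic_qExp_relation (n : ℕ) (f : ℍ → ℂ) (hf : IsHPB f)
    (a : ℕ → ℍ → ℂ) (ha : ∀ m, 1 ≤ m → IsHPB (a m))
    (h : ∀ z, f z ^ n + ∑ m ∈ Finset.Icc 1 n, a m z * f z ^ (n - m) = 0) :
    qExpansion 1 f ^ n +
      ∑ m ∈ Finset.Icc 1 n, qExpansion 1 (a m) * qExpansion 1 f ^ (n - m) = 0 := by
  classical
  set fH : HPB := ⟨f, hf⟩ with hfH
  set A : ℕ → HPB := fun m => if hm : 1 ≤ m then ⟨a m, ha m hm⟩ else 0 with hA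
  have hAcoe : ∀ m, 1 ≤ m → ((A m : HPB) : ℍ → ℂ) = a m := by
    intro m hm
    simp only [hA, dif_pos hm]
  have key : fH ^ n + ∑ m ∈ Finset.Icc 1 n, A m * fH ^ (n - m) = 0 := by
    apply Subtype.ext
    funext z
    have h1 : ((fH ^ n + ∑ m ∈ Finset.Icc 1 n, A m * fH ^ (n - m) : HPB) : ℍ → ℂ) z =
        f z ^ n + ∑ m ∈ Finset.Icc 1 n, ((A m : HPB) : ℍ → ℂ) z * f z ^ (n - m) := by
      simp [hfH, Finset.sum_apply]
    rw [h1]
    have h2 : ∑ m ∈ Finset.Icc 1 n, ((A m : HPB) : ℍ → ℂ) z * f z ^ (n - m) =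
        ∑ m ∈ Finset.Icc 1 n, a m z * f z ^ (n - m) := by
      refine Finset.sum_congr rfl fun m hm => ?_
      rw [hAcoe m (Finset.mem_Icc.1 hm).1]
    rw [h2, h z]
    rfl
  have h3 := congrArg qExpHom key
  simp only [map_add, map_pow, map_sum, map_mul, map_zero] at h3
  have h4 : ∑ m ∈ Finset.Icc 1 n, qExpHom (A m) * qExpHom fH ^ (n - m) =
      ∑ m ∈ Finset.Icc 1 n, qExpansion 1 (a m) * qExpansion 1 f ^ (n - m) := by
    refine Finset.sum_congr rfl fun m hm => ?_
    rw [qExpHom_apply, qExpHom_apply, hAcoe m (Finset.mem_Icc.1 hm).1]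
  rw [h4] at h3
  exact h3

/-- **P18, part (1).** A nonzero multiple of a rational `q`-expansion of a cusp form for `Γ₀(N)`
is integral over `ℤ⟦X⟧`. -/
theorem bdd_monic_relation (N : ℕ) [NeZero N] (k : ℤ) (hP4 : StmtP4) (hNR : StmtNormRel N)
    (f : CuspForm (G0 N) k) (hf : IsRatPS (qExpansion 1 f)) :
    ∃ (M : ℕ) (c : ℕ → PowerSeries ℂ), M ≠ 0 ∧
      (∀ m, 1 ≤ m → m ≤ cosetCard N → IsIntPS (c m)) ∧
      ((M : ℂ) • qExpansion 1 f) ^ cosetCard N +
        ∑ m ∈ Finset.Icc 1 (cosetCard N),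
          c m * ((M : ℂ) • qExpansion 1 f) ^ (cosetCard N - m) = 0 := by
  classical
  obtain ⟨π, hπ⟩ := rationalSolve_exists_retraction
  obtain ⟨a, ha, hrel⟩ := hNR k f
  set n := cosetCard N with hn
  set F := qExpansion 1 f with hF
  have hq := bddMonic_qExp_relation n f (bddTools_isHPB_cuspForm f) a
    (fun m hm => bddTools_isHPB_levelOne (ha m hm).isMF) hrel
  -- apply the retraction
  have hq' : F ^ n +
      ∑ m ∈ Finset.Icc 1 n, rationalSolve_proj π (qExpansion 1 (a m)) * F ^ (n - m) = 0 := by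
    have h1 := congrArg (rationalSolve_proj π) hq
    rw [map_add, map_sum, map_zero, bddTools_proj_of_isRatPS hπ (bddTools_isRatPS_pow hf n)] at h1
    rw [← h1]
    congr 1
    refine Finset.sum_congr rfl fun m _ => ?_
    rw [bddTools_proj_mul π _ (bddTools_isRatPS_pow hf _)]
  -- common denominator
  obtain ⟨M, hM, hMint⟩ := HasBddDenom.common (Finset.Icc 1 n)
    (fun m => rationalSolve_proj π (qExpansion 1 (a m)))
    (fun m hm => bddTools_levelOne' hP4 π (ha m (Finset.mem_Icc.1 hm).1).isMF)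
  refine ⟨M, fun m => ((M : ℂ) ^ m) • rationalSolve_proj π (qExpansion 1 (a m)), hM, ?_, ?_⟩
  · intro m hm1 hmn
    have h1 := hMint m (Finset.mem_Icc.2 ⟨hm1, hmn⟩)
    have h2 : ((M : ℂ) ^ m) • rationalSolve_proj π (qExpansion 1 (a m)) =
        (((M ^ (m - 1) : ℕ) : ℂ)) • ((M : ℂ) • rationalSolve_proj π (qExpansion 1 (a m))) := by
      rw [smul_smul]
      congr 1
      push_cast
      rw [← pow_succ]
      congr 1
      omega
    show IsIntPS (((M : ℂ) ^ m) • rationalSolve_proj π (qExpansion 1 (a m)))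
    rw [h2]
    exact bddTools_isIntPS_smul_nat _ h1
  · show ((M : ℂ) • F) ^ n +
        ∑ m ∈ Finset.Icc 1 n, ((M : ℂ) ^ m • rationalSolve_proj π (qExpansion 1 (a m))) *
          ((M : ℂ) • F) ^ (n - m) = 0
    have h1 : ((M : ℂ) • F) ^ n +
        ∑ m ∈ Finset.Icc 1 n, ((M : ℂ) ^ m • rationalSolve_proj π (qExpansion 1 (a m))) *
          ((M : ℂ) • F) ^ (n - m) =
        ((M : ℂ) ^ n) • (F ^ n +
          ∑ m ∈ Finset.Icc 1 n, rationalSolve_proj π (qExpansion 1 (a m)) * F ^ (n - m)) := by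
      rw [smul_add, Finset.smul_sum, smul_pow]
      congr 1
      refine Finset.sum_congr rfl fun m hm => ?_
      have hmn : m ≤ n := (Finset.mem_Icc.1 hm).2
      rw [smul_pow, smul_mul_smul_comm, ← pow_add]
      congr 2
      omega
    rw [h1, hq', smul_zero]

end Fermat.Agent.S23
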