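import Fermat.Agent.S23.Interface
import Fermat.Agent.S23.RationalSolve
import Fermat.Agent.S23.AlmostIntegral
import Fermat.Agent.S23.QRing
import Fermat.Agent.S23.MFClosure
import Fermat.Agent.S23.LevelOneAux

/-!
# S23, piece P18 (tools): rational power series, bounded denominators, the concrete retraction

* `bddTools_isRatPS_*` : closure properties of `IsRatPS`.
* `HasBddDenom x` : some nonzero natural multiple of `x` has integer coefficients.
* `bddTools_proj_*` : properties of the concrete coefficientwise retraction `rationalSolve_proj π`.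
* `bddTools_levelOne` : the retraction of the `q`-expansion of a level-one modular form has bounded
  denominators (from `StmtP4`).
* `bddTools_isHPB_levelOne`, `bddTools_isHPB_cuspForm` : membership in the ring `HPB`.
-/

set_option autoImplicit false

noncomputable section

namespace Fermat.Agent.S23

open UpperHalfPlane ModularForm
open scoped MatrixGroups ModularForm Manifold

/-! ### Rational power series -/

/-- The subring of `ℂ⟦X⟧` of power series with rational coefficients. -/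
def bddTools_ratSubring : Subring (PowerSeries ℂ) := (PowerSeries.map (algebraMap ℚ ℂ)).range

theorem bddTools_isRatPS_iff_mem {F : PowerSeries ℂ} : IsRatPS F ↔ F ∈ bddTools_ratSubring := by
  constructor
  · intro h
    choose a ha using h
    refine ⟨PowerSeries.mk a, ?_⟩
    ext n
    simp [ha n]
  · rintro ⟨G, rfl⟩ n
    exact ⟨PowerSeries.coeff n G, by simp⟩

theorem bddTools_isRatPS_mul {F G : PowerSeries ℂ} (hF : IsRatPS F) (hG : IsRatPS G) :
    IsRatPS (F * G) :=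
  bddTools_isRatPS_iff_mem.2
    (bddTools_ratSubring.mul_mem (bddTools_isRatPS_iff_mem.1 hF) (bddTools_isRatPS_iff_mem.1 hG))

theorem bddTools_isRatPS_add {F G : PowerSeries ℂ} (hF : IsRatPS F) (hG : IsRatPS G) :
    IsRatPS (F + G) :=
  bddTools_isRatPS_iff_mem.2
    (bddTools_ratSubring.add_mem (bddTools_isRatPS_iff_mem.1 hF) (bddTools_isRatPS_iff_mem.1 hG))

theorem bddTools_isRatPS_pow {F : PowerSeries ℂ} (hF : IsRatPS F) (n : ℕ) : IsRatPS (F ^ n) :=
  bddTools_isRatPS_iff_mem.2 (bddTools_ratSubring.pow_mem (bddTools_isRatPS_iff_mem.1 hF) n)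

theorem bddTools_isRatPS_sum {ι : Type*} (s : Finset ι) (F : ι → PowerSeries ℂ)
    (hF : ∀ i ∈ s, IsRatPS (F i)) : IsRatPS (∑ i ∈ s, F i) :=
  bddTools_isRatPS_iff_mem.2
    (bddTools_ratSubring.sum_mem fun i hi => bddTools_isRatPS_iff_mem.1 (hF i hi))

theorem bddTools_isRatPS_one : IsRatPS (1 : PowerSeries ℂ) :=
  bddTools_isRatPS_iff_mem.2 bddTools_ratSubring.one_mem

theorem bddTools_isRatPS_zero : IsRatPS (0 : PowerSeries ℂ) :=
  bddTools_isRatPS_iff_mem.2 bddTools_ratSubring.zero_mem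

theorem bddTools_isRatPS_smul_rat (r : ℚ) {F : PowerSeries ℂ} (hF : IsRatPS F) :
    IsRatPS ((r : ℂ) • F) := fun n => by
  obtain ⟨s, hs⟩ := hF n
  exact ⟨r * s, by rw [PowerSeries.coeff_smul, hs, smul_eq_mul]; push_cast; rfl⟩

theorem bddTools_isRatPS_smul_nat (M : ℕ) {F : PowerSeries ℂ} (hF : IsRatPS F) :
    IsRatPS ((M : ℂ) • F) := fun n => by
  obtain ⟨s, hs⟩ := hF n
  exact ⟨M * s, by rw [PowerSeries.coeff_smul, hs, smul_eq_mul]; push_cast; rfl⟩

/-! ### Integral power series: scalar multiples -/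

theorem bddTools_isIntPS_smul_nat (M : ℕ) {F : PowerSeries ℂ} (hF : IsIntPS F) :
    IsIntPS ((M : ℂ) • F) := fun n => by
  obtain ⟨s, hs⟩ := hF n
  exact ⟨M * s, by rw [PowerSeries.coeff_smul, hs, smul_eq_mul]; push_cast; rfl⟩

theorem bddTools_isIntPS_smul_int (M : ℤ) {F : PowerSeries ℂ} (hF : IsIntPS F) :
    IsIntPS ((M : ℂ) • F) := fun n => by
  obtain ⟨s, hs⟩ := hF n
  exact ⟨M * s, by rw [PowerSeries.coeff_smul, hs, smul_eq_mul]; push_cast; rfl⟩

/-! ### Bounded denominators -/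

/-- Some nonzero natural multiple of `x` has integer coefficients. -/
def HasBddDenom (x : PowerSeries ℂ) : Prop := ∃ M : ℕ, M ≠ 0 ∧ IsIntPS ((M : ℂ) • x)

theorem HasBddDenom.of_isIntPS {x : PowerSeries ℂ} (hx : IsIntPS x) : HasBddDenom x :=
  ⟨1, one_ne_zero, by simpa using hx⟩

theorem HasBddDenom.isRatPS {x : PowerSeries ℂ} (hx : HasBddDenom x) : IsRatPS x := by
  obtain ⟨M, hM, h⟩ := hx
  intro n
  obtain ⟨z, hz⟩ := h n
  refine ⟨(z : ℚ) / M, ?_⟩
  have hM' : (M : ℂ) ≠ 0 := Nat.cast_ne_zero.mpr hM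
  rw [PowerSeries.coeff_smul, smul_eq_mul] at hz
  push_cast
  field_simp
  rw [← hz]
  ring

theorem HasBddDenom.zero : HasBddDenom (0 : PowerSeries ℂ) :=
  HasBddDenom.of_isIntPS almostInt_isIntPS_zero

theorem HasBddDenom.add {x y : PowerSeries ℂ} (hx : HasBddDenom x) (hy : HasBddDenom y) :
    HasBddDenom (x + y) := by
  obtain ⟨M₁, hM₁, h₁⟩ := hx
  obtain ⟨M₂, hM₂, h₂⟩ := hy
  refine ⟨M₁ * M₂, mul_ne_zero hM₁ hM₂, ?_⟩
  have : (((M₁ * M₂ : ℕ) : ℂ)) • (x + y) =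
      (M₂ : ℂ) • ((M₁ : ℂ) • x) + (M₁ : ℂ) • ((M₂ : ℂ) • y) := by
    rw [smul_add, smul_smul, smul_smul]
    push_cast
    rw [mul_comm (M₂ : ℂ) (M₁ : ℂ)]
  rw [this]
  exact almostInt_isIntPS_add (bddTools_isIntPS_smul_nat _ h₁) (bddTools_isIntPS_smul_nat _ h₂)

theorem HasBddDenom.mul {x y : PowerSeries ℂ} (hx : HasBddDenom x) (hy : HasBddDenom y) :
    HasBddDenom (x * y) := by
  obtain ⟨M₁, hM₁, h₁⟩ := hx
  obtain ⟨M₂, hM₂, h₂⟩ := hy
  refine ⟨M₁ * M₂, mul_ne_zero hM₁ hM₂, ?_⟩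
  have : (((M₁ * M₂ : ℕ) : ℂ)) • (x * y) = ((M₁ : ℂ) • x) * ((M₂ : ℂ) • y) := by
    rw [smul_mul_smul_comm]
    push_cast
    rfl
  rw [this]
  exact almostInt_isIntPS_mul h₁ h₂

theorem HasBddDenom.sum {ι : Type*} (s : Finset ι) (F : ι → PowerSeries ℂ)
    (hF : ∀ i ∈ s, HasBddDenom (F i)) : HasBddDenom (∑ i ∈ s, F i) := by
  classical
  induction s using Finset.induction_on with
  | empty => simpa using HasBddDenom.zero
  | insert a s ha ih =>
    rw [Finset.sum_insert ha]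
    exact (hF a (Finset.mem_insert_self a s)).add
      (ih fun i hi => hF i (Finset.mem_insert_of_mem hi))

theorem HasBddDenom.smul_rat (r : ℚ) {x : PowerSeries ℂ} (hx : HasBddDenom x) :
    HasBddDenom ((r : ℂ) • x) := by
  obtain ⟨M, hM, h⟩ := hx
  refine ⟨r.den * M, mul_ne_zero r.den_nz hM, ?_⟩
  have h1 : (((r.den : ℕ) : ℂ)) * ((r : ℚ) : ℂ) = ((r.num : ℤ) : ℂ) := by
    have := Rat.den_mul_eq_num r
    exact_mod_cast congrArg (fun q : ℚ => (q : ℂ)) this
  have : (((r.den * M : ℕ) : ℂ)) • ((r : ℂ) • x) = ((r.num : ℤ) : ℂ) • ((M : ℂ) • x) := by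
    rw [smul_smul, smul_smul, ← h1]
    push_cast
    ring_nf
  rw [this]
  exact bddTools_isIntPS_smul_int _ h

/-- A finite family of power series with bounded denominators has a common denominator. -/
theorem HasBddDenom.common {ι : Type*} (s : Finset ι) (F : ι → PowerSeries ℂ)
    (hF : ∀ i ∈ s, HasBddDenom (F i)) : ∃ M : ℕ, M ≠ 0 ∧ ∀ i ∈ s, IsIntPS ((M : ℂ) • F i) := by
  classical
  induction s using Finset.induction_on with
  | empty => exact ⟨1, one_ne_zero, fun i hi => absurd hi (Finset.notMem_empty i)⟩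
  | insert a s ha ih =>
    obtain ⟨M₁, hM₁, h₁⟩ := hF a (Finset.mem_insert_self a s)
    obtain ⟨M₂, hM₂, h₂⟩ := ih fun i hi => hF i (Finset.mem_insert_of_mem hi)
    refine ⟨M₁ * M₂, mul_ne_zero hM₁ hM₂, fun i hi => ?_⟩
    rcases Finset.mem_insert.1 hi with rfl | hi
    · have : (((M₁ * M₂ : ℕ) : ℂ)) • F i = (M₂ : ℂ) • ((M₁ : ℂ) • F i) := by
        rw [smul_smul]
        push_cast
        rw [mul_comm]
      rw [this]
      exact bddTools_isIntPS_smul_nat _ h₁
    · have : (((M₁ * M₂ : ℕ) : ℂ)) • F i = (M₁ : ℂ) • ((M₂ : ℂ) • F i) := by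
        rw [smul_smul]
        push_cast
        rfl
      rw [this]
      exact bddTools_isIntPS_smul_nat _ (h₂ i hi)

/-! ### The concrete retraction -/

theorem bddTools_proj_isRatPS (π : ℂ →ₗ[ℚ] ℚ) (x : PowerSeries ℂ) :
    IsRatPS (rationalSolve_proj π x) := fun n =>
  ⟨π (PowerSeries.coeff n x), rationalSolve_coeff_proj π x n⟩

theorem bddTools_proj_of_isRatPS {π : ℂ →ₗ[ℚ] ℚ} (hπ : ∀ r : ℚ, π (r : ℂ) = r)
    {R : PowerSeries ℂ} (hR : IsRatPS R) : rationalSolve_proj π R = R := by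
  ext n
  obtain ⟨r, hr⟩ := hR n
  rw [rationalSolve_coeff_proj, hr, hπ]

theorem bddTools_proj_mul (π : ℂ →ₗ[ℚ] ℚ) (x : PowerSeries ℂ) {R : PowerSeries ℂ}
    (hR : IsRatPS R) : rationalSolve_proj π (x * R) = rationalSolve_proj π x * R := by
  ext n
  choose r hr using hR
  rw [rationalSolve_coeff_proj, PowerSeries.coeff_mul, PowerSeries.coeff_mul, map_sum]
  push_cast
  refine Finset.sum_congr rfl fun ij _ => ?_
  rw [rationalSolve_coeff_proj, hr ij.2, rationalSolve_map_mul_rat]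
  push_cast
  rfl

theorem bddTools_proj_sum (π : ℂ →ₗ[ℚ] ℚ) {ι : Type*} (s : Finset ι) (F : ι → PowerSeries ℂ) :
    rationalSolve_proj π (∑ i ∈ s, F i) = ∑ i ∈ s, rationalSolve_proj π (F i) :=
  map_sum (rationalSolve_proj π) F s

/-! ### Level one -/

theorem bddTools_isHPB_levelOne {m : ℤ} {g : ℍ → ℂ} (h : IsMF 𝒮ℒ m g) : IsHPB g :=
  IsMF.isHPB (N := 1) (IsMF.of_levelOne h)

theorem bddTools_isHPB_modularForm {N : ℕ} [NeZero N] {k : ℤ} (f : ModularForm (G0 N) k) :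
    IsHPB (⇑f : ℍ → ℂ) :=
  IsMF.isHPB (N := N) ⟨f, rfl⟩

theorem bddTools_isHPB_cuspForm {N : ℕ} [NeZero N] {k : ℤ} (f : CuspForm (G0 N) k) :
    IsHPB (⇑f : ℍ → ℂ) :=
  IsMF.isHPB (N := N) (IsCF.isMF ⟨f, rfl⟩)

/-- The retraction of the `q`-expansion of a level-one modular form has bounded denominators. -/
theorem bddTools_levelOne (hP4 : StmtP4) (π : ℂ →ₗ[ℚ] ℚ) {m : ℤ} (a : ModularForm 𝒮ℒ m) :
    HasBddDenom (rationalSolve_proj π (qExpansion 1 a)) := by
  obtain ⟨y, ⟨D, hD, hy1⟩, hy2⟩ := p5_exists_functional_of_mem_span a (hP4 m a) π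
  have : rationalSolve_proj π (qExpansion 1 a) = qExpansion 1 y := by
    ext n
    rw [rationalSolve_coeff_proj, hy2]
  rw [this]
  refine ⟨D, hD, fun n => ?_⟩
  obtain ⟨z, hz⟩ := hy1 n
  exact ⟨z, by rw [PowerSeries.coeff_smul, smul_eq_mul, hz]⟩

/-- Function version of `bddTools_levelOne`. -/
theorem bddTools_levelOne' (hP4 : StmtP4) (π : ℂ →ₗ[ℚ] ℚ) {m : ℤ} {g : ℍ → ℂ}
    (hg : IsMF 𝒮ℒ m g) : HasBddDenom (rationalSolve_proj π (qExpansion 1 g)) := by
  obtain ⟨a, rfl⟩ := hg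
  exact bddTools_levelOne hP4 π a

end Fermat.Agent.S23
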