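import Fermat.Agent.S23.Basic

/-!
# S23 — the statements of the pieces, as `Prop`-valued definitions

Every piece of the S23 development is a theorem whose statement is one of the `Stmt…` propositions below
(or an implication between them). Downstream pieces take the upstream statements as HYPOTHESES, so that
all pieces can be developed, built and landed independently; `Fermat/Agent/S23.lean` glues them.
-/

set_option autoImplicit false

noncomputable section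

namespace Fermat.Agent.S23

open UpperHalfPlane ModularForm SlashInvariantForm
open scoped MatrixGroups ModularForm Manifold

/-- The identity coset of `Coset N`. -/
def coset1 (N : ℕ) : Coset N := QuotientGroup.mk 1

/-- The index `n = [SL(2,ℤ) : Γ₀(N)]`, as the cardinality of `cosetFinset N`. -/
def cosetCard (N : ℕ) [NeZero N] : ℕ := (cosetFinset N).card

open scoped Classical in
/-- `D_Θ(z) = ∏_{q ≠ ⟦1⟧} (Θ(z) − Θ_q(z))`, where `Θ_q` are the translates of `Θ` (`quotientFunc`). -/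
def Dfun {N : ℕ} [NeZero N] {w : ℤ} (Θ : ModularForm (G0 N) w) : ℍ → ℂ :=
  fun z => ∏ q ∈ (cosetFinset N).erase (coset1 N), (Θ z - quotientFunc Θ q z)

/-- (P5/L1) q-expansions of level-one modular forms are stable under ring homs `σ : ℂ →+* ℂ`. -/
def StmtL1 : Prop :=
  ∀ (σ : ℂ →+* ℂ) (m : ℤ) (a : ModularForm 𝒮ℒ m),
    ∃ a' : ModularForm 𝒮ℒ m, qExpansion 1 a' = PowerSeries.map σ (qExpansion 1 a)

/-- (P4) level-one modular forms are in the `ℂ`-span of those with integral q-expansion. -/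
def StmtP4 : Prop :=
  ∀ (m : ℤ) (a : ModularForm 𝒮ℒ m),
    a ∈ Submodule.span ℂ {b : ModularForm 𝒮ℒ m | IsIntPS (qExpansion 1 b)}

/-- (P6/B) algebraic ⇒ analytic. -/
def StmtB (N : ℕ) [NeZero N] : Prop :=
  ∀ (k W : ℤ) (n : ℕ), 1 ≤ n → ∀ (G D : ℍ → ℂ), IsMF (G0 N) (W + k) G → IsMF (G0 N) W D → D ≠ 0 →
    ∀ (a : ℕ → ℍ → ℂ), (∀ m : ℕ, 1 ≤ m → m ≤ n → IsCF 𝒮ℒ ((m : ℤ) * k) (a m)) →
    (∀ z, G z ^ n + ∑ m ∈ Finset.Icc 1 n, a m z * G z ^ (n - m) * D z ^ m = 0) →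
    ∃ f : CuspForm (G0 N) k, ∀ z, f z * D z = G z

/-- (P7 + P8) the form `Θ`: a modular form for `Γ₀(N)` with integral q-expansion, value `1` at `i∞`,
all of whose translates by `γ ∈ SL(2,ℤ) \ Γ₀(N)` vanish at `i∞`. (Any such `Θ` works; P7/P8 take
`Θ = Δ(z)^N / Δ(Nz)`.) -/
def StmtTheta (N : ℕ) [NeZero N] : Prop :=
  ∃ (w : ℤ) (Θ : ModularForm (G0 N) w), IsIntPS (qExpansion 1 Θ) ∧ (qExpansion 1 Θ).coeff 0 = 1 ∧
    ∀ γ : SL(2, ℤ), γ ∉ CongruenceSubgroup.Gamma0 N → IsZeroAtImInfty ((⇑Θ : ℍ → ℂ) ∣[w] γ)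

open scoped Classical in
/-- (P9) elementary symmetric functions of the translates are level-one forms. -/
def StmtEsymm (N : ℕ) [NeZero N] : Prop :=
  (∀ (k : ℤ) (f : ModularForm (G0 N) k) (m : ℕ),
    IsMF 𝒮ℒ ((m : ℤ) * k) (fun z => ∑ S ∈ Finset.powersetCard m (cosetFinset N),
      ∏ q ∈ S, quotientFunc f q z)) ∧
  (∀ (k : ℤ) (f : CuspForm (G0 N) k) (m : ℕ), 1 ≤ m →
    IsCF 𝒮ℒ ((m : ℤ) * k) (fun z => ∑ S ∈ Finset.powersetCard m (cosetFinset N),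
      ∏ q ∈ S, quotientFunc f q z)) ∧
  (∀ (k w : ℤ) (f : ModularForm (G0 N) k) (Θ : ModularForm (G0 N) w) (j : ℕ),
    IsMF 𝒮ℒ (k + (j : ℤ) * w) (fun z => ∑ q ∈ cosetFinset N, quotientFunc f q z *
      ∑ S ∈ Finset.powersetCard j ((cosetFinset N).erase q), ∏ q' ∈ S, quotientFunc Θ q' z))

/-- (P15a) the norm relation: a cusp form for `Γ₀(N)` is a root of a monic polynomial of degree
`n = cosetCard N` whose lower coefficients are level-one cusp forms. -/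
def StmtNormRel (N : ℕ) [NeZero N] : Prop :=
  ∀ (k : ℤ) (f : CuspForm (G0 N) k), ∃ a : ℕ → ℍ → ℂ,
    (∀ m : ℕ, 1 ≤ m → IsCF 𝒮ℒ ((m : ℤ) * k) (a m)) ∧
    ∀ z, f z ^ cosetCard N + ∑ m ∈ Finset.Icc 1 (cosetCard N), a m z * f z ^ (cosetCard N - m) = 0

/-- (P15b) the Lagrange relation: `f · D_Θ` is a polynomial in `Θ` of degree `< n` with level-one coefficients. -/
def StmtLagrangeRel (N : ℕ) [NeZero N] : Prop :=
  ∀ (k w : ℤ) (f : ModularForm (G0 N) k) (Θ : ModularForm (G0 N) w), ∃ l : ℕ → ℍ → ℂ,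
    (∀ j : ℕ, IsMF 𝒮ℒ (k + (j : ℤ) * w) (l j)) ∧
    ∀ z, f z * Dfun Θ z = ∑ j ∈ Finset.range (cosetCard N), l j z * Θ z ^ (cosetCard N - 1 - j)

/-- (N') almost integral ⇒ integral, for power series. -/
def StmtAlmostIntegral : Prop :=
  ∀ (x P Q : PowerSeries ℂ) (n : ℕ) (c : ℕ → PowerSeries ℂ),
    IsRatPS x → IsIntPS P → IsIntPS Q → Q ≠ 0 → Q * x = P →
    (∀ m : ℕ, 1 ≤ m → m ≤ n → IsIntPS (c m)) → 1 ≤ n →
    x ^ n + ∑ m ∈ Finset.Icc 1 n, c m * x ^ (n - m) = 0 → IsIntPS x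

/-- (P16) q-expansions of cusp forms of weight `k` for `Γ₀(N)` are stable under ring homs `σ : ℂ →+* ℂ`. -/
def StmtSigma (N : ℕ) [NeZero N] (k : ℤ) : Prop :=
  ∀ (σ : ℂ →+* ℂ) (f : CuspForm (G0 N) k),
    ∃ g : CuspForm (G0 N) k, qExpansion 1 g = PowerSeries.map σ (qExpansion 1 f)

/-- (P17) cusp forms with rational q-expansion span. -/
def StmtRatSpan (N : ℕ) [NeZero N] (k : ℤ) : Prop :=
  Submodule.span ℂ {f : CuspForm (G0 N) k | IsRatPS (qExpansion 1 f)} = ⊤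

/-- (P18) bounded denominators. -/
def StmtBdd (N : ℕ) [NeZero N] (k : ℤ) : Prop :=
  ∀ f : CuspForm (G0 N) k, IsRatPS (qExpansion 1 f) →
    ∃ M : ℕ, M ≠ 0 ∧ IsIntPS ((M : ℂ) • qExpansion 1 f)

end Fermat.Agent.S23
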