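import Fermat.Agent.S23.LevelOneInt

/-!
# S23 piece P4: level-one modular forms are spanned by forms with integral q-expansion

All names live in `Fermat.Agent.S23` and are prefixed `los` (level-one span), except the
interface theorem `levelOne_mem_span_int`.
-/

set_option autoImplicit false

open UpperHalfPlane ModularForm ModularFormClass MatrixGroups EisensteinSeries

noncomputable section

namespace Fermat.Agent.S23

/-- The set of level-one forms of weight `m` with integral `q`-expansion. -/
def losIntSet (m : ℤ) : Set (ModularForm 𝒮ℒ m) :=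
  {b | ∀ n, ∃ z : ℤ, (qExpansion 1 b).coeff n = (z : ℂ)}

theorem los_mem_intSet_iff {m : ℤ} (b : ModularForm 𝒮ℒ m) :
    b ∈ losIntSet m ↔ qExpansion 1 b ∈ levelOneInt_psCoeffsIn ⊥ := by
  constructor
  · intro h n
    obtain ⟨z, hz⟩ := h n
    rw [hz]
    exact intCast_mem _ z
  · intro h n
    exact levelOneInt_exists_int_of_mem_bot (h n)

theorem los_E4_mem : (E₄ : ModularForm 𝒮ℒ 4) ∈ losIntSet 4 := fun n => E4_qExpansion_int n

theorem los_E6_mem : (E₆ : ModularForm 𝒮ℒ 6) ∈ losIntSet 6 := fun n => E6_qExpansion_int n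

theorem los_one_mem : (1 : ModularForm 𝒮ℒ 0) ∈ losIntSet 0 := by
  rw [los_mem_intSet_iff, ModularForm.qExpansion_one]
  exact Subring.one_mem _

theorem los_mul_mem {a b : ℤ} {f : ModularForm 𝒮ℒ a} {g : ModularForm 𝒮ℒ b}
    (hf : f ∈ losIntSet a) (hg : g ∈ losIntSet b) : f.mul g ∈ losIntSet (a + b) := by
  rw [los_mem_intSet_iff] at hf hg ⊢
  rw [ModularForm.qExpansion_mul one_pos one_mem_strictPeriods_SL]
  exact Subring.mul_mem _ hf hg

theorem los_mcast_mem {a b : ℤ} (h : a = b) {f : ModularForm 𝒮ℒ a}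
    (hf : f ∈ losIntSet a) : ModularForm.mcast h f ∈ losIntSet b := by
  subst h
  exact hf

theorem los_coeff_zero_mul {a b : ℤ} (f : ModularForm 𝒮ℒ a) (g : ModularForm 𝒮ℒ b) :
    (qExpansion 1 (f.mul g)).coeff 0 = (qExpansion 1 f).coeff 0 * (qExpansion 1 g).coeff 0 := by
  rw [ModularForm.qExpansion_mul one_pos one_mem_strictPeriods_SL]
  simp

/-- In every even weight `2 j + 4 ≥ 4` there is an integral form with constant term `1`. -/
theorem los_exists_G_aux (j : ℕ) :
    ∃ G : ModularForm 𝒮ℒ (2 * (j : ℤ) + 4), G ∈ losIntSet _ ∧ (qExpansion 1 G).coeff 0 = 1 := by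
  induction j using Nat.strong_induction_on with
  | _ j ih =>
    match j, ih with
    | 0, _ =>
      exact ⟨ModularForm.mcast (by norm_num) E₄, los_mcast_mem _ los_E4_mem,
        E_qExpansion_coeff_zero (by norm_num : 3 ≤ 4) ⟨2, rfl⟩⟩
    | 1, _ =>
      exact ⟨ModularForm.mcast (by norm_num) E₆, los_mcast_mem _ los_E6_mem,
        E_qExpansion_coeff_zero (by norm_num : 3 ≤ 6) ⟨3, rfl⟩⟩
    | (j + 2), ih =>
      obtain ⟨G, hG, hG0⟩ := ih j (by omega)
      refine ⟨ModularForm.mcast (by push_cast; ring) (E₄.mul G),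
        los_mcast_mem _ (los_mul_mem los_E4_mem hG), ?_⟩
      have := los_coeff_zero_mul E₄ G
      rw [hG0, E_qExpansion_coeff_zero (by norm_num : 3 ≤ 4) ⟨2, rfl⟩, mul_one] at this
      exact this

/-- In every even weight `m ≥ 0`, `m ≠ 2`, there is an integral form with constant term `1`. -/
theorem los_exists_G {m : ℤ} (hm : 0 ≤ m) (he : Even m) (h2 : m ≠ 2) :
    ∃ G : ModularForm 𝒮ℒ m, G ∈ losIntSet m ∧ (qExpansion 1 G).coeff 0 = 1 := by
  obtain ⟨r, hr⟩ := he
  rcases eq_or_ne m 0 with rfl | h0
  · exact ⟨1, los_one_mem, by rw [ModularForm.qExpansion_one]; simp⟩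
  · have hr2 : 2 ≤ r := by omega
    obtain ⟨j, hj⟩ : ∃ j : ℕ, r = (j : ℤ) + 2 := ⟨(r - 2).toNat, by omega⟩
    obtain ⟨G, hG, hG0⟩ := los_exists_G_aux j
    have hw : 2 * (j : ℤ) + 4 = m := by omega
    exact ⟨ModularForm.mcast hw G, los_mcast_mem hw hG, hG0⟩

/-- multiplication by `Δ` as a linear map `M_{m-12} → M_m`. -/
def losMulDisc (m : ℤ) : ModularForm 𝒮ℒ (m - 12) →ₗ[ℂ] ModularForm 𝒮ℒ m :=
  CuspForm.toModularFormₗ ∘ₗ (CuspForm.discriminantEquiv (k := m)).symm.toLinearMap

theorem losMulDisc_coe (m : ℤ) (g : ModularForm 𝒮ℒ (m - 12)) :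
    (⇑(losMulDisc m g) : ℍ → ℂ) = ⇑CuspForm.discriminant * ⇑g := by
  ext z
  rfl

theorem losMulDisc_mem {m : ℤ} {g : ModularForm 𝒮ℒ (m - 12)} (hg : g ∈ losIntSet (m - 12)) :
    losMulDisc m g ∈ losIntSet m := by
  rw [los_mem_intSet_iff] at hg ⊢
  rw [losMulDisc_coe, ModularForm.qExpansion_mul_coe one_pos one_mem_strictPeriods_SL]
  refine Subring.mul_mem _ ?_ hg
  rw [CuspForm.coe_discriminant]
  exact levelOneInt_discriminant_mem ⊥

theorem losMulDisc_discriminantEquiv {m : ℤ} (f : ModularForm 𝒮ℒ m)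
    (h : (qExpansion 1 f).coeff 0 = 0) :
    losMulDisc m (CuspForm.discriminantEquiv (toCuspForm f h)) = f := by
  ext z
  change ModularForm.discriminant z * (CuspForm.discriminantEquiv (toCuspForm f h)) z = f z
  rw [ModularForm.discriminant_mul_discriminantEquiv_apply]
  rfl

theorem los_mem_span_aux (n : ℕ) : ∀ m : ℤ, m < n → ∀ a : ModularForm 𝒮ℒ m,
    a ∈ Submodule.span ℂ (losIntSet m) := by
  induction n with
  | zero =>
    intro m hm a
    have : a = 0 := by
      have := ModularForm.levelOne_neg_weight_rank_zero (k := m) (by simpa using hm)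
      exact rank_zero_iff_forall_zero.mp this a
    rw [this]
    exact Submodule.zero_mem _
  | succ n ih =>
    intro m hm a
    rcases lt_or_eq_of_le (show m ≤ n by push_cast at hm; omega) with hlt | rfl
    · exact ih m hlt a
    · rcases Int.even_or_odd (n : ℤ) with he | ho
      · rcases eq_or_ne (n : ℤ) 2 with h2 | h2
        · have : a = 0 := by
            have h := ModularForm.levelOne_weight_two_rank_zero
            rw [← h2] at h
            exact rank_zero_iff_forall_zero.mp h a
          rw [this]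
          exact Submodule.zero_mem _
        · obtain ⟨G, hG, hG0⟩ := los_exists_G (Int.natCast_nonneg n) he h2
          set c : ℂ := (qExpansion 1 a).coeff 0 with hc
          set h : ModularForm 𝒮ℒ (n : ℤ) := a - c • G with hh
          have h0 : (qExpansion 1 h).coeff 0 = 0 := by
            rw [hh, FunLike.coe_sub, ModularForm.qExpansion_sub one_pos one_mem_strictPeriods_SL,
              FunLike.coe_smul, ModularForm.qExpansion_smul one_pos one_mem_strictPeriods_SL,
              map_sub, PowerSeries.coeff_smul, hG0]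
            simp [hc]
          have hg := ih ((n : ℤ) - 12) (by omega) (CuspForm.discriminantEquiv (toCuspForm h h0))
          have hmem : h ∈ Submodule.span ℂ (losIntSet (n : ℤ)) := by
            rw [← losMulDisc_discriminantEquiv h h0]
            have := Submodule.apply_mem_span_image_of_mem_span (losMulDisc (n : ℤ)) hg
            refine Submodule.span_mono ?_ this
            rintro _ ⟨g, hg, rfl⟩
            exact losMulDisc_mem hg
          have ha : a = h + c • G := by rw [hh]; abel
          rw [ha]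
          exact Submodule.add_mem _ hmem (Submodule.smul_mem _ _ (Submodule.subset_span hG))
      · rw [ModularForm.levelOne_odd_weight_eq_zero ho a]
        exact Submodule.zero_mem _

/-- **P4**: every level-one modular form lies in the `ℂ`-span of the forms with integral
`q`-expansion. -/
theorem levelOne_mem_span_int {m : ℤ} (a : ModularForm 𝒮ℒ m) :
    a ∈ Submodule.span ℂ {b : ModularForm 𝒮ℒ m | ∀ n, ∃ z : ℤ, (qExpansion 1 b).coeff n = (z : ℂ)} :=
  los_mem_span_aux (m.toNat + 1) m (by push_cast; omega) a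

end Fermat.Agent.S23
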