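import Fermat.Agent.S23.Interface
import Fermat.Agent.S23.Theta
import Fermat.Agent.S23.ThetaSlash

/-!
# S23 — `StmtTheta N` from P7 (`Theta.lean`) and P8 (`ThetaSlash.lean`)

`Θ = Δ(z)^N / Δ(N z)` is a modular form of weight `12 (N - 1)` for `Γ₀(N)` with integral q-expansion,
constant term `1`, all of whose translates by `γ ∈ SL(2,ℤ) \ Γ₀(N)` vanish at `i∞`.
-/

set_option autoImplicit false

noncomputable section

namespace Fermat.Agent.S23

open UpperHalfPlane ModularForm SlashInvariantForm
open scoped MatrixGroups ModularForm Manifold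

/-- (P7 + P8) the statement `StmtTheta N` of the interface. -/
theorem p78_stmtTheta (N : ℕ) [NeZero N] : StmtTheta N := by
  obtain ⟨Θ, hΘ⟩ := isMF_thetaFun N
  refine ⟨thetaWeight N, Θ, ?_, ?_, ?_⟩
  · intro n
    rw [hΘ]
    exact thetaFun_qExpansion_int N n
  · rw [hΘ]
    exact thetaFun_qExpansion_coeff_zero N
  · intro γ hγ
    rw [hΘ]
    exact thetaFun_slash_isZeroAtImInfty N γ hγ

end Fermat.Agent.S23
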